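import Mathlib

set_option autoImplicit false

/-!
# Symmetric products of conjugates have coefficients in the base ring
-/

open Polynomial

noncomputable section

namespace Fermat.Agent.LP

theorem coeff_prod_conj_mem {R B G : Type*} [CommRing R] [CommRing B] [Algebra R B] [Group G]
    [Fintype G] [MulSemiringAction G B] [Algebra.IsInvariant R B G]
    {L : Type*} [CommRing L] (φ : B →+* L) (L₀ : Subring L)
    (hL₀ : ∀ r : R, φ (algebraMap R B r) ∈ L₀) {J : Type*} [Fintype J] (z : J → B) (r : J → L)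
    (hr : ∀ j, r j ∈ L₀) (n : ℕ) :
    (∏ σ : G, (X - C (∑ j, r j * φ (σ • z j)))).coeff n ∈ L₀ := by
  classical
  set Q : (MvPolynomial J B)[X] :=
    ∏ σ : G, (X - C (∑ j, MvPolynomial.C (σ • z j) * MvPolynomial.X j)) with hQ
  -- invariance
  have hinv : ∀ τ : G, Q.map (MvPolynomial.map (MulSemiringAction.toRingHom G B τ)) = Q := by
    intro τ
    rw [hQ, Polynomial.map_prod]
    rw [← Equiv.prod_comp (Equiv.mulLeft τ) (fun σ : G =>
      (X - C (∑ j, MvPolynomial.C (σ • z j) * MvPolynomial.X j) : (MvPolynomial J B)[X]))]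
    refine Finset.prod_congr rfl fun σ _ => ?_
    rw [Polynomial.map_sub, map_X, map_C, map_sum]
    congr 2
    refine Finset.sum_congr rfl fun j _ => ?_
    rw [map_mul, MvPolynomial.map_C, MvPolynomial.map_X, MulSemiringAction.toRingHom_apply,
      Equiv.coe_mulLeft, mul_smul]
  have hrange : Q.coeff n ∈ Set.range (MvPolynomial.map (σ := J) (algebraMap R B)) := by
    rw [MvPolynomial.mem_range_map_iff_coeffs_subset]
    intro b hb
    rw [Finset.mem_coe, MvPolynomial.mem_coeffs_iff] at hb
    obtain ⟨m, hm, rfl⟩ := hb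
    obtain ⟨a, ha⟩ := Algebra.IsInvariant.isInvariant (A := R) (B := B) (G := G)
      (MvPolynomial.coeff m (Q.coeff n)) (by
        intro τ
        have h1 := congrArg (fun p : (MvPolynomial J B)[X] => MvPolynomial.coeff m (p.coeff n))
          (hinv τ)
        simp only [coeff_map, MvPolynomial.coeff_map] at h1
        exact h1)
    exact ⟨a, ha⟩
  obtain ⟨q, hq⟩ := hrange
  have h2 : (∏ σ : G, (X - C (∑ j, r j * φ (σ • z j)))) =
      Q.map (MvPolynomial.eval₂Hom φ r) := by
    rw [hQ, Polynomial.map_prod]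
    refine Finset.prod_congr rfl fun σ _ => ?_
    have h3 : (MvPolynomial.eval₂Hom φ r) (∑ j, MvPolynomial.C (σ • z j) * MvPolynomial.X j) =
        ∑ j, r j * φ (σ • z j) := by
      rw [map_sum]
      refine Finset.sum_congr rfl fun j _ => ?_
      rw [map_mul, MvPolynomial.coe_eval₂Hom, MvPolynomial.eval₂_C, MvPolynomial.eval₂_X, mul_comm]
    rw [Polynomial.map_sub, map_X, map_C, h3]
  rw [h2, coeff_map, ← hq, MvPolynomial.coe_eval₂Hom, MvPolynomial.eval₂_map, 
    MvPolynomial.eval₂_eq]
  refine Subring.sum_mem _ fun m _ => Subring.mul_mem _ (hL₀ _) ?_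
  exact Subring.prod_mem _ fun j _ => Subring.pow_mem _ (hr j) _

end Fermat.Agent.LP
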