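import Mathlib

set_option autoImplicit false

/-!
# Integer valued binomial polynomials
-/

open Polynomial Finset

noncomputable section

namespace Fermat.Agent.LP

/-- the binomial coefficient `x` choose `j` in a field of characteristic zero -/
def bc {K : Type*} [Field K] (j : ℕ) (x : K) : K := (∏ i ∈ range j, (x - i)) / (j.factorial : K)

/-- the binomial polynomial -/
def bcPoly (j : ℕ) : ℚ[X] := C ((j.factorial : ℚ)⁻¹) * ∏ i ∈ range j, (X - C (i : ℚ))

theorem natDegree_bcPoly_le (j : ℕ) : (bcPoly j).natDegree ≤ j := by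
  rw [bcPoly]
  refine (natDegree_C_mul_le _ _).trans ?_
  refine (natDegree_prod_le _ _).trans ?_
  rw [Finset.sum_congr rfl fun i _ => natDegree_X_sub_C _]
  simp

theorem eval_bcPoly {K : Type*} [Field K] [CharZero K] (j : ℕ) (x : K) :
    ((bcPoly j).map (algebraMap ℚ K)).eval x = bc j x := by
  rw [bcPoly, Polynomial.map_mul, eval_mul, Polynomial.map_prod, eval_prod, bc, div_eq_inv_mul]
  simp

theorem eval_bcPoly_rat (j : ℕ) (x : ℚ) : (bcPoly j).eval x = bc j x := by
  rw [bcPoly, eval_mul, eval_prod, bc, div_eq_inv_mul]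
  simp

theorem bc_intCast {K : Type*} [Field K] [CharZero K] (j : ℕ) (m : ℤ) :
    bc j (m : K) = ((Ring.choose m j : ℤ) : K) := by
  have h1 := Ring.descPochhammer_eq_factorial_smul_choose m j
  have hf : (j.factorial : K) ≠ 0 := by exact_mod_cast j.factorial_ne_zero
  rw [bc, div_eq_iff hf]
  have h2 : ((descPochhammer ℤ j).smeval m : ℤ) = ∏ i ∈ range j, (m - i) := by
    rw [← Polynomial.eval_eq_smeval, descPochhammer_eval_eq_prod_range]
  rw [h2, nsmul_eq_mul] at h1
  have h3 := congrArg (Int.cast : ℤ → K) h1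
  push_cast at h3
  rw [h3, mul_comm]

theorem bc_natCast {K : Type*} [Field K] [CharZero K] (j n : ℕ) :
    bc j (n : K) = (n.choose j : K) := by
  have h := bc_intCast (K := K) j n
  rw [Int.cast_natCast] at h
  rw [h, Ring.choose_natCast]
  simp

theorem exists_expansion_aux (e : ℤ) (D b : ℕ) :
    ∃ a : ℕ → ℤ, (bcPoly b).comp (C (e : ℚ) * X + C (D : ℚ)) =
      ∑ j ∈ range (b + 1), C (a j : ℚ) * bcPoly j := by
  set P : ℚ[X] := (bcPoly b).comp (C (e : ℚ) * X + C (D : ℚ)) with hP
  have hPdeg : P.natDegree ≤ b := by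
    rw [hP]
    refine natDegree_comp_le.trans ?_
    have h1 : (C (e : ℚ) * X + C (D : ℚ)).natDegree ≤ 1 := natDegree_linear_le
    calc _ ≤ b * 1 := Nat.mul_le_mul (natDegree_bcPoly_le b) h1
      _ = b := mul_one b
  have hPint : ∀ m : ℤ, P.eval (m : ℚ) = ((Ring.choose (e * m + D) b : ℤ) : ℚ) := by
    intro m
    rw [hP, eval_comp, eval_add, eval_mul, eval_C, eval_X, eval_C]
    rw [eval_bcPoly_rat]
    have h2 := bc_intCast (K := ℚ) b (e * m + D)
    push_cast at h2
    exact_mod_cast h2
  set f : ℤ → ℤ := fun y => Ring.choose (e * y + D) b with hf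
  set a : ℕ → ℤ := fun k => (fwdDiff (1 : ℤ))^[k] f 0 with ha
  have hak : ∀ k, ((a k : ℤ) : ℚ) = (fwdDiff (1 : ℚ))^[k] P.eval 0 := by
    intro k
    rw [ha]
    simp only
    rw [fwdDiff_iter_eq_sum_shift, fwdDiff_iter_eq_sum_shift]
    push_cast
    refine Finset.sum_congr rfl fun i _ => ?_
    have h1 := hPint i
    simp only [zero_add, nsmul_eq_mul, mul_one, smul_eq_mul, zsmul_eq_mul]
    rw [Int.cast_natCast] at h1
    rw [h1, hf]
    push_cast
    rfl
  refine ⟨a, ?_⟩
  have hagree : ∀ n : ℕ, P.eval (n : ℚ) = (∑ j ∈ range (b + 1), C (a j : ℚ) * bcPoly j).eval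
      (n : ℚ) := by
    intro n
    have h1 := shift_eq_sum_fwdDiff_iter (1 : ℚ) P.eval n 0
    rw [zero_add, nsmul_eq_mul, mul_one] at h1
    rw [h1, eval_finsetSum]
    have h2 : ∀ j ∈ range (b + 1), (C (a j : ℚ) * bcPoly j).eval (n : ℚ) =
        n.choose j • (fwdDiff (1 : ℚ))^[j] P.eval 0 := by
      intro j _
      rw [eval_mul, eval_C, eval_bcPoly_rat, bc_natCast, hak, nsmul_eq_mul, mul_comm]
    rw [Finset.sum_congr rfl h2]
    -- compare the two ranges
    have h4 : ∀ N : ℕ, n ≤ N → b ≤ N → ∑ k ∈ range (n + 1), n.choose k •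
        (fwdDiff (1 : ℚ))^[k] P.eval 0 = ∑ k ∈ range (b + 1), n.choose k •
        (fwdDiff (1 : ℚ))^[k] P.eval 0 := by
      intro N hnN hbN
      have h5 : ∑ k ∈ range (n + 1), n.choose k • (fwdDiff (1 : ℚ))^[k] P.eval 0 =
          ∑ k ∈ range (N + 1), n.choose k • (fwdDiff (1 : ℚ))^[k] P.eval 0 := by
        apply Finset.sum_subset
        · exact Finset.range_mono (by omega)
        · intro k _ hk
          rw [Finset.mem_range, not_lt] at hk
          rw [Nat.choose_eq_zero_of_lt (by omega), zero_smul]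
      have h6 : ∑ k ∈ range (b + 1), n.choose k • (fwdDiff (1 : ℚ))^[k] P.eval 0 =
          ∑ k ∈ range (N + 1), n.choose k • (fwdDiff (1 : ℚ))^[k] P.eval 0 := by
        apply Finset.sum_subset
        · exact Finset.range_mono (by omega)
        · intro k _ hk
          rw [Finset.mem_range, not_lt] at hk
          rw [fwdDiff_iter_eq_zero_of_degree_lt (P := P) (lt_of_le_of_lt hPdeg (by omega))]
          simp
      rw [h5, h6]
    exact h4 (max n b) (le_max_left _ _) (le_max_right _ _)
  apply Polynomial.funext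
  intro x
  have h7 : P - ∑ j ∈ range (b + 1), C (a j : ℚ) * bcPoly j = 0 := by
    apply Polynomial.eq_zero_of_infinite_isRoot
    refine Set.Infinite.mono (s := Set.range (Nat.cast : ℕ → ℚ)) ?_
      (Set.infinite_range_of_injective Nat.cast_injective)
    rintro _ ⟨n, rfl⟩
    change IsRoot _ _
    rw [IsRoot, eval_sub, hagree n, sub_self]
  rw [sub_eq_zero.mp h7]

/-- **Integral expansions of binomial coefficients.** -/
theorem exists_expansion (e : ℤ) (D b : ℕ) :
    ∃ a : ℕ → ℤ, ∀ {K : Type*} [Field K] [CharZero K] (x : K),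
      bc b (e * x + D) = ∑ j ∈ range (b + 1), (a j : K) * bc j x := by
  obtain ⟨a, ha⟩ := exists_expansion_aux e D b
  refine ⟨a, fun {K} _ _ x => ?_⟩
  have h := congrArg (fun p : ℚ[X] => (p.map (algebraMap ℚ K)).eval x) ha
  simp only [Polynomial.map_comp, eval_comp, Polynomial.map_sum, eval_finsetSum,
    Polynomial.map_mul, eval_mul, eval_bcPoly, Polynomial.map_add, Polynomial.map_C, map_X,
    eval_add, eval_C, eval_X] at h
  simp only [map_intCast, map_natCast] at h
  exact h

end Fermat.Agent.LP
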