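import Mathlib

set_option autoImplicit false

/-!
# Laurent series with coefficients in a valuation ring
-/

open PowerSeries

noncomputable section

namespace Fermat.Agent.LP

section P1

variable {A : Type*} [CommRing A] [IsDomain A] [ValuationRing A]

/-- finitely many non units are divisible by a common non unit. -/
theorem exists_common_divisor (E : ℕ → A) (i : ℕ)
    (hE : ∀ j < i, E j ∈ IsLocalRing.maximalIdeal A) :
    ∃ π ∈ IsLocalRing.maximalIdeal A, ∀ j < i, π ∣ E j := by
  induction i with
  | zero => exact ⟨0, Ideal.zero_mem _, fun j hj => absurd hj (Nat.not_lt_zero _)⟩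
  | succ i ih =>
    obtain ⟨π, hπ, h⟩ := ih fun j hj => hE j (Nat.lt_succ_of_lt hj)
    rcases ValuationRing.dvd_total π (E i) with h1 | h1
    · refine ⟨π, hπ, fun j hj => ?_⟩
      rcases Nat.lt_succ_iff_lt_or_eq.mp hj with h2 | rfl
      · exact h j h2
      · exact h1
    · refine ⟨E i, hE i (Nat.lt_succ_self i), fun j hj => ?_⟩
      rcases Nat.lt_succ_iff_lt_or_eq.mp hj with h2 | rfl
      · exact h1.trans (h j h2)
      · exact dvd_rfl

/-- A power series with nonzero reduction is a nonzerodivisor modulo `a`. -/
theorem dvd_coeff_of_dvd_coeff_mul {x E : PowerSeries A} {a : A}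
    (hrank : ∀ π ∈ IsLocalRing.maximalIdeal A, ∃ n : ℕ, a ∣ π ^ n)
    (hE : PowerSeries.map (IsLocalRing.residue A) E ≠ 0)
    (h : ∀ n, a ∣ coeff n (x * E)) (n : ℕ) : a ∣ coeff n x := by
  classical
  -- the first unit coefficient
  have hex : ∃ i, coeff i E ∉ IsLocalRing.maximalIdeal A := by
    by_contra hcon
    push Not at hcon
    apply hE
    ext i
    rw [PowerSeries.coeff_map, map_zero]
    exact Ideal.Quotient.eq_zero_iff_mem.mpr (hcon i)
  set i := Nat.find hex with hi
  have hi1 : coeff i E ∉ IsLocalRing.maximalIdeal A := Nat.find_spec hex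
  have hi2 : ∀ j < i, coeff j E ∈ IsLocalRing.maximalIdeal A := fun j hj => by
    have := Nat.find_min hex hj
    rwa [not_not] at this
  have hu : IsUnit (coeff i E) := by
    by_contra hcon
    exact hi1 ((IsLocalRing.mem_maximalIdeal _).mpr hcon)
  obtain ⟨π, hπ, hdiv⟩ := exists_common_divisor (fun j => coeff j E) i hi2
  -- the main claim
  have key : ∀ r : ℕ, ∀ n : ℕ, coeff n x ∈ Ideal.span {π ^ r, a} := by
    intro r
    induction r with
    | zero =>
      intro n
      rw [pow_zero]
      have : Ideal.span {(1 : A), a} = ⊤ := by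
        rw [Ideal.eq_top_iff_one]
        exact Ideal.subset_span (by simp)
      rw [this]
      trivial
    | succ r ih =>
      have ha : a ∈ Ideal.span {π ^ (r + 1), a} := Ideal.subset_span (by simp)
      have hp : π ^ (r + 1) ∈ Ideal.span {π ^ (r + 1), a} := Ideal.subset_span (by simp)
      intro n
      induction n using Nat.strong_induction_on with
      | _ n ihn =>
        have h1 := h (n + i)
        rw [PowerSeries.coeff_mul] at h1
        have h2 : (n, i) ∈ Finset.HasAntidiagonal.antidiagonal (n + i) := by simp
        rw [← Finset.add_sum_erase _ _ h2] at h1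
        have h3 : ∑ q ∈ (Finset.HasAntidiagonal.antidiagonal (n + i)).erase (n, i), coeff q.1 x * coeff q.2 E ∈
            Ideal.span {π ^ (r + 1), a} := by
          refine Ideal.sum_mem _ fun q hq => ?_
          rw [Finset.mem_erase, Finset.HasAntidiagonal.mem_antidiagonal] at hq
          obtain ⟨hne, hq⟩ := hq
          rcases lt_trichotomy q.1 n with hlt | heq | hgt
          · exact Ideal.mul_mem_right _ _ (ihn q.1 hlt)
          · exfalso
            apply hne
            have : q.2 = i := by omega
            exact Prod.ext heq this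
          · have hq2 : q.2 < i := by omega
            obtain ⟨c, hc⟩ := hdiv q.2 hq2
            have h4 := ih q.1
            rw [Ideal.mem_span_pair] at h4
            obtain ⟨s, t, hst⟩ := h4
            have hc' : coeff q.2 E = π * c := hc
            rw [hc', ← hst]
            have : (s * π ^ r + t * a) * (π * c) = (s * c) * π ^ (r + 1) + (t * π * c) * a := by
              ring
            rw [this]
            exact Ideal.add_mem _ (Ideal.mul_mem_left _ _ hp) (Ideal.mul_mem_left _ _ ha)
        have h5 : coeff n x * coeff i E ∈ Ideal.span {π ^ (r + 1), a} := by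
          have h6 : coeff n x * coeff i E + ∑ q ∈ (Finset.HasAntidiagonal.antidiagonal (n + i)).erase (n, i),
              coeff q.1 x * coeff q.2 E ∈ Ideal.span {π ^ (r + 1), a} := by
            obtain ⟨w, hw⟩ := h1
            rw [hw]
            exact Ideal.mul_mem_right _ _ ha
          exact (Ideal.add_mem_iff_left _ h3).mp h6
        obtain ⟨v, hv⟩ := hu
        rw [← hv] at h5
        have h7 := Ideal.mul_mem_right ((v⁻¹ : Aˣ) : A) _ h5
        rwa [mul_assoc, Units.mul_inv, mul_one] at h7
  obtain ⟨r, hr⟩ := hrank π hπ
  have h8 := key r n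
  rw [Ideal.mem_span_pair] at h8
  obtain ⟨s, t, hst⟩ := h8
  rw [← hst]
  exact dvd_add (hr.mul_left s) (Dvd.intro_left t rfl)

end P1

section MapLS

variable {R S : Type*} [CommRing R] [CommRing S]

theorem coeff_mul_of_subset {x y : LaurentSeries R} {s t : Set ℤ} (hs : s.IsPWO) (ht : t.IsPWO)
    (hxs : x.support ⊆ s) (hyt : y.support ⊆ t) (a : ℤ) :
    (x * y).coeff a = ∑ ij ∈ Finset.antidiagonal hs ht a, x.coeff ij.fst * y.coeff ij.snd := by
  rw [HahnSeries.coeff_mul_left' hs hxs]
  refine Finset.sum_subset ?_ ?_
  · intro ij hij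
    rw [Finset.mem_antidiagonal] at hij ⊢
    exact ⟨hij.1, hyt hij.2.1, hij.2.2⟩
  · intro ij hij hij'
    rw [Finset.mem_antidiagonal] at hij hij'
    have : ij.2 ∉ y.support := fun h => hij' ⟨hij.1, h, hij.2.2⟩
    rw [HahnSeries.mem_support, not_not] at this
    rw [this, mul_zero]

/-- Functoriality of Laurent series in the coefficient ring. -/
def mapLS (f : R →+* S) : LaurentSeries R →+* LaurentSeries S where
  toFun x := HahnSeries.map x f
  map_one' := by
    ext n
    change f ((1 : LaurentSeries R).coeff n) = _
    rw [HahnSeries.coeff_one, HahnSeries.coeff_one]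
    split_ifs <;> simp
  map_zero' := by
    ext n
    change f ((0 : LaurentSeries R).coeff n) = _
    simp
  map_add' x y := by
    ext n
    change f ((x + y).coeff n) = _
    rw [HahnSeries.coeff_add, map_add]
    rfl
  map_mul' x y := by
    ext n
    have h1 : (HahnSeries.map x f).support ⊆ x.support := by
      intro a ha
      rw [HahnSeries.mem_support] at ha ⊢
      intro h
      apply ha
      change f (x.coeff a) = 0
      rw [h, map_zero]
    have h2 : (HahnSeries.map y f).support ⊆ y.support := by
      intro a ha
      rw [HahnSeries.mem_support] at ha ⊢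
      intro h
      apply ha
      change f (y.coeff a) = 0
      rw [h, map_zero]
    rw [coeff_mul_of_subset x.isPWO_support y.isPWO_support h1 h2]
    change f ((x * y).coeff n) = _
    rw [HahnSeries.coeff_mul, map_sum]
    refine Finset.sum_congr rfl fun ij _ => ?_
    rw [map_mul]
    rfl

@[simp] theorem coeff_mapLS (f : R →+* S) (x : LaurentSeries R) (n : ℤ) :
    (mapLS f x).coeff n = f (x.coeff n) := rfl

theorem mapLS_injective {f : R →+* S} (hf : Function.Injective f) :
    Function.Injective (mapLS f) := by
  intro x y h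
  ext n
  have := congrArg (fun z : LaurentSeries S => z.coeff n) h
  exact hf this

@[simp] theorem mapLS_single (f : R →+* S) (n : ℤ) (a : R) :
    mapLS f (HahnSeries.single n a) = HahnSeries.single n (f a) := by
  ext m
  rw [coeff_mapLS]
  by_cases h : m = n
  · subst h
    rw [HahnSeries.coeff_single_same, HahnSeries.coeff_single_same]
  · rw [HahnSeries.coeff_single_of_ne h, HahnSeries.coeff_single_of_ne h, map_zero]

@[simp] theorem mapLS_C (f : R →+* S) (a : R) :
    mapLS f (HahnSeries.C a) = HahnSeries.C (f a) := mapLS_single f 0 a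

theorem mapLS_comp {T : Type*} [CommRing T] (g : S →+* T) (f : R →+* S) (x : LaurentSeries R) :
    mapLS g (mapLS f x) = mapLS (g.comp f) x := rfl

theorem mapLS_ofPowerSeries (f : R →+* S) (x : PowerSeries R) :
    mapLS f (HahnSeries.ofPowerSeries ℤ R x) = HahnSeries.ofPowerSeries ℤ S (x.map f) := by
  ext n
  rw [coeff_mapLS]
  rcases le_or_gt 0 n with hn | hn
  · lift n to ℕ using hn
    rw [LaurentSeries.coeff_coe_powerSeries, LaurentSeries.coeff_coe_powerSeries,
      PowerSeries.coeff_map]
  · rw [PowerSeries.coeff_coe, PowerSeries.coeff_coe, if_pos hn, if_pos hn, map_zero]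

end MapLS

section P1Laurent

variable {A : Type*} [CommRing A] [IsDomain A] [ValuationRing A]

/-- A Laurent series with nonzero reduction is a nonzerodivisor modulo `a`. -/
theorem exists_eq_C_mul_of_mul {x E y : LaurentSeries A} {a : A}
    (hrank : ∀ π ∈ IsLocalRing.maximalIdeal A, ∃ n : ℕ, a ∣ π ^ n)
    (hE : mapLS (IsLocalRing.residue A) E ≠ 0)
    (h : x * E = HahnSeries.C a * y) : ∃ x', x = HahnSeries.C a * x' := by
  have h1 : ∀ n, a ∣ coeff n (x.powerSeriesPart) := by
    refine dvd_coeff_of_dvd_coeff_mul hrank (E := E.powerSeriesPart) ?_ ?_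
    · intro h0
      apply hE
      rw [← LaurentSeries.single_order_mul_powerSeriesPart E, map_mul]
      have : mapLS (IsLocalRing.residue A) (E.powerSeriesPart : LaurentSeries A) = 0 := by
        rw [mapLS_ofPowerSeries, h0, map_zero]
      rw [this, mul_zero]
    · intro n
      have h2 : ((x.powerSeriesPart * E.powerSeriesPart : PowerSeries A) : LaurentSeries A) =
          HahnSeries.C a * (HahnSeries.single (-x.order + -E.order) (1 : A) * y) := by
        rw [PowerSeries.coe_mul, LaurentSeries.ofPowerSeries_powerSeriesPart,
          LaurentSeries.ofPowerSeries_powerSeriesPart]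
        have : HahnSeries.single (-x.order) (1 : A) * x * (HahnSeries.single (-E.order) 1 * E) =
            (HahnSeries.single (-x.order) 1 * HahnSeries.single (-E.order) 1) * (x * E) := by ring
        rw [this, HahnSeries.single_mul_single, one_mul, h]
        ring
      have h3 := congrArg (fun z : LaurentSeries A => z.coeff (n : ℤ)) h2
      simp only [LaurentSeries.coeff_coe_powerSeries] at h3
      rw [h3, HahnSeries.C_apply, HahnSeries.coeff_single_zero_mul]
      exact dvd_mul_right _ _
  choose c hc using h1
  refine ⟨HahnSeries.single x.order 1 * HahnSeries.ofPowerSeries ℤ A (PowerSeries.mk c), ?_⟩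
  conv_lhs => rw [← LaurentSeries.single_order_mul_powerSeriesPart x]
  have h4 : x.powerSeriesPart = PowerSeries.C a * PowerSeries.mk c := by
    ext n
    rw [hc n, PowerSeries.coeff_C_mul, PowerSeries.coeff_mk]
  rw [h4, PowerSeries.coe_mul, PowerSeries.coe_C]
  ring

end P1Laurent

end Fermat.Agent.LP
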