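import Mathlib
import Fermat.Agent.LP.Laurent

set_option autoImplicit false

/-!
# Newton approximation over the Gauss valuation ring
-/

open Polynomial

noncomputable section

namespace Fermat.Agent.LP

variable {A : Type*} [CommRing A] [IsDomain A] [ValuationRing A]

local notation "res" => IsLocalRing.residue A

/-- A polynomial with nonzero reduction is a nonzerodivisor modulo `a`. -/
theorem C_dvd_of_C_dvd_mul {x E : A[X]} {a : A}
    (hrank : ∀ π ∈ IsLocalRing.maximalIdeal A, ∃ n : ℕ, a ∣ π ^ n)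
    (hE : E.map res ≠ 0) (h : C a ∣ x * E) : C a ∣ x := by
  rw [C_dvd_iff_dvd_coeff] at h ⊢
  intro n
  have h1 : ∀ n, a ∣ PowerSeries.coeff n ((x : PowerSeries A) * (E : PowerSeries A)) := by
    intro n
    rw [← Polynomial.coe_mul, Polynomial.coeff_coe]
    exact h n
  have h2 := dvd_coeff_of_dvd_coeff_mul hrank (x := (x : PowerSeries A))
    (E := (E : PowerSeries A)) ?_ h1 n
  · rwa [Polynomial.coeff_coe] at h2
  · intro h0
    apply hE
    have h3 : ((Polynomial.map res E : (IsLocalRing.ResidueField A)[X]) :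
        PowerSeries (IsLocalRing.ResidueField A)) = 0 := by
      rw [Polynomial.polynomial_map_coe, h0]
    exact (Polynomial.coe_eq_zero_iff (φ := Polynomial.map res E)).mp h3

theorem mem_map_C_iff {x : A[X]} :
    x ∈ Ideal.map (C : A →+* A[X]) (IsLocalRing.maximalIdeal A) ↔ x.map res = 0 := by
  rw [Ideal.mem_map_C_iff]
  constructor
  · intro h
    ext n
    rw [coeff_map, coeff_zero]
    exact Ideal.Quotient.eq_zero_iff_mem.mpr (h n)
  · intro h n
    have := congrArg (fun p => p.coeff n) h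
    simp only [coeff_map, coeff_zero] at this
    exact Ideal.Quotient.eq_zero_iff_mem.mp this

/-- polynomials with all coefficients in the maximal ideal are multiples of a nonunit. -/
theorem exists_eq_C_mul {x : A[X]} (h : x.map res = 0) :
    ∃ π ∈ IsLocalRing.maximalIdeal A, C π ∣ x := by
  have h1 := mem_map_C_iff.mpr h
  rw [Ideal.mem_map_C_iff] at h1
  obtain ⟨π, hπ, hd⟩ := exists_common_divisor (fun j => x.coeff j) (x.natDegree + 1)
    fun j _ => h1 j
  refine ⟨π, hπ, ?_⟩
  rw [C_dvd_iff_dvd_coeff]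
  intro n
  rcases lt_or_ge n (x.natDegree + 1) with hn | hn
  · exact hd n hn
  · rw [coeff_eq_zero_of_natDegree_lt (by omega)]
    exact dvd_zero _

/-- the content of a polynomial over a valuation ring -/
theorem exists_content {x : A[X]} (h : x ≠ 0) :
    ∃ (b : A) (y : A[X]), b ≠ 0 ∧ x = C b * y ∧ y.map res ≠ 0 := by
  classical
  -- a coefficient dividing all others
  have key : ∀ s : Finset ℕ, s.Nonempty → ∃ i ∈ s, ∀ j ∈ s, x.coeff i ∣ x.coeff j := by
    intro s hs
    induction hs using Finset.Nonempty.cons_induction with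
    | singleton i => exact ⟨i, by simp, fun j hj => by simp at hj; rw [hj]⟩
    | cons i s hi hs ih =>
      obtain ⟨i', hi', h'⟩ := ih
      rcases ValuationRing.dvd_total (x.coeff i) (x.coeff i') with hd | hd
      · refine ⟨i, by simp, fun j hj => ?_⟩
        rw [Finset.mem_cons] at hj
        rcases hj with rfl | hj
        · exact dvd_rfl
        · exact hd.trans (h' j hj)
      · refine ⟨i', by simp [hi'], fun j hj => ?_⟩
        rw [Finset.mem_cons] at hj
        rcases hj with rfl | hj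
        · exact hd
        · exact h' j hj
  obtain ⟨i, hi, hdiv⟩ := key x.support (Polynomial.support_nonempty.mpr h)
  have hb : x.coeff i ≠ 0 := Polynomial.mem_support_iff.mp hi
  have h1 : C (x.coeff i) ∣ x := by
    rw [C_dvd_iff_dvd_coeff]
    intro n
    by_cases hn : n ∈ x.support
    · exact hdiv n hn
    · rw [Polynomial.notMem_support_iff.mp hn]
      exact dvd_zero _
  obtain ⟨y, hy⟩ := h1
  refine ⟨x.coeff i, y, hb, hy, ?_⟩
  intro h0
  have h2 : x.coeff i = x.coeff i * y.coeff i := by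
    conv_lhs => rw [hy]
    rw [coeff_C_mul]
  have h3 : y.coeff i = 1 := by
    have : x.coeff i * y.coeff i = x.coeff i * 1 := by rw [← h2, mul_one]
    exact mul_left_cancel₀ hb this
  have h4 := congrArg (fun p => p.coeff i) h0
  simp only [coeff_map, h3, map_one, coeff_zero] at h4
  exact one_ne_zero h4

/-- Newton approximation in a local ring. -/
theorem newton_aux {V : Type*} [CommRing V] [IsLocalRing V] (P : V[X]) (x a : V)
    (ha : a ∈ IsLocalRing.maximalIdeal V) (hn : ∃ n : ℕ, a ∣ (P.eval x) ^ n)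
    (hu : IsUnit (P.derivative.eval x)) :
    ∃ v, x - v ∈ IsLocalRing.maximalIdeal V ∧ a ∣ P.eval v := by
  have hnil : IsNilpotent (aeval (Ideal.Quotient.mk (Ideal.span {a}) x) P) := by
    obtain ⟨n, hn⟩ := hn
    refine ⟨n, ?_⟩
    have h1 : aeval (Ideal.Quotient.mk (Ideal.span {a}) x) P =
        Ideal.Quotient.mk (Ideal.span {a}) (P.eval x) := by
      rw [← Ideal.Quotient.algebraMap_eq, aeval_algebraMap_apply, Polynomial.coe_aeval_eq_eval]
    rw [h1, ← map_pow, Ideal.Quotient.eq_zero_iff_mem, Ideal.mem_span_singleton]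
    exact hn
  have hunit : IsUnit (aeval (Ideal.Quotient.mk (Ideal.span {a}) x) P.derivative) := by
    have h1 : aeval (Ideal.Quotient.mk (Ideal.span {a}) x) P.derivative =
        Ideal.Quotient.mk (Ideal.span {a}) (P.derivative.eval x) := by
      rw [← Ideal.Quotient.algebraMap_eq, aeval_algebraMap_apply, Polynomial.coe_aeval_eq_eval]
    rw [h1]
    exact hu.map _
  obtain ⟨r, ⟨hr1, hr2⟩, -⟩ := existsUnique_nilpotent_sub_and_aeval_eq_zero hnil hunit
  obtain ⟨v, rfl⟩ := Ideal.Quotient.mk_surjective r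
  have hI : Ideal.span {a} ≤ IsLocalRing.maximalIdeal V :=
    (Ideal.span_singleton_le_iff_mem _).mpr ha
  refine ⟨v, ?_, ?_⟩
  · obtain ⟨n, hn⟩ := hr1
    have h8 : (x - v) ^ n ∈ Ideal.span {a} := by
      rw [← Ideal.Quotient.eq_zero_iff_mem, map_pow, map_sub]
      exact hn
    exact (IsLocalRing.maximalIdeal.isMaximal V).isPrime.mem_of_pow_mem n (hI h8)
  · rw [← Ideal.mem_span_singleton, ← Ideal.Quotient.eq_zero_iff_mem, ← hr2,
      ← Ideal.Quotient.algebraMap_eq, aeval_algebraMap_apply, Polynomial.coe_aeval_eq_eval]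

/-- **Newton approximation**, abstract version of the localization. -/
theorem newton_loc {P : A[X][X]} {g₀ : A[X]} {a : A} (ha : a ∈ IsLocalRing.maximalIdeal A)
    (hrank : ∀ π ∈ IsLocalRing.maximalIdeal A, ∃ n : ℕ, a ∣ π ^ n)
    (h0 : (P.eval g₀).map res = 0) (h1 : (P.derivative.eval g₀).map res ≠ 0)
    (𝔭 : Ideal A[X]) [h𝔭 : 𝔭.IsPrime] (hmem : ∀ x : A[X], x ∈ 𝔭 ↔ x.map res = 0)
    (V : Type*) [CommRing V] [IsLocalRing V] [Algebra A[X] V] [IsLocalization.AtPrime V 𝔭] :
    ∃ f g e : A[X], g.map res ≠ 0 ∧ f.map res = g.map res * g₀.map res ∧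
      (P.scaleRoots g).eval f = C a * e := by
  have hCa : C a ∈ 𝔭 := by
    rw [hmem, map_C]
    have : res a = 0 := Ideal.Quotient.eq_zero_iff_mem.mpr ha
    rw [this, C_0]
  obtain ⟨v, hv1, hv2⟩ := newton_aux (P.map (algebraMap A[X] V)) (algebraMap A[X] V g₀)
    (algebraMap A[X] V (C a)) ((IsLocalization.AtPrime.to_map_mem_maximal_iff V 𝔭 _).mpr hCa)
    (by
      obtain ⟨π, hπ, e, he⟩ := exists_eq_C_mul h0
      obtain ⟨n, w, hw⟩ := hrank π hπ
      refine ⟨n, algebraMap A[X] V (C w * e ^ n), ?_⟩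
      rw [eval_map_algebraMap, aeval_algebraMap_apply, Polynomial.coe_aeval_eq_eval, he,
        ← map_pow, mul_pow, ← C_pow, hw, C_mul, ← map_mul (algebraMap A[X] V), mul_assoc])
    (by
      rw [derivative_map, eval_map_algebraMap, aeval_algebraMap_apply,
        Polynomial.coe_aeval_eq_eval]
      apply IsLocalization.map_units V (⟨P.derivative.eval g₀, ?_⟩ : 𝔭.primeCompl)
      intro hm
      exact h1 ((hmem _).mp hm))
  obtain ⟨f, g, hfg⟩ := IsLocalization.exists_mk'_eq 𝔭.primeCompl v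
  obtain ⟨w, hw⟩ := hv2
  obtain ⟨e, g₂, heg⟩ := IsLocalization.exists_mk'_eq 𝔭.primeCompl w
  have hinj : Function.Injective (algebraMap A[X] V) :=
    IsLocalization.injective V 𝔭.primeCompl_le_nonZeroDivisors
  have hv : v * algebraMap A[X] V g = algebraMap A[X] V f := by
    rw [← hfg, IsLocalization.mk'_spec]
  have hw2 : w * algebraMap A[X] V g₂ = algebraMap A[X] V e := by
    rw [← heg, IsLocalization.mk'_spec]
  have hgne : (g : A[X]).map res ≠ 0 := fun h => g.2 ((hmem _).mpr h)
  have hg2ne : (g₂ : A[X]).map res ≠ 0 := fun h => g₂.2 ((hmem _).mpr h)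
  have h3 : algebraMap A[X] V ((P.scaleRoots g).eval f) =
      algebraMap A[X] V g ^ P.natDegree * (P.map (algebraMap A[X] V)).eval v := by
    have h4 := scaleRoots_eval₂_mul (p := P) (algebraMap A[X] V) v (g : A[X])
    rw [mul_comm (algebraMap A[X] V g) v, hv] at h4
    rw [eval_map, ← h4, ← Polynomial.eval₂_at_apply]
  have h5 : (P.scaleRoots g).eval f * g₂ = C a * (e * (g : A[X]) ^ P.natDegree) := by
    apply hinj
    rw [map_mul, h3, hw, map_mul, map_mul, map_pow, ← hw2]
    ring
  have h6 : C a ∣ (P.scaleRoots g).eval f :=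
    C_dvd_of_C_dvd_mul hrank hg2ne ⟨_, h5⟩
  obtain ⟨e', he'⟩ := h6
  refine ⟨f, g, e', hgne, ?_, he'⟩
  have h10 : algebraMap A[X] V (g₀ * g - f) ∈ IsLocalRing.maximalIdeal V := by
    rw [map_sub, map_mul, ← hv, ← sub_mul]
    exact Ideal.mul_mem_right _ _ hv1
  rw [IsLocalization.AtPrime.to_map_mem_maximal_iff V 𝔭] at h10
  have h11 := (hmem _).mp h10
  rw [Polynomial.map_sub, Polynomial.map_mul, sub_eq_zero] at h11
  rw [← h11, mul_comm]

/-- **Newton approximation.** -/
theorem newton {P : A[X][X]} {g₀ : A[X]} {a : A} (ha : a ∈ IsLocalRing.maximalIdeal A)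
    (hrank : ∀ π ∈ IsLocalRing.maximalIdeal A, ∃ n : ℕ, a ∣ π ^ n)
    (h0 : (P.eval g₀).map res = 0) (h1 : (P.derivative.eval g₀).map res ≠ 0) :
    ∃ f g e : A[X], g.map res ≠ 0 ∧ f.map res = g.map res * g₀.map res ∧
      (P.scaleRoots g).eval f = C a * e := by
  have hprime : (Ideal.map (C : A →+* A[X]) (IsLocalRing.maximalIdeal A)).IsPrime :=
    Ideal.isPrime_map_C_of_isPrime
  exact newton_loc ha hrank h0 h1 (Ideal.map (C : A →+* A[X]) (IsLocalRing.maximalIdeal A))
    (fun x => mem_map_C_iff)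
    (Localization.AtPrime (Ideal.map (C : A →+* A[X]) (IsLocalRing.maximalIdeal A)))

end Fermat.Agent.LP
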