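import Mathlib
import Fermat.Agent.LP.Newton

set_option autoImplicit false

/-!
# Liouville purity: the core argument
-/

open Polynomial

noncomputable section

namespace Fermat.Agent.LP

variable {A : Type*} [CommRing A]

/-- evaluation of polynomials at a Laurent series -/
def evT (T : LaurentSeries A) : A[X] →+* LaurentSeries A :=
  eval₂RingHom (HahnSeries.C : A →+* LaurentSeries A) T

@[simp] theorem evT_C (T : LaurentSeries A) (a : A) : evT T (C a) = HahnSeries.C a := by
  simp [evT]

@[simp] theorem evT_X (T : LaurentSeries A) : evT T X = T := by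
  simp [evT]

theorem mapLS_evT {B : Type*} [CommRing B] (f : A →+* B) (T : LaurentSeries A) (p : A[X]) :
    mapLS f (evT T p) = evT (mapLS f T) (p.map f) := by
  change ((mapLS f).comp (evT T)) p = ((evT (mapLS f T)).comp (mapRingHom f)) p
  congr 1
  ext n
  · simp
  · simp

theorem eval_scaleRoots_prod {R : Type*} [CommRing R] [IsDomain R] (ζ : Multiset R) (s x : R) :
    ((ζ.map fun z => X - C z).prod.scaleRoots s).eval x = (ζ.map fun z => x - s * z).prod := by
  induction ζ using Multiset.induction_on with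
  | empty => simp
  | cons z ζ ih =>
    rw [Multiset.map_cons, Multiset.prod_cons, mul_scaleRoots_of_noZeroDivisors, eval_mul, ih,
      X_sub_C_scaleRoots, Multiset.map_cons, Multiset.prod_cons]
    simp [mul_comm z s]

variable [IsDomain A] [ValuationRing A]

local notation "res" => IsLocalRing.residue A
local notation "κ" => IsLocalRing.ResidueField A

/-- The distinguished root at a place. -/
theorem place {P : A[X][X]} (hP : P.Monic) {d : ℕ} {g₀ : A[X]} (hg₀ : g₀.map res ≠ 0)
    (hPbar : P.map (mapRingHom res) = X ^ d * (X - C (g₀.map res)))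
    {T : LaurentSeries A} (hT : Function.Injective (evT (mapLS res T)))
    {ζ : Multiset (LaurentSeries A)} (hζ : P.map (evT T) = (ζ.map fun z => X - C z).prod) :
    ∃ z ∈ ζ, ∀ (a : A) (f g e : A[X]),
      (∀ π ∈ IsLocalRing.maximalIdeal A, ∃ n : ℕ, a ∣ π ^ n) → g.map res ≠ 0 →
      f.map res = g.map res * g₀.map res → (P.scaleRoots g).eval f = C a * e →
      ∃ x', evT T f - evT T g * z = HahnSeries.C a * x' := by
  classical
  set β : LaurentSeries κ := evT (mapLS res T) (g₀.map res) with hβ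
  have hβ0 : β ≠ 0 := by
    intro h
    apply hg₀
    apply hT
    rw [map_zero]
    exact h
  -- reduction of the factorization
  have h1 : (ζ.map fun z => (X : (LaurentSeries κ)[X]) - C (mapLS res z)).prod =
      X ^ d * (X - C β) := by
    have h2 : (P.map (evT T)).map (mapLS res) = (P.map (mapRingHom res)).map
        (evT (mapLS res T)) := by
      rw [Polynomial.map_map, Polynomial.map_map]
      congr 1
      ext n
      · simp
      · simp
    rw [hPbar, hζ, Polynomial.map_multiset_prod, Multiset.map_map] at h2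
    simp only [Function.comp_def, Polynomial.map_sub, map_X, map_C, Polynomial.map_mul,
      Polynomial.map_pow] at h2
    exact h2
  obtain ⟨z, hz, hzβ⟩ : ∃ z ∈ ζ, mapLS res z = β := by
    have h2 := congrArg (eval β) h1
    rw [eval_mul, eval_sub, eval_X, eval_C, sub_self, mul_zero, eval_multiset_prod,
      Multiset.prod_eq_zero_iff, Multiset.map_map, Multiset.mem_map] at h2
    obtain ⟨z, hz, h3⟩ := h2
    simp only [Function.comp_apply, eval_sub, eval_X, eval_C] at h3
    exact ⟨z, hz, (sub_eq_zero.mp h3).symm⟩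
  obtain ⟨ζ', rfl⟩ := Multiset.exists_cons_of_mem hz
  have h2 : (ζ'.map fun z => (X : (LaurentSeries κ)[X]) - C (mapLS res z)).prod = X ^ d := by
    rw [Multiset.map_cons, Multiset.prod_cons, hzβ, mul_comm (X ^ d)] at h1
    exact mul_left_cancel₀ (X_sub_C_ne_zero β) h1
  have h3 : ∀ z' ∈ ζ', mapLS res z' = 0 := by
    intro z' hz'
    have h4 := congrArg (eval (mapLS res z')) h2
    rw [eval_pow, eval_X, eval_multiset_prod, Multiset.prod_eq_zero] at h4
    · exact eq_zero_of_pow_eq_zero h4.symm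
    · rw [Multiset.map_map, Multiset.mem_map]
      exact ⟨z', hz', by simp⟩
  refine ⟨z, hz, ?_⟩
  intro a f g e hrank hg hf he
  have h5 : (evT T f - evT T g * z) * (ζ'.map fun z' => evT T f - evT T g * z').prod =
      HahnSeries.C a * evT T e := by
    have h6 := congrArg (evT T) he
    rw [map_mul, evT_C] at h6
    rw [← h6, ← Multiset.prod_cons, ← Multiset.map_cons (fun z' => evT T f - evT T g * z'),
      ← eval_scaleRoots_prod, ← hζ]
    rw [← map_scaleRoots _ _ _ (by rw [hP.leadingCoeff, map_one]; exact one_ne_zero),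
      ← eval₂_at_apply, eval_map]
  refine exists_eq_C_mul_of_mul hrank ?_ h5
  rw [map_multiset_prod, Multiset.map_map]
  have h7 : (ζ'.map (mapLS res ∘ fun z' => evT T f - evT T g * z')) =
      ζ'.map fun _ => evT (mapLS res T) (f.map res) := by
    refine Multiset.map_congr rfl fun z' hz' => ?_
    simp only [Function.comp_apply]
    rw [map_sub, map_mul, h3 z' hz', mul_zero, sub_zero, mapLS_evT]
  rw [h7, Multiset.map_const', Multiset.prod_replicate]
  apply pow_ne_zero
  intro h0
  have h8 : f.map res = 0 := hT (by rw [h0, map_zero])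
  rw [hf] at h8
  rcases mul_eq_zero.mp h8 with h9 | h9
  · exact hg h9
  · exact hg₀ h9

/-- splitting of `P` at a place, with a bound for the poles of the roots -/
def RootsAt (P : A[X][X]) (T : LaurentSeries A) (D : ℤ) : Prop :=
  ∃ ζ : Multiset (LaurentSeries A), P.map (evT T) = (ζ.map fun z => X - C z).prod ∧
    ∀ z ∈ ζ, ∀ j < D, z.coeff j = 0


section Aux

variable {R : Type*} [CommRing R]

theorem coeff_evT_single {m : ℤ} (hm : m ≠ 0) (p : R[X]) (n : ℕ) :
    (evT (HahnSeries.single m (1 : R)) p).coeff (m * n) = p.coeff n := by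
  induction p using Polynomial.induction_on' with
  | add p q hp hq => rw [map_add, HahnSeries.coeff_add, hp, hq, coeff_add]
  | monomial i a =>
    rw [← C_mul_X_pow_eq_monomial, map_mul, map_pow, evT_C, evT_X, HahnSeries.single_pow,
      HahnSeries.C_apply, HahnSeries.single_mul_single, zero_add, one_pow, mul_one,
      coeff_C_mul_X_pow]
    by_cases h : n = i
    · subst h
      rw [if_pos rfl, nsmul_eq_mul, mul_comm m, HahnSeries.coeff_single_same]
    · rw [if_neg h, HahnSeries.coeff_single_of_ne]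
      rw [nsmul_eq_mul, mul_comm m]
      intro h1
      exact h (by exact_mod_cast mul_right_cancel₀ hm h1)

theorem coeff_evT_single_of_ne {m : ℤ} (p : R[X]) (j : ℤ)
    (hj : ∀ n : ℕ, n ≤ p.natDegree → j ≠ m * n) :
    (evT (HahnSeries.single m (1 : R)) p).coeff j = 0 := by
  rw [p.as_sum_range_C_mul_X_pow, map_sum, HahnSeries.coeff_sum]
  refine Finset.sum_eq_zero fun i hi => ?_
  rw [map_mul, map_pow, evT_C, evT_X, HahnSeries.single_pow,
      HahnSeries.C_apply, HahnSeries.single_mul_single, zero_add, one_pow, mul_one,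
      HahnSeries.coeff_single_of_ne]
  rw [nsmul_eq_mul, mul_comm]
  exact hj i (Nat.lt_succ_iff.mp (Finset.mem_range.mp hi))

theorem evT_C_add (c : R) (T : LaurentSeries R) (p : R[X]) :
    evT (HahnSeries.C c + T) p = evT T (p.comp (X + C c)) := by
  rw [evT, evT, coe_eval₂RingHom, coe_eval₂RingHom, eval₂_comp, eval₂_add, eval₂_X, eval₂_C,
    add_comm]

theorem evT_single_injective {m : ℤ} (hm : m ≠ 0) :
    Function.Injective (evT (HahnSeries.single m (1 : R))) := by
  rw [injective_iff_map_eq_zero]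
  intro p hp
  ext n
  rw [← coeff_evT_single hm p n, hp, HahnSeries.coeff_zero, coeff_zero]

theorem evT_C_add_single_injective {m : ℤ} (hm : m ≠ 0) (c : R) :
    Function.Injective (evT (HahnSeries.C c + HahnSeries.single m (1 : R))) := by
  rw [injective_iff_map_eq_zero]
  intro p hp
  rw [evT_C_add] at hp
  have h1 : p.comp (X + C c) = 0 := (injective_iff_map_eq_zero _).mp (evT_single_injective hm) _ hp
  have h2 : (p.comp (X + C c)).comp (X - C c) = 0 := by rw [h1, zero_comp]
  rw [comp_assoc] at h2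
  simpa using h2

theorem exists_ofPowerSeries {x : LaurentSeries R} (h : ∀ j < 0, x.coeff j = 0) :
    ∃ p : PowerSeries R, HahnSeries.ofPowerSeries ℤ R p = x := by
  refine ⟨PowerSeries.mk fun n => x.coeff n, ?_⟩
  ext j
  rcases lt_or_ge j 0 with hj | hj
  · rw [PowerSeries.coeff_coe, if_pos hj, h j hj]
  · lift j to ℕ using hj
    rw [LaurentSeries.coeff_coe_powerSeries, PowerSeries.coeff_mk]

theorem coeff_zero_mul {x y : LaurentSeries R} (hx : ∀ j < 0, x.coeff j = 0)
    (hy : ∀ j < 0, y.coeff j = 0) : (x * y).coeff 0 = x.coeff 0 * y.coeff 0 := by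
  obtain ⟨p, rfl⟩ := exists_ofPowerSeries hx
  obtain ⟨q, rfl⟩ := exists_ofPowerSeries hy
  rw [← PowerSeries.coe_mul]
  have h : (0 : ℤ) = ((0 : ℕ) : ℤ) := rfl
  rw [h, LaurentSeries.coeff_coe_powerSeries, LaurentSeries.coeff_coe_powerSeries,
    LaurentSeries.coeff_coe_powerSeries, PowerSeries.coeff_zero_eq_constantCoeff_apply,
    PowerSeries.coeff_zero_eq_constantCoeff_apply, PowerSeries.coeff_zero_eq_constantCoeff_apply,
    map_mul]

theorem coeff_evT_C_add_neg {e : ℕ} (he : 0 < e) (c : R) (p : R[X]) {j : ℤ} (hj : j < 0) :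
    (evT (HahnSeries.C c + HahnSeries.single (e : ℤ) (1 : R)) p).coeff j = 0 := by
  rw [evT_C_add]
  refine coeff_evT_single_of_ne _ _ fun n _ h => ?_
  have : (0 : ℤ) ≤ e * n := by positivity
  omega

theorem coeff_evT_C_add_zero {e : ℕ} (he : 0 < e) (c : R) (p : R[X]) :
    (evT (HahnSeries.C c + HahnSeries.single (e : ℤ) (1 : R)) p).coeff 0 = p.eval c := by
  rw [evT_C_add]
  have h := coeff_evT_single (m := (e : ℤ)) (by exact_mod_cast he.ne') (p.comp (X + C c)) 0
  rw [Nat.cast_zero, mul_zero] at h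
  rw [h, coeff_zero_eq_eval_zero, eval_comp]
  simp

end Aux

/-- comparison of a root with a rational function -/
theorem place_step {T z x' : LaurentSeries A} {a b π : A} {f g h p : A[X]}
    (hb : b ≠ 0) (hrank : ∀ π ∈ IsLocalRing.maximalIdeal A, ∃ n : ℕ, b ∣ π ^ n)
    (hT : Function.Injective (evT (mapLS res T))) (hg : g.map res ≠ 0)
    (hx : evT T f - evT T g * z = HahnSeries.C a * x') (hfp : f - p * g = C b * h)
    (hab : a = b * π) (hπ : π ∈ IsLocalRing.maximalIdeal A) :
    ∃ ω : LaurentSeries A, z - evT T p = HahnSeries.C b * ω ∧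
      evT (mapLS res T) (g.map res) * mapLS res ω = evT (mapLS res T) (h.map res) := by
  have hb' : (HahnSeries.C b : LaurentSeries A) ≠ 0 := by
    exact HahnSeries.C_ne_zero hb
  have h1 : (z - evT T p) * evT T g = HahnSeries.C b * (evT T h - HahnSeries.C π * x') := by
    have h2 := congrArg (evT T) hfp
    rw [map_sub, map_mul, map_mul, evT_C] at h2
    rw [hab, map_mul] at hx
    linear_combination h2 - hx
  have h3 : mapLS res (evT T g) ≠ 0 := by
    rw [mapLS_evT]
    intro h
    exact hg (hT (by rw [h, map_zero]))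
  obtain ⟨ω, hω⟩ := exists_eq_C_mul_of_mul hrank h3 h1
  refine ⟨ω, hω, ?_⟩
  rw [hω, mul_assoc] at h1
  have h4 := mul_left_cancel₀ hb' h1
  have h5 := congrArg (mapLS res) h4
  rw [map_mul, map_sub, map_mul, mapLS_evT, mapLS_evT, mapLS_C] at h5
  have h6 : res π = 0 := Ideal.Quotient.eq_zero_iff_mem.mpr hπ
  rw [h6, map_zero, zero_mul, sub_zero] at h5
  rw [mul_comm]
  exact h5


/-- a quotient of polynomials which is regular at all points is a polynomial -/
theorem dvd_of_places {F : Type*} [Field F] [IsAlgClosed F] {g h : F[X]} (hg : g ≠ 0)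
    (hpl : ∀ c : F, ∃ e : ℕ, 0 < e ∧ ∃ ω : LaurentSeries F, (∀ j < 0, ω.coeff j = 0) ∧
      evT (HahnSeries.C c + HahnSeries.single (e : ℤ) 1) g * ω =
        evT (HahnSeries.C c + HahnSeries.single (e : ℤ) 1) h) : g ∣ h := by
  classical
  obtain ⟨G, g₁, h₁, hG0, hG1, hG2, hcop⟩ : ∃ G g₁ h₁ : F[X], G ≠ 0 ∧ g = G * g₁ ∧ h = G * h₁ ∧
      IsCoprime g₁ h₁ := by
    have hne : EuclideanDomain.gcd g h ≠ 0 := fun h0 => hg (EuclideanDomain.gcd_eq_zero_iff.mp h0).1
    obtain ⟨g₁, hg₁⟩ := EuclideanDomain.gcd_dvd_left g h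
    obtain ⟨h₁, hh₁⟩ := EuclideanDomain.gcd_dvd_right g h
    refine ⟨_, g₁, h₁, hne, hg₁, hh₁, ?_⟩
    have h2 := EuclideanDomain.gcd_eq_gcd_ab g h
    refine ⟨EuclideanDomain.gcdA g h, EuclideanDomain.gcdB g h, ?_⟩
    apply mul_left_cancel₀ hne
    calc EuclideanDomain.gcd g h * (EuclideanDomain.gcdA g h * g₁ + EuclideanDomain.gcdB g h * h₁)
        = (EuclideanDomain.gcd g h * g₁) * EuclideanDomain.gcdA g h +
          (EuclideanDomain.gcd g h * h₁) * EuclideanDomain.gcdB g h := by ring
      _ = g * EuclideanDomain.gcdA g h + h * EuclideanDomain.gcdB g h := by rw [← hg₁, ← hh₁]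
      _ = EuclideanDomain.gcd g h * 1 := by rw [← h2, mul_one]
  have hunit : IsUnit g₁ := by
    by_contra hnu
    have hdeg : g₁.degree ≠ 0 := fun h0 => hnu (isUnit_iff_degree_eq_zero.mpr h0)
    obtain ⟨c, hc⟩ := IsAlgClosed.exists_root g₁ hdeg
    obtain ⟨e, he, ω, hω, h3⟩ := hpl c
    set T : LaurentSeries F := HahnSeries.C c + HahnSeries.single (e : ℤ) 1 with hT
    have hinj : Function.Injective (evT T) :=
      evT_C_add_single_injective (by exact_mod_cast he.ne') c
    have h4 : evT T g₁ * ω = evT T h₁ := by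
      have hne : evT T G ≠ 0 := fun h0 => hG0 (hinj (by rw [h0, map_zero]))
      apply mul_left_cancel₀ hne
      rw [← mul_assoc, ← map_mul, ← map_mul, ← hG1, ← hG2, h3]
    have h5 : (evT T g₁ * ω).coeff 0 = (evT T h₁).coeff 0 := by rw [h4]
    rw [coeff_zero_mul (fun j hj => coeff_evT_C_add_neg he c g₁ hj) hω, hT,
      coeff_evT_C_add_zero he, coeff_evT_C_add_zero he, hc.eq_zero, zero_mul] at h5
    obtain ⟨u, v, huv⟩ := hcop
    have h6 := congrArg (eval c) huv
    rw [eval_add, eval_mul, eval_mul, hc.eq_zero, ← h5, mul_zero, mul_zero, add_zero,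
      eval_one] at h6
    exact zero_ne_one h6
  rw [hG1, hG2]
  exact mul_dvd_mul_left G (hunit.dvd)

/-- **Liouville purity**, core version. -/
theorem liouville [IsAlgClosed κ] {P : A[X][X]} (hP : P.Monic) {d : ℕ} {g₀ : A[X]}
    (hg₀ : g₀.map res ≠ 0)
    (hPbar : P.map (mapRingHom res) = X ^ d * (X - C (g₀.map res)))
    (hrank : ∀ a : A, a ≠ 0 → ∀ π ∈ IsLocalRing.maximalIdeal A, ∃ n : ℕ, a ∣ π ^ n)
    (hnf : ∃ ϖ ∈ IsLocalRing.maximalIdeal A, ϖ ≠ 0)
    (hfin : ∀ c' : κ, ∃ c : A, res c = c' ∧ ∃ e : ℕ, 0 < e ∧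
      RootsAt P (HahnSeries.C c + HahnSeries.single (e : ℤ) 1) 0)
    (h0 : ∃ c₀ : A, RootsAt P (HahnSeries.C c₀ + HahnSeries.single 1 1) 0)
    (hinf : ∃ e : ℕ, 0 < e ∧ ∃ D : ℤ, RootsAt P (HahnSeries.single (-(e : ℤ)) 1) D) :
    ∃ p : A[X], P.eval p = 0 := by
  classical
  obtain ⟨ϖ, hϖ, hϖ0⟩ := hnf
  have resϖ : res ϖ = 0 := Ideal.Quotient.eq_zero_iff_mem.mpr hϖ
  -- the place at infinity
  obtain ⟨e₁, he₁, D, ζ₁, hζ₁, hD₁⟩ := hinf
  set T₁ : LaurentSeries A := HahnSeries.single (-(e₁ : ℤ)) 1 with hT₁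
  have hT₁r : mapLS res T₁ = HahnSeries.single (-(e₁ : ℤ)) 1 := by
    rw [hT₁, mapLS_single, map_one]
  have hne₁ : (-(e₁ : ℤ)) ≠ 0 := by omega
  have hT₁inj : Function.Injective (evT (mapLS res T₁)) := by
    rw [hT₁r]; exact evT_single_injective hne₁
  obtain ⟨z₁, hz₁, hpl₁⟩ := place hP hg₀ hPbar hT₁inj hζ₁
  -- the base point
  obtain ⟨c₀, ζ₀, hζ₀, hD₀⟩ := h0
  set T₀ : LaurentSeries A := HahnSeries.C c₀ + HahnSeries.single 1 1 with hT₀
  have hT₀r : mapLS res T₀ = HahnSeries.C (res c₀) + HahnSeries.single 1 1 := by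
    rw [hT₀, map_add, mapLS_single, map_one, mapLS_C]
  have hT₀inj : Function.Injective (evT (mapLS res T₀)) := by
    rw [hT₀r]; exact evT_C_add_single_injective one_ne_zero _
  have hT₀inj' : Function.Injective (evT T₀) := evT_C_add_single_injective one_ne_zero _
  obtain ⟨z₀, hz₀, hpl₀⟩ := place hP hg₀ hPbar hT₀inj hζ₀
  have hz₀D := hD₀ z₀ hz₀
  -- the Taylor polynomial
  obtain ⟨n, hn⟩ : ∃ n : ℕ, -(e₁ : ℤ) * n ≤ D := by
    refine ⟨(-D).toNat, ?_⟩
    have h1 : -D ≤ ((-D).toNat : ℤ) := Int.self_le_toNat _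
    have h2 : ((-D).toNat : ℤ) ≤ (e₁ : ℤ) * ((-D).toNat : ℤ) := by
      have : (1 : ℤ) ≤ e₁ := by exact_mod_cast he₁
      nlinarith [Int.natCast_nonneg ((-D).toNat)]
    linarith
  set p₀ : A[X] := ∑ i ∈ Finset.range (n + 1), C (z₀.coeff i) * X ^ i with hp₀
  set p : A[X] := p₀.comp (X - C c₀) with hp
  have hp₀deg : p₀.natDegree ≤ n := by
    rw [hp₀]
    refine natDegree_sum_le_of_forall_le _ _ fun i hi => ?_
    exact (natDegree_C_mul_X_pow_le _ _).trans (Nat.lt_succ_iff.mp (Finset.mem_range.mp hi))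
  have hpdeg : p.natDegree ≤ n := by
    rw [hp]
    refine natDegree_comp_le.trans ?_
    rw [natDegree_X_sub_C, mul_one]
    exact hp₀deg
  have hpT₀ : evT T₀ p = evT (HahnSeries.single 1 1) p₀ := by
    rw [hT₀, evT_C_add, hp, comp_assoc]
    congr 1
    simp
  have hp₀coeff : ∀ j : ℕ, p₀.coeff j = if j ≤ n then z₀.coeff j else 0 := by
    intro j
    rw [hp₀, finsetSum_coeff]
    simp only [coeff_C_mul_X_pow]
    by_cases hj : j ≤ n
    · rw [if_pos hj, Finset.sum_eq_single j]
      · simp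
      · intro b _ hb
        rw [if_neg hb.symm]
      · intro h
        exact absurd (Finset.mem_range.mpr (Nat.lt_succ_of_le hj)) h
    · rw [if_neg hj]
      refine Finset.sum_eq_zero fun i hi => ?_
      rw [if_neg]
      have := Finset.mem_range.mp hi
      omega
  have hw : ∀ j : ℤ, j ≤ n → (z₀ - evT T₀ p).coeff j = 0 := by
    intro j hj
    rw [HahnSeries.coeff_sub, hpT₀]
    rcases lt_or_ge j 0 with hj0 | hj0
    · rw [hz₀D j hj0, coeff_evT_single_of_ne _ _ (fun m _ h => by omega), sub_zero]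
    · lift j to ℕ using hj0
      have h1 := coeff_evT_single (m := 1) one_ne_zero p₀ j
      rw [one_mul] at h1
      rw [h1, hp₀coeff, if_pos (by exact_mod_cast hj), sub_self]
  by_cases hroot : z₀ - evT T₀ p = 0
  · -- we found a root
    refine ⟨p, hT₀inj' ?_⟩
    rw [map_zero, ← eval₂_at_apply, ← eval_map, hζ₀, eval_multiset_prod, Multiset.prod_eq_zero]
    rw [Multiset.map_map, Multiset.mem_map]
    refine ⟨z₀, hz₀, ?_⟩
    rw [Function.comp_apply, eval_sub, eval_X, eval_C, ← neg_sub, hroot, neg_zero]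
  exfalso
  obtain ⟨N, hN⟩ : ∃ N : ℤ, (z₀ - evT T₀ p).coeff N ≠ 0 := by
    by_contra hcon
    push Not at hcon
    apply hroot
    ext j
    rw [hcon j, HahnSeries.coeff_zero]
  set a : A := (z₀ - evT T₀ p).coeff N * ϖ with ha
  have ha0 : a ≠ 0 := mul_ne_zero hN hϖ0
  have ham : a ∈ IsLocalRing.maximalIdeal A := Ideal.mul_mem_left _ _ hϖ
  have hna : ¬ a ∣ (z₀ - evT T₀ p).coeff N := by
    rintro ⟨c, hc⟩
    rw [ha, mul_assoc] at hc
    have h1 : (z₀ - evT T₀ p).coeff N * 1 = (z₀ - evT T₀ p).coeff N * (ϖ * c) := by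
      rw [mul_one]; exact hc
    have h2 := mul_left_cancel₀ hN h1
    have h3 := congrArg res h2
    rw [map_one, map_mul, resϖ, zero_mul] at h3
    exact one_ne_zero h3
  -- Newton
  have hev0 : (P.eval g₀).map res = 0 := by
    have h1 : (P.eval g₀).map res = (P.map (mapRingHom res)).eval (g₀.map res) := by
      rw [eval_map, ← coe_mapRingHom, eval₂_at_apply]
    rw [h1, hPbar]
    simp
  have hev1 : (P.derivative.eval g₀).map res ≠ 0 := by
    have h1 : (P.derivative.eval g₀).map res =
        ((P.map (mapRingHom res)).derivative).eval (g₀.map res) := by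
      rw [derivative_map, eval_map, ← coe_mapRingHom, eval₂_at_apply]
    rw [h1, hPbar, derivative_mul]
    simp only [eval_add, eval_mul, eval_sub, eval_X, eval_C, sub_self, mul_zero, zero_add,
      derivative_sub, derivative_X, derivative_C, sub_zero, eval_one, mul_one, eval_pow]
    exact pow_ne_zero _ hg₀
  obtain ⟨f, g, e, hg, hf, hfge⟩ := newton ham (hrank a ha0) hev0 hev1
  -- the difference with the Taylor polynomial
  obtain ⟨x₀, hx₀⟩ := hpl₀ a f g e (hrank a ha0) hg hf hfge
  obtain ⟨x₁, hx₁⟩ := hpl₁ a f g e (hrank a ha0) hg hf hfge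
  have hgT₀ : mapLS res (evT T₀ g) ≠ 0 := by
    rw [mapLS_evT]
    intro h
    exact hg (hT₀inj (by rw [h, map_zero]))
  have key0 : ∀ y : LaurentSeries A, (z₀ - evT T₀ p) * evT T₀ g ≠ HahnSeries.C a * y := by
    intro y hy
    obtain ⟨ω, hω⟩ := exists_eq_C_mul_of_mul (hrank a ha0) hgT₀ hy
    apply hna
    rw [hω, HahnSeries.C_apply, HahnSeries.coeff_single_zero_mul]
    exact dvd_mul_right _ _
  have hF : f - p * g ≠ 0 := by
    intro h
    have h2 := congrArg (evT T₀) h
    rw [map_sub, map_mul, map_zero] at h2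
    apply key0 (-x₀)
    linear_combination h2 - hx₀
  obtain ⟨b, h, hb, hfp, hh⟩ := exists_content hF
  have hab : ∃ π ∈ IsLocalRing.maximalIdeal A, a = b * π := by
    have hnab : ¬ a ∣ b := by
      rintro ⟨c, hc⟩
      have h2 := congrArg (evT T₀) hfp
      rw [map_sub, map_mul, map_mul, evT_C, hc, map_mul] at h2
      apply key0 (HahnSeries.C c * evT T₀ h - x₀)
      linear_combination h2 - hx₀
    rcases ValuationRing.dvd_total a b with h1 | h1
    · exact absurd h1 hnab
    · obtain ⟨π, hπ⟩ := h1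
      refine ⟨π, ?_, hπ⟩
      rw [IsLocalRing.mem_maximalIdeal, mem_nonunits_iff]
      intro hu
      apply hnab
      obtain ⟨u, rfl⟩ := hu
      rw [hπ]
      exact (Units.mul_right_dvd).mpr dvd_rfl
  obtain ⟨π, hπm, hπ⟩ := hab
  -- divisibility of reductions
  have hdvd : g.map res ∣ h.map res := by
    refine dvd_of_places hg fun c' => ?_
    obtain ⟨c, hc, e', he', ζ, hζ, hD⟩ := hfin c'
    set T : LaurentSeries A := HahnSeries.C c + HahnSeries.single (e' : ℤ) 1 with hT
    have hTr : mapLS res T = HahnSeries.C c' + HahnSeries.single (e' : ℤ) 1 := by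
      rw [hT, map_add, mapLS_single, map_one, mapLS_C, hc]
    have hTinj : Function.Injective (evT (mapLS res T)) := by
      rw [hTr]; exact evT_C_add_single_injective (by exact_mod_cast he'.ne') _
    obtain ⟨z, hz, hpl⟩ := place hP hg₀ hPbar hTinj hζ
    obtain ⟨x', hx'⟩ := hpl a f g e (hrank a ha0) hg hf hfge
    obtain ⟨ω, hω1, hω2⟩ := place_step hb (hrank b hb) hTinj hg hx' hfp hπ hπm
    refine ⟨e', he', mapLS res ω, fun j hj => ?_, ?_⟩
    · rw [coeff_mapLS]
      have h1 : b * ω.coeff j = 0 := by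
        rw [← HahnSeries.coeff_single_zero_mul, ← HahnSeries.C_apply, ← hω1,
          HahnSeries.coeff_sub, hD z hz j hj, hT, coeff_evT_C_add_neg he' c p hj, sub_zero]
      rw [(mul_eq_zero.mp h1).resolve_left hb, map_zero]
    · rw [← hTr]
      exact hω2
  obtain ⟨q, hq⟩ := hdvd
  have hq0 : q ≠ 0 := by
    rintro rfl
    exact hh (by rw [hq, mul_zero])
  -- at the base point
  have hdeg1 : n < q.natDegree := by
    obtain ⟨ω, hω1, hω2⟩ := place_step hb (hrank b hb) hT₀inj hg hx₀ hfp hπ hπm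
    have hqω : mapLS res ω = evT (mapLS res T₀) q := by
      have hne : evT (mapLS res T₀) (g.map res) ≠ 0 := fun h0 => hg (hT₀inj (by rw [h0, map_zero]))
      apply mul_left_cancel₀ hne
      rw [hω2, hq, map_mul]
    by_contra hle
    rw [not_lt] at hle
    have h1 : (q.comp (X + C (res c₀))).leadingCoeff = 0 := by
      rw [leadingCoeff]
      have h2 : (q.comp (X + C (res c₀))).natDegree ≤ n := by
        refine natDegree_comp_le.trans ?_
        rw [natDegree_X_add_C, mul_one]
        exact hle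
      have h3 := coeff_evT_single (m := 1) one_ne_zero (q.comp (X + C (res c₀)))
        (q.comp (X + C (res c₀))).natDegree
      rw [← h3, ← evT_C_add, ← hT₀r, ← hqω, coeff_mapLS]
      have h4 : b * ω.coeff (1 * ((q.comp (X + C (res c₀))).natDegree : ℤ)) = 0 := by
        rw [← HahnSeries.coeff_single_zero_mul, ← HahnSeries.C_apply, ← hω1]
        apply hw
        rw [one_mul]
        exact_mod_cast h2
      rw [(mul_eq_zero.mp h4).resolve_left hb, map_zero]
    rw [leadingCoeff_eq_zero] at h1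
    apply hq0
    have h5 : (q.comp (X + C (res c₀))).comp (X - C (res c₀)) = 0 := by rw [h1, zero_comp]
    rw [comp_assoc] at h5
    simpa using h5
  -- at infinity
  have hdeg2 : q.natDegree ≤ n := by
    obtain ⟨ω, hω1, hω2⟩ := place_step hb (hrank b hb) hT₁inj hg hx₁ hfp hπ hπm
    have hqω : mapLS res ω = evT (mapLS res T₁) q := by
      have hne : evT (mapLS res T₁) (g.map res) ≠ 0 := fun h0 => hg (hT₁inj (by rw [h0, map_zero]))
      apply mul_left_cancel₀ hne
      rw [hω2, hq, map_mul]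
    by_contra hlt
    rw [not_le] at hlt
    apply hq0
    rw [← leadingCoeff_eq_zero, leadingCoeff, ← coeff_evT_single hne₁ q q.natDegree, ← hT₁r,
      ← hqω, coeff_mapLS]
    have hlt' : -(e₁ : ℤ) * q.natDegree < -(e₁ : ℤ) * n := by
      have h1 : (n : ℤ) < q.natDegree := by exact_mod_cast hlt
      have h2 : (0 : ℤ) < e₁ := by exact_mod_cast he₁
      nlinarith
    have h4 : b * ω.coeff (-(e₁ : ℤ) * q.natDegree) = 0 := by
      rw [← HahnSeries.coeff_single_zero_mul, ← HahnSeries.C_apply, ← hω1, HahnSeries.coeff_sub,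
        hD₁ z₁ hz₁ _ (lt_of_lt_of_le hlt' hn), hT₁, coeff_evT_single_of_ne, sub_zero]
      intro m hm heq
      have h5 : (m : ℤ) ≤ n := by exact_mod_cast hm.trans hpdeg
      have h2 : (0 : ℤ) < e₁ := by exact_mod_cast he₁
      nlinarith
    rw [(mul_eq_zero.mp h4).resolve_left hb, map_zero]
  omega

end Fermat.Agent.LP
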