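import Mathlib
import Fermat.Agent.LP.Core
import Fermat.Agent.LP.Binomial

set_option autoImplicit false

/-!
# Derivations and expansions at a place
-/

open Polynomial

noncomputable section

namespace Fermat.Agent.LP

/-- A derivation over a ring homomorphism which vanishes on the base vanishes on algebraic
elements. -/
theorem deriv_eq_zero {R E L : Type*} [CommRing R] [IsDomain R] [CharZero R] [Field E] [Field L]
    [Algebra R E] (hinj : Function.Injective (algebraMap R E)) (θ : E →+* L) (d : E →+ L)
    (hd : ∀ x y, d (x * y) = θ x * d y + θ y * d x) (h0 : ∀ r : R, d (algebraMap R E r) = 0)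
    (z : E) (hz : IsAlgebraic R z) : d z = 0 := by
  classical
  have hpow : ∀ n : ℕ, d (z ^ n) = n * θ z ^ (n - 1) * d z := by
    intro n
    induction n with
    | zero =>
      have := h0 1
      rw [map_one] at this
      simp [this]
    | succ n ih =>
      rw [pow_succ, hd, ih]
      rcases Nat.eq_zero_or_pos n with rfl | hn
      · simp
      · obtain ⟨m, rfl⟩ := Nat.exists_eq_succ_of_ne_zero hn.ne'
        simp only [Nat.succ_eq_add_one, Nat.add_sub_cancel, map_pow]
        push_cast
        ring
  have haeval : ∀ P : R[X], d (aeval z P) = θ (aeval z P.derivative) * d z := by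
    intro P
    induction P using Polynomial.induction_on' with
    | add p q hp hq => rw [map_add, map_add, hp, hq, derivative_add, map_add, map_add, add_mul]
    | monomial n a =>
      rw [aeval_monomial, hd, h0, mul_zero, add_zero, hpow, derivative_monomial, aeval_monomial,
        map_mul, map_mul, map_mul, map_pow, map_natCast, map_natCast]
      ring
  obtain ⟨P₀, hP₀, hP₀z⟩ := hz
  have hex : ∃ n, ∃ P : R[X], P ≠ 0 ∧ aeval z P = 0 ∧ P.natDegree = n := ⟨_, P₀, hP₀, hP₀z, rfl⟩
  obtain ⟨P, hP0, hPz, hPn⟩ := Nat.find_spec hex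
  have hmin : ∀ Q : R[X], Q ≠ 0 → Q.natDegree < P.natDegree → aeval z Q ≠ 0 := by
    intro Q hQ hlt hQz
    rw [hPn] at hlt
    exact Nat.find_min hex hlt ⟨Q, hQ, hQz, rfl⟩
  have hpos : 0 < P.natDegree := by
    by_contra hcon
    have h1 : P.natDegree = 0 := by omega
    rw [eq_C_of_natDegree_eq_zero h1, aeval_C] at hPz
    apply hP0
    rw [eq_C_of_natDegree_eq_zero h1, hinj (hPz.trans (map_zero _).symm), C_0]
  have h1 := haeval P
  rw [hPz, map_zero] at h1
  have h2 : aeval z P.derivative ≠ 0 := by
    refine hmin _ ?_ (natDegree_derivative_lt hpos.ne')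
    intro h
    have := derivative_eq_zero.mp h
    omega
  have h3 : θ (aeval z P.derivative) ≠ 0 := by
    rw [Ne, map_eq_zero]
    exact h2
  exact (mul_eq_zero.mp h1.symm).resolve_left h3


section Euler

variable {k : Type*} [Field k]

/-- the Euler operator `u d/du` -/
def euler : LaurentSeries k →+ LaurentSeries k where
  toFun x :=
    { coeff := fun n => (n : k) * x.coeff n
      isPWO_support' := x.isPWO_support.mono (by
        intro n hn
        rw [Function.mem_support] at hn
        exact right_ne_zero_of_mul hn) }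
  map_zero' := by
    ext n
    change (n : k) * (0 : LaurentSeries k).coeff n = (0 : LaurentSeries k).coeff n
    simp
  map_add' x y := by
    ext n
    change (n : k) * (x + y).coeff n = (n : k) * x.coeff n + (n : k) * y.coeff n
    rw [HahnSeries.coeff_add, mul_add]

@[simp] theorem coeff_euler (x : LaurentSeries k) (n : ℤ) :
    (euler x).coeff n = (n : k) * x.coeff n := rfl

theorem euler_mul (x y : LaurentSeries k) : euler (x * y) = x * euler y + y * euler x := by
  have hsx : (euler x).support ⊆ x.support := by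
    intro n hn
    rw [HahnSeries.mem_support, coeff_euler] at hn
    exact right_ne_zero_of_mul hn
  have hsy : (euler y).support ⊆ y.support := by
    intro n hn
    rw [HahnSeries.mem_support, coeff_euler] at hn
    exact right_ne_zero_of_mul hn
  ext n
  rw [coeff_euler, HahnSeries.coeff_add, mul_comm y (euler x),
    coeff_mul_of_subset x.isPWO_support y.isPWO_support hsx (subset_refl _),
    coeff_mul_of_subset x.isPWO_support y.isPWO_support (subset_refl _) hsy,
    HahnSeries.coeff_mul, Finset.mul_sum, ← Finset.sum_add_distrib]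
  refine Finset.sum_congr rfl fun ij hij => ?_
  rw [Finset.mem_antidiagonal] at hij
  rw [coeff_euler, coeff_euler, ← hij.2.2]
  push_cast
  ring

theorem euler_C (a : k) : euler (HahnSeries.C a) = 0 := by
  ext n
  rw [coeff_euler, HahnSeries.coeff_zero]
  by_cases h : n = 0
  · subst h; simp
  · rw [HahnSeries.C_apply, HahnSeries.coeff_single_of_ne h, mul_zero]

theorem euler_single (m : ℤ) (a : k) :
    euler (HahnSeries.single m a) = HahnSeries.single m ((m : k) * a) := by
  ext n
  rw [coeff_euler]
  by_cases h : n = m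
  · subst h; rw [HahnSeries.coeff_single_same, HahnSeries.coeff_single_same]
  · rw [HahnSeries.coeff_single_of_ne h, HahnSeries.coeff_single_of_ne h, mul_zero]

end Euler

section Place

variable {k : Type*} [Field k] {E : Type*} [Field E] [Algebra k[X] E]

/-- `θ` is an embedding of `E` in the field of Laurent series in `u`, with `t = c + u ^ e`. -/
def IsPlace (θ : E →+* LaurentSeries k) (c : k) (e : ℤ) : Prop :=
  e ≠ 0 ∧ ∀ p : k[X], θ (algebraMap k[X] E p) = evT (HahnSeries.C c + HahnSeries.single e 1) p

variable {D : Derivation ℤ E E} {θ : E →+* LaurentSeries k} {c : k} {e : ℤ}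

theorem IsPlace.injective (hθ : IsPlace θ c e) : Function.Injective (algebraMap k[X] E) := by
  have h1 : Function.Injective (evT (HahnSeries.C c + HahnSeries.single e (1 : k))) :=
    evT_C_add_single_injective hθ.1 c
  intro p q h
  apply h1
  rw [← hθ.2, ← hθ.2, h]

variable [CharZero k]

theorem IsPlace.euler_eq (hθ : IsPlace θ c e) (hDt : D (algebraMap k[X] E X) = 1)
    (hDC : ∀ a : k, D (algebraMap k[X] E (C a)) = 0) (halg : ∀ z : E, IsAlgebraic k[X] z) (z : E) :
    euler (θ z) = HahnSeries.single e (e : k) * θ (D z) := by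
  let d : E →+ LaurentSeries k :=
    { toFun := fun z => euler (θ z) - HahnSeries.single e (e : k) * θ (D z)
      map_zero' := by simp
      map_add' := fun x y => by
        rw [map_add, map_add, map_add, map_add]
        ring }
  have hd : ∀ x y, d (x * y) = θ x * d y + θ y * d x := by
    intro x y
    change euler (θ (x * y)) - HahnSeries.single e (e : k) * θ (D (x * y)) =
      θ x * (euler (θ y) - HahnSeries.single e (e : k) * θ (D y)) +
      θ y * (euler (θ x) - HahnSeries.single e (e : k) * θ (D x))
    rw [map_mul, euler_mul, Derivation.leibniz, map_add, smul_eq_mul, smul_eq_mul, map_mul,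
      map_mul]
    ring
  have hd0 : ∀ p : k[X], d (algebraMap k[X] E p) = 0 := by
    intro p
    induction p using Polynomial.induction_on with
    | C a =>
      change euler (θ (algebraMap k[X] E (C a))) - HahnSeries.single e (e : k) *
        θ (D (algebraMap k[X] E (C a))) = 0
      rw [hDC, map_zero, mul_zero, sub_zero, hθ.2, evT_C, euler_C]
    | add p q hp hq => rw [map_add, map_add, hp, hq, add_zero]
    | monomial n a ih =>
      rw [pow_succ, ← mul_assoc, map_mul, hd, ih, mul_zero, add_zero]
      have : d (algebraMap k[X] E X) = 0 := by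
        change euler (θ (algebraMap k[X] E X)) - HahnSeries.single e (e : k) *
          θ (D (algebraMap k[X] E X)) = 0
        rw [hDt, map_one, mul_one, hθ.2, evT_X, map_add, euler_C, zero_add, euler_single, mul_one,
          sub_self]
      rw [this, mul_zero]
  have h1 := deriv_eq_zero (R := k[X]) hθ.injective θ d hd hd0 z (halg z)
  exact sub_eq_zero.mp h1

theorem IsPlace.coeff_deriv (hθ : IsPlace θ c e) (hDt : D (algebraMap k[X] E X) = 1)
    (hDC : ∀ a : k, D (algebraMap k[X] E (C a)) = 0) (halg : ∀ z : E, IsAlgebraic k[X] z) (z : E)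
    (m : ℤ) : (θ (D z)).coeff (m - e) = (m : k) / e * (θ z).coeff m := by
  have h1 := hθ.euler_eq hDt hDC halg z
  have h2 : (euler (θ z)).coeff m = (HahnSeries.single e (e : k) * θ (D z)).coeff m := by rw [h1]
  rw [coeff_euler, HahnSeries.coeff_single_mul] at h2
  have he : (e : k) ≠ 0 := by exact_mod_cast hθ.1
  rw [div_mul_eq_mul_div, h2, mul_div_cancel_left₀ _ he]

/-- divided derivatives -/
def hasse (D : Derivation ℤ E E) (j : ℕ) (z : E) : E := (D^[j] z) / (j.factorial : E)

theorem IsPlace.coeff_iterate (hθ : IsPlace θ c e) (hDt : D (algebraMap k[X] E X) = 1)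
    (hDC : ∀ a : k, D (algebraMap k[X] E (C a)) = 0) (halg : ∀ z : E, IsAlgebraic k[X] z) (z : E)
    (j : ℕ) (m : ℤ) : (θ (D^[j] z)).coeff (m - j * e) =
      (∏ i ∈ Finset.range j, ((m : k) / e - i)) * (θ z).coeff m := by
  have he : (e : k) ≠ 0 := by exact_mod_cast hθ.1
  induction j generalizing m with
  | zero => simp
  | succ j ih =>
    rw [Function.iterate_succ_apply']
    have h1 := hθ.coeff_deriv hDt hDC halg (D^[j] z) (m - j * e)
    have h2 : m - ((j + 1 : ℕ) : ℤ) * e = m - j * e - e := by push_cast; ring
    rw [h2, h1, ih, Finset.prod_range_succ]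
    push_cast
    field_simp

theorem IsPlace.coeff_hasse (hθ : IsPlace θ c e) (hDt : D (algebraMap k[X] E X) = 1)
    (hDC : ∀ a : k, D (algebraMap k[X] E (C a)) = 0) (halg : ∀ z : E, IsAlgebraic k[X] z) (z : E)
    (j : ℕ) (m : ℤ) : (θ (hasse D j z)).coeff (m - j * e) =
      bc j ((m : k) / e) * (θ z).coeff m := by
  have hf : (j.factorial : k) ≠ 0 := by exact_mod_cast j.factorial_ne_zero
  have h1 : θ (hasse D j z) = HahnSeries.C ((j.factorial : k)⁻¹) * θ (D^[j] z) := by
    rw [hasse, map_div₀, map_natCast, div_eq_mul_inv, mul_comm, map_inv₀, map_natCast]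
  rw [h1, HahnSeries.C_apply, HahnSeries.coeff_single_zero_mul, hθ.coeff_iterate hDt hDC halg, bc]
  ring

/-- a combination of divided derivatives extracting one coefficient -/
theorem IsPlace.exists_extract (hθe : e ≠ 0) (D₀ b : ℕ) : ∃ a : ℕ → ℤ,
    ∀ (θ : E →+* LaurentSeries k) (c : k) (_ : IsPlace θ c e) (D : Derivation ℤ E E)
      (_ : D (algebraMap k[X] E X) = 1) (_ : ∀ a : k, D (algebraMap k[X] E (C a)) = 0)
      (_ : ∀ z : E, IsAlgebraic k[X] z) (z : E) (m : ℤ),
      (∑ j ∈ Finset.range (b + 1), HahnSeries.single ((D₀ : ℤ) - b + j * e) ((a j : ℤ) : k) *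
        θ (hasse D j z)).coeff m =
        bc b (((m + b : ℤ) : k)) * (θ z).coeff (m + b - D₀) := by
  obtain ⟨a, ha⟩ := exists_expansion e D₀ b
  refine ⟨a, fun θ c hθ D hDt hDC halg z m => ?_⟩
  have he : (e : k) ≠ 0 := by exact_mod_cast hθ.1
  have h1 := ha (((m + b - D₀ : ℤ) : k) / e)
  rw [mul_div_cancel₀ _ he] at h1
  have h2 : (((m + b - D₀ : ℤ) : k) + (D₀ : k)) = ((m + b : ℤ) : k) := by push_cast; ring
  rw [h2] at h1
  rw [h1, HahnSeries.coeff_sum, Finset.sum_mul]
  refine Finset.sum_congr rfl fun j _ => ?_
  have h3 : m - ((D₀ : ℤ) - b + j * e) = (m + b - D₀) - j * e := by ring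
  rw [HahnSeries.coeff_single_mul, mul_assoc, h3, hθ.coeff_hasse hDt hDC halg]

end Place

end Fermat.Agent.LP
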