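import Mathlib
import Fermat.Agent.LP.Place
import Fermat.Agent.LP.Invariants

set_option autoImplicit false
set_option linter.unusedSectionVars false

/-!
# Integrality of Taylor coefficients
-/

open Polynomial

noncomputable section

namespace Fermat.Agent.LP

variable {A k E G : Type*} [CommRing A] [IsDomain A] [IsIntegrallyClosed A] [Field k] [CharZero k]
  [Algebra A k] [IsFractionRing A k] [Field E] [Algebra A[X] E] [Algebra k[X] E]
  [Group G] [Fintype G] [MulSemiringAction G E] [SMulCommClass G A[X] E] [SMulCommClass G k[X] E]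

/-- the subring of Laurent series with coefficients in `A` -/
def intLS (A k : Type*) [CommRing A] [Field k] [Algebra A k] : Subring (LaurentSeries k) :=
  (mapLS (algebraMap A k)).range

theorem coeff_of_mem_intLS {x : LaurentSeries k} (hx : x ∈ intLS A k) (n : ℤ) :
    ∃ a : A, algebraMap A k a = x.coeff n := by
  obtain ⟨y, rfl⟩ := hx
  exact ⟨y.coeff n, rfl⟩

theorem mem_intLS_of_coeff {x : LaurentSeries k} (hx : ∀ n, ∃ a : A, algebraMap A k a = x.coeff n) :
    x ∈ intLS A k := by
  have hinj : Function.Injective (algebraMap A k) := IsFractionRing.injective A k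
  choose a ha using hx
  refine ⟨⟨a, x.isPWO_support.mono ?_⟩, ?_⟩
  · intro n hn
    rw [Function.mem_support] at hn
    rw [HahnSeries.mem_support, ← ha]
    exact fun h => hn (hinj (by rw [h, map_zero]))
  · ext n
    exact ha n

/-- the constant coefficients of conjugate power series -/
theorem constantCoeff_mem {ι : Type*} [Fintype ι] (ξ : ι → LaurentSeries k)
    (hξ : ∀ i, ∀ j < 0, (ξ i).coeff j = 0)
    (h : ∀ n, (∏ i, (X - C (ξ i))).coeff n ∈ intLS A k) (i₀ : ι) :
    ∃ a : A, algebraMap A k a = (ξ i₀).coeff 0 := by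
  classical
  choose x hx using fun i => exists_ofPowerSeries (hξ i)
  have h1 : ∏ i, (X - C (ξ i)) = (∏ i, (X - C (x i))).map (HahnSeries.ofPowerSeries ℤ k) := by
    rw [Polynomial.map_prod]
    refine Finset.prod_congr rfl fun i _ => ?_
    rw [Polynomial.map_sub, map_X, map_C, hx]
  have h2 : ∀ n, ∃ a : A, algebraMap A k a =
      ((∏ i, (X - C (x i))).map (PowerSeries.constantCoeff (R := k))).coeff n := by
    intro n
    have h3 := h n
    rw [h1, coeff_map] at h3
    obtain ⟨a, ha⟩ := coeff_of_mem_intLS h3 ((0 : ℕ) : ℤ)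
    refine ⟨a, ?_⟩
    rw [ha, coeff_map, LaurentSeries.coeff_coe_powerSeries,
      PowerSeries.coeff_zero_eq_constantCoeff_apply]
  have h4 : (∏ i, (X - C (x i))).map (PowerSeries.constantCoeff (R := k)) ∈
      Polynomial.lifts (algebraMap A k) := by
    rw [Polynomial.lifts_iff_coeff_lifts]
    exact h2
  have hmonic : ((∏ i, (X - C (x i))).map (PowerSeries.constantCoeff (R := k))).Monic :=
    (monic_prod_of_monic _ _ fun i _ => monic_X_sub_C _).map _
  obtain ⟨q, hq1, -, hq2⟩ := lifts_and_natDegree_eq_and_monic h4 hmonic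
  have hint : IsIntegral A ((ξ i₀).coeff 0) := by
    refine ⟨q, hq2, ?_⟩
    rw [← eval_map, hq1, Polynomial.map_prod, eval_prod]
    refine Finset.prod_eq_zero (Finset.mem_univ i₀) ?_
    rw [Polynomial.map_sub, map_X, map_C, eval_sub, eval_X, eval_C, sub_eq_zero, ← hx i₀]
    have : (0 : ℤ) = ((0 : ℕ) : ℤ) := rfl
    rw [this, LaurentSeries.coeff_coe_powerSeries,
      PowerSeries.coeff_zero_eq_constantCoeff_apply]
  exact IsIntegrallyClosed.isIntegral_iff.mp hint

/-- conjugate places -/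
theorem IsPlace.comp_smul {θ : E →+* LaurentSeries k} {c : k} {e : ℤ} (hθ : IsPlace θ c e) (g : G) :
    IsPlace (θ.comp (MulSemiringAction.toRingHom G E g)) c e := by
  refine ⟨hθ.1, fun p => ?_⟩
  rw [RingHom.comp_apply, MulSemiringAction.toRingHom_apply, ← hθ.2]
  have : g • algebraMap k[X] E p = algebraMap k[X] E p := smul_algebraMap g p
  rw [this]

theorem exists_pole_bound (θ : E →+* LaurentSeries k) (z : E) :
    ∃ D₀ : ℕ, ∀ g : G, ∀ j : ℤ, j < -(D₀ : ℤ) → (θ (g • z)).coeff j = 0 := by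
  classical
  refine ⟨Finset.univ.sup fun g : G => ((θ (g • z)).order).natAbs, fun g j hj => ?_⟩
  apply HahnSeries.coeff_eq_zero_of_lt_order
  have h1 : ((θ (g • z)).order).natAbs ≤
      Finset.univ.sup fun g : G => ((θ (g • z)).order).natAbs :=
    Finset.le_sup (f := fun g : G => ((θ (g • z)).order).natAbs) (Finset.mem_univ g)
  omega


/-- **Integrality of Taylor coefficients.** -/
theorem taylor_integral [Algebra.IsInvariant A[X] (integralClosure A[X] E) G]
    (hcomp : ∀ p : A[X], algebraMap A[X] E p = algebraMap k[X] E (p.map (algebraMap A k)))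
    {D : Derivation ℤ E E} (hDt : D (algebraMap k[X] E X) = 1)
    (hDC : ∀ a : k, D (algebraMap k[X] E (C a)) = 0) (halg : ∀ z : E, IsAlgebraic k[X] z)
    {s : A[X]} {θ : E →+* LaurentSeries k} {c : A} {e : ℤ} (hθ : IsPlace θ (algebraMap A k c) e)
    {s' : LaurentSeries A} (hs' : evT (HahnSeries.C c + HahnSeries.single e 1) s * s' = 1)
    (z : E) (hM : ∀ j, ∃ M : ℕ, IsIntegral A[X] (algebraMap A[X] E s ^ M * hasse D j z)) (n : ℤ) :
    ∃ a : A, algebraMap A k a = (θ z).coeff n := by
  classical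
  obtain ⟨D₀, hD₀⟩ := exists_pole_bound (G := G) θ z
  rcases lt_or_ge n (-(D₀ : ℤ)) with hn | hn
  · refine ⟨0, ?_⟩
    have := hD₀ 1 n hn
    rw [one_smul] at this
    rw [this, map_zero]
  obtain ⟨b, hb⟩ : ∃ b : ℕ, (b : ℤ) = n + D₀ := ⟨(n + D₀).toNat, Int.toNat_of_nonneg (by omega)⟩
  obtain ⟨a, ha⟩ := IsPlace.exists_extract (k := k) (E := E) hθ.1 D₀ b
  choose M hM using hM
  set M₀ : ℕ := (Finset.range (b + 1)).sup M with hM₀
  have hMj : ∀ j ∈ Finset.range (b + 1), M j ≤ M₀ := fun j hj => Finset.le_sup (f := M) hj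
  -- integral elements
  have hint : ∀ j ∈ Finset.range (b + 1),
      IsIntegral A[X] (algebraMap A[X] E s ^ M₀ * hasse D j z) := by
    intro j hj
    have h1 : algebraMap A[X] E s ^ M₀ * hasse D j z =
        algebraMap A[X] E (s ^ (M₀ - M j)) * (algebraMap A[X] E s ^ M j * hasse D j z) := by
      rw [map_pow, ← mul_assoc, ← pow_add, Nat.sub_add_cancel (hMj j hj)]
    rw [h1]
    exact (isIntegral_algebraMap).mul (hM j)
  let z' : Fin (b + 1) → integralClosure A[X] E := fun j =>
    ⟨algebraMap A[X] E s ^ M₀ * hasse D j z, hint j (Finset.mem_range.mpr j.2)⟩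
  let r : Fin (b + 1) → LaurentSeries k := fun j =>
    HahnSeries.single ((D₀ : ℤ) - b + (j : ℕ) * e) ((a j : ℤ) : k) *
      mapLS (algebraMap A k) s' ^ M₀
  have hr : ∀ j, r j ∈ intLS A k := by
    intro j
    have h1 : HahnSeries.single ((D₀ : ℤ) - b + (j : ℕ) * e) ((a j : ℤ) : k) ∈ intLS A k :=
      ⟨HahnSeries.single ((D₀ : ℤ) - b + (j : ℕ) * e) ((a j : ℤ) : A), by
        rw [mapLS_single, map_intCast]⟩
    have h2 : mapLS (algebraMap A k) s' ∈ intLS A k := ⟨s', rfl⟩
    exact Subring.mul_mem _ h1 (Subring.pow_mem _ h2 _)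
  have hT : mapLS (algebraMap A k) (HahnSeries.C c + HahnSeries.single e 1) =
      HahnSeries.C (algebraMap A k c) + HahnSeries.single e 1 := by
    rw [map_add, mapLS_C, mapLS_single, map_one]
  have hbase : ∀ p : A[X], θ (algebraMap A[X] E p) =
      mapLS (algebraMap A k) (evT (HahnSeries.C c + HahnSeries.single e 1) p) := by
    intro p
    rw [hcomp, hθ.2, mapLS_evT, hT]
  let φ : integralClosure A[X] E →+* LaurentSeries k :=
    θ.comp (algebraMap (integralClosure A[X] E) E)
  have hφ : ∀ p : A[X], φ (algebraMap A[X] (integralClosure A[X] E) p) ∈ intLS A k := by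
    intro p
    change θ (algebraMap A[X] E p) ∈ _
    rw [hbase]
    exact ⟨_, rfl⟩
  have key := fun n => coeff_prod_conj_mem (R := A[X]) (G := G) φ (intLS A k) hφ z' r hr n
  -- identification of the conjugates
  let ξ : G → LaurentSeries k := fun σ => ∑ j : Fin (b + 1), r j * φ (σ • z' j)
  have hs1 : mapLS (algebraMap A k) s' ^ M₀ * θ (algebraMap A[X] E s ^ M₀) = 1 := by
    rw [map_pow, hbase, ← mul_pow, ← map_mul, mul_comm, hs', map_one, one_pow]
  have hξ : ∀ σ : G, ∀ m : ℤ, (ξ σ).coeff m = bc b (((m + b : ℤ) : k)) *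
      (θ (σ • z)).coeff (m + b - D₀) := by
    intro σ m
    have h1 := ha _ _ (hθ.comp_smul σ) D hDt hDC halg z m
    rw [RingHom.comp_apply, MulSemiringAction.toRingHom_apply] at h1
    rw [← h1]
    congr 1
    rw [← Fin.sum_univ_eq_sum_range (fun j => HahnSeries.single ((D₀ : ℤ) - b + j * e)
      ((a j : ℤ) : k) * (θ.comp (MulSemiringAction.toRingHom G E σ)) (hasse D j z)) (b + 1)]
    refine Finset.sum_congr rfl fun j _ => ?_
    have h2 : φ (σ • z' j) = θ (algebraMap A[X] E s ^ M₀) * θ (σ • hasse D j z) := by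
      change θ (σ • (algebraMap A[X] E s ^ M₀ * hasse D j z)) = _
      rw [smul_mul', map_mul, ← map_pow, smul_algebraMap]
    rw [h2, RingHom.comp_apply, MulSemiringAction.toRingHom_apply]
    change HahnSeries.single ((D₀ : ℤ) - b + (j : ℕ) * e) ((a j : ℤ) : k) *
      mapLS (algebraMap A k) s' ^ M₀ * (θ (algebraMap A[X] E s ^ M₀) * θ (σ • hasse D j z)) = _
    rw [mul_assoc, ← mul_assoc (mapLS (algebraMap A k) s' ^ M₀), hs1, one_mul]
  have hreg : ∀ σ : G, ∀ j < 0, (ξ σ).coeff j = 0 := by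
    intro σ j hj
    rw [hξ]
    rcases lt_or_ge (j + b) 0 with h1 | h1
    · rw [hD₀ σ _ (by omega), mul_zero]
    · obtain ⟨m, hm⟩ : ∃ m : ℕ, (m : ℤ) = j + b := ⟨(j + b).toNat, Int.toNat_of_nonneg h1⟩
      rw [← hm, Int.cast_natCast, bc_natCast, Nat.choose_eq_zero_of_lt (by omega), Nat.cast_zero,
        zero_mul]
  obtain ⟨a', ha'⟩ := constantCoeff_mem (A := A) ξ hreg key 1
  refine ⟨a', ?_⟩
  rw [ha', hξ, one_smul, zero_add, Int.cast_natCast, bc_natCast, Nat.choose_self, Nat.cast_one,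
    one_mul]
  congr 1
  omega

end Fermat.Agent.LP
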