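import Mathlib
import Fermat.Agent.LP.Taylor

set_option autoImplicit false
set_option linter.unusedSectionVars false

/-!
# Regularity of divided derivatives
-/

open Polynomial

noncomputable section

namespace Fermat.Agent.LP

/-- Laurent series without poles -/
def regLS (k : Type*) [Field k] : Subring (LaurentSeries k) :=
  (HahnSeries.ofPowerSeries ℤ k).range

theorem mem_regLS_iff {k : Type*} [Field k] {x : LaurentSeries k} :
    x ∈ regLS k ↔ ∀ j < 0, x.coeff j = 0 := by
  constructor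
  · rintro ⟨p, rfl⟩ j hj
    rw [PowerSeries.coeff_coe, if_pos hj]
  · intro h
    obtain ⟨p, hp⟩ := exists_ofPowerSeries h
    exact ⟨p, hp⟩

theorem mem_regLS_of_integral {k : Type*} [Field k] {x : LaurentSeries k}
    (h : (regLS k).subtype.IsIntegralElem x) : x ∈ regLS k := by
  obtain ⟨p, hp, hpx⟩ := h
  have h1 : IsIntegral (PowerSeries k) x := by
    choose f hf using fun n => (p.coeff n).2
    have hf' : ∀ n, algebraMap (PowerSeries k) (LaurentSeries k) (f n) = (p.coeff n : LaurentSeries k) := hf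
    have h2 : p.map (regLS k).subtype ∈ Polynomial.lifts (algebraMap (PowerSeries k)
        (LaurentSeries k)) := by
      rw [Polynomial.lifts_iff_coeff_lifts]
      intro n
      rw [coeff_map]
      exact ⟨f n, hf' n⟩
    obtain ⟨q, hq1, -, hq2⟩ := lifts_and_natDegree_eq_and_monic h2 (hp.map _)
    refine ⟨q, hq2, ?_⟩
    rw [← eval_map, hq1, eval_map, hpx]
  obtain ⟨y, hy⟩ := IsIntegrallyClosed.isIntegral_iff.mp h1
  exact ⟨y, hy⟩

variable {A k E G : Type*} [CommRing A] [IsDomain A] [ValuationRing A] [Field k] [CharZero k]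
  [Algebra A k] [IsFractionRing A k] [Field E] [Algebra A[X] E] [Algebra k[X] E]
  [Group G] [Fintype G] [MulSemiringAction G E] [SMulCommClass G A[X] E] [SMulCommClass G k[X] E]

/-- integral elements are regular at finite places -/
theorem IsPlace.mem_regLS
    (hcomp : ∀ p : A[X], algebraMap A[X] E p = algebraMap k[X] E (p.map (algebraMap A k)))
    {θ : E →+* LaurentSeries k} {c : k} {e : ℕ} (he : 0 < e) (hθ : IsPlace θ c e) {z : E}
    (hz : IsIntegral A[X] z) : θ z ∈ regLS k := by
  apply mem_regLS_of_integral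
  have hbase : ∀ p : A[X], θ (algebraMap A[X] E p) ∈ regLS k := by
    intro p
    rw [hcomp, hθ.2, mem_regLS_iff]
    intro j hj
    exact coeff_evT_C_add_neg he c _ hj
  obtain ⟨p, hp, hpz⟩ := hz
  let f : A[X] →+* regLS k := (θ.comp (algebraMap A[X] E)).codRestrict (regLS k) hbase
  refine ⟨p.map f, hp.map f, ?_⟩
  rw [eval₂_map]
  have h1 : (regLS k).subtype.comp f = θ.comp (algebraMap A[X] E) := rfl
  rw [h1, ← Polynomial.hom_eval₂, hpz, map_zero]


/-- divided derivatives of integral elements are regular at unramified places -/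
theorem IsPlace.hasse_mem_regLS
    (hcomp : ∀ p : A[X], algebraMap A[X] E p = algebraMap k[X] E (p.map (algebraMap A k)))
    {D : Derivation ℤ E E} (hDt : D (algebraMap k[X] E X) = 1)
    (hDC : ∀ a : k, D (algebraMap k[X] E (C a)) = 0) (halg : ∀ z : E, IsAlgebraic k[X] z)
    {θ : E →+* LaurentSeries k} {c : k} (hθ : IsPlace θ c 1) {z : E}
    (hz : IsIntegral A[X] z) (j : ℕ) : θ (hasse D j z) ∈ regLS k := by
  have h1 : θ z ∈ regLS k := IsPlace.mem_regLS (e := 1) hcomp one_pos (by exact_mod_cast hθ) hz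
  rw [mem_regLS_iff] at h1 ⊢
  intro m hm
  have h2 := hθ.coeff_hasse hDt hDC halg z j (m + j)
  rw [mul_one, add_sub_cancel_right] at h2
  rw [h2]
  rcases lt_or_ge (m + j) 0 with h3 | h3
  · rw [h1 _ h3, mul_zero]
  · obtain ⟨n, hn⟩ : ∃ n : ℕ, (n : ℤ) = m + j := ⟨(m + j).toNat, Int.toNat_of_nonneg h3⟩
    rw [← hn, Int.cast_one, div_one, Int.cast_natCast, bc_natCast,
      Nat.choose_eq_zero_of_lt (by omega), Nat.cast_zero, zero_mul]

local notation "res" => IsLocalRing.residue A

variable (A E) in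
/-- elements which are integral after multiplication by a primitive polynomial -/
def locInt : Subring E where
  carrier := {y | ∃ g : A[X], g.map res ≠ 0 ∧ IsIntegral A[X] (algebraMap A[X] E g * y)}
  mul_mem' := by
    rintro x y ⟨g, hg, hx⟩ ⟨h, hh, hy⟩
    refine ⟨g * h, by rw [Polynomial.map_mul]; exact mul_ne_zero hg hh, ?_⟩
    have : algebraMap A[X] E (g * h) * (x * y) =
        (algebraMap A[X] E g * x) * (algebraMap A[X] E h * y) := by
      rw [map_mul]; ring
    rw [this]
    exact hx.mul hy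
  one_mem' := ⟨1, by rw [Polynomial.map_one]; exact one_ne_zero, by
    rw [map_one, one_mul]; exact isIntegral_one⟩
  add_mem' := by
    rintro x y ⟨g, hg, hx⟩ ⟨h, hh, hy⟩
    refine ⟨g * h, by rw [Polynomial.map_mul]; exact mul_ne_zero hg hh, ?_⟩
    have : algebraMap A[X] E (g * h) * (x + y) =
        algebraMap A[X] E h * (algebraMap A[X] E g * x) +
          algebraMap A[X] E g * (algebraMap A[X] E h * y) := by
      rw [map_mul]; ring
    rw [this]
    exact (isIntegral_algebraMap.mul hx).add (isIntegral_algebraMap.mul hy)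
  zero_mem' := ⟨1, by rw [Polynomial.map_one]; exact one_ne_zero, by
    rw [mul_zero]; exact isIntegral_zero⟩
  neg_mem' := by
    rintro x ⟨g, hg, hx⟩
    refine ⟨g, hg, ?_⟩
    rw [mul_neg]
    exact hx.neg

theorem mem_locInt {y : E} : y ∈ locInt A E ↔
    ∃ g : A[X], g.map res ≠ 0 ∧ IsIntegral A[X] (algebraMap A[X] E g * y) := Iff.rfl

theorem mem_locInt_of_integral {y : E} (hy : IsIntegral A[X] y) : y ∈ locInt A E :=
  ⟨1, by rw [Polynomial.map_one]; exact one_ne_zero, by rw [map_one, one_mul]; exact hy⟩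

theorem smul_mem_locInt {y : E} (hy : y ∈ locInt A E) (g : G) : g • y ∈ locInt A E := by
  obtain ⟨h, hh, hi⟩ := hy
  refine ⟨h, hh, ?_⟩
  have h1 : algebraMap A[X] E h * g • y = g • (algebraMap A[X] E h * y) := by
    rw [smul_mul', smul_algebraMap]
  rw [h1]
  exact hi.map (MulSemiringAction.toAlgHom A[X] E g)

theorem dvd_pow_of_roots [IsAlgClosed k] {q s : k[X]} (hq : q ≠ 0)
    (h : ∀ c, q.IsRoot c → s.IsRoot c) : ∃ M : ℕ, q ∣ s ^ M := by
  classical
  have h1 : ∀ m : Multiset k, (∀ c ∈ m, s.IsRoot c) →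
      (m.map fun c => X - C c).prod ∣ s ^ m.card := by
    intro m
    induction m using Multiset.induction_on with
    | empty => intro _; simp
    | cons c m ih =>
      intro hm
      rw [Multiset.map_cons, Multiset.prod_cons, Multiset.card_cons, pow_succ, mul_comm (s ^ _)]
      refine mul_dvd_mul ?_ (ih fun c hc => hm c (Multiset.mem_cons_of_mem hc))
      exact dvd_iff_isRoot.mpr (hm c (Multiset.mem_cons_self c m))
  refine ⟨q.roots.card, ?_⟩
  have h2 := h1 q.roots fun c hc => h c ((mem_roots hq).mp hc)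
  have h3 := (IsAlgClosed.splits q).eq_prod_roots
  have h4 : IsUnit (C q.leadingCoeff) :=
    isUnit_C.mpr (isUnit_iff_ne_zero.mpr (leadingCoeff_ne_zero.mpr hq))
  exact (dvd_of_eq h3).trans ((h4.mul_left_dvd).mpr h2)


/-- a polynomial over `k` which becomes integral after multiplication by a primitive polynomial is
integral. -/
theorem exists_eq_map_of_mul (hrank : ∀ a : A, a ≠ 0 → ∀ π ∈ IsLocalRing.maximalIdeal A,
      ∃ n : ℕ, a ∣ π ^ n) {g w : A[X]} {h : k[X]} (hg : g.map res ≠ 0)
    (hgh : g.map (algebraMap A k) * h = w.map (algebraMap A k)) :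
    ∃ h' : A[X], h = h'.map (algebraMap A k) := by
  have hinj : Function.Injective (algebraMap A k) := IsFractionRing.injective A k
  obtain ⟨b, hb, hbh⟩ := IsLocalization.integerNormalization_spec (nonZeroDivisors A) h
  set h₁ := IsLocalization.integerNormalization (nonZeroDivisors A) h with hh₁
  have hb0 : b ≠ 0 := nonZeroDivisors.ne_zero hb
  have hbh' : h₁.map (algebraMap A k) = C (algebraMap A k b) * h := by
    rw [hbh, ← smul_eq_C_mul, algebraMap_smul]
  have h1 : h₁ * g = C b * w := by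
    apply Polynomial.map_injective _ hinj
    rw [Polynomial.map_mul, Polynomial.map_mul, hbh', ← hgh, map_C]
    ring
  obtain ⟨h₂, hh₂⟩ := C_dvd_of_C_dvd_mul (hrank b hb0) hg ⟨w, h1⟩
  refine ⟨h₂, ?_⟩
  have hb' : (C (algebraMap A k b) : k[X]) ≠ 0 := by
    rw [Ne, C_eq_zero]
    intro h0
    exact hb0 (hinj (by rw [h0, map_zero]))
  apply mul_left_cancel₀ hb'
  rw [← hbh', hh₂, Polynomial.map_mul, map_C]

/-- the key step: invariant elements which are regular outside `s` -/
theorem exists_pow_mul_eq [IsAlgClosed k]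
    [Algebra.IsInvariant A[X] (integralClosure A[X] E) G]
    (hrank : ∀ a : A, a ≠ 0 → ∀ π ∈ IsLocalRing.maximalIdeal A, ∃ n : ℕ, a ∣ π ^ n)
    (hcomp : ∀ p : A[X], algebraMap A[X] E p = algebraMap k[X] E (p.map (algebraMap A k)))
    (hinjE : Function.Injective (algebraMap k[X] E))
    (hfix : ∀ x : E, (∀ g : G, g • x = x) → ∃ p q : k[X], q ≠ 0 ∧
      algebraMap k[X] E q * x = algebraMap k[X] E p)
    {s : A[X]} (hreg : ∀ c : k, (s.map (algebraMap A k)).eval c ≠ 0 →
      ∃ θ : E →+* LaurentSeries k, IsPlace θ c 1) {y : E} (hy : ∀ g : G, g • y = y)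
    (hloc : y ∈ locInt A E)
    (hyreg : ∀ (θ : E →+* LaurentSeries k) (c : k), IsPlace θ c 1 → θ y ∈ regLS k) :
    ∃ M : ℕ, ∃ w : A[X], algebraMap A[X] E s ^ M * y = algebraMap A[X] E w := by
  classical
  have hinj : Function.Injective (algebraMap A k) := IsFractionRing.injective A k
  obtain ⟨p₀, q₀, hq₀, hpq₀⟩ := hfix y hy
  obtain ⟨p, q, hq, hpq, hcop⟩ : ∃ p q : k[X], q ≠ 0 ∧
      algebraMap k[X] E q * y = algebraMap k[X] E p ∧ IsCoprime p q := by
    have hne : EuclideanDomain.gcd p₀ q₀ ≠ 0 :=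
      fun h0 => hq₀ (EuclideanDomain.gcd_eq_zero_iff.mp h0).2
    obtain ⟨p, hp⟩ := EuclideanDomain.gcd_dvd_left p₀ q₀
    obtain ⟨q, hq⟩ := EuclideanDomain.gcd_dvd_right p₀ q₀
    refine ⟨p, q, ?_, ?_, ?_⟩
    · rintro rfl
      exact hq₀ (by rw [hq, mul_zero])
    · have h1 : algebraMap k[X] E (EuclideanDomain.gcd p₀ q₀) ≠ 0 := by
        intro h0
        exact hne (hinjE (by rw [h0, map_zero]))
      apply mul_left_cancel₀ h1
      rw [← mul_assoc, ← map_mul, ← map_mul, ← hp, ← hq, hpq₀]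
    · have h2 := EuclideanDomain.gcd_eq_gcd_ab p₀ q₀
      refine ⟨EuclideanDomain.gcdA p₀ q₀, EuclideanDomain.gcdB p₀ q₀, ?_⟩
      apply mul_left_cancel₀ hne
      calc EuclideanDomain.gcd p₀ q₀ *
            (EuclideanDomain.gcdA p₀ q₀ * p + EuclideanDomain.gcdB p₀ q₀ * q)
          = (EuclideanDomain.gcd p₀ q₀ * p) * EuclideanDomain.gcdA p₀ q₀ +
            (EuclideanDomain.gcd p₀ q₀ * q) * EuclideanDomain.gcdB p₀ q₀ := by ring
        _ = p₀ * EuclideanDomain.gcdA p₀ q₀ + q₀ * EuclideanDomain.gcdB p₀ q₀ := by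
            rw [← hp, ← hq]
        _ = EuclideanDomain.gcd p₀ q₀ * 1 := by rw [← h2, mul_one]
  -- the roots of `q` are roots of `s`
  have hroots : ∀ c, q.IsRoot c → (s.map (algebraMap A k)).IsRoot c := by
    intro c hc
    by_contra hs
    obtain ⟨θ, hθ⟩ := hreg c hs
    have h1 := hyreg θ c hθ
    rw [mem_regLS_iff] at h1
    have h2 : evT (HahnSeries.C c + HahnSeries.single 1 1) q * θ y =
        evT (HahnSeries.C c + HahnSeries.single 1 1) p := by
      rw [← hθ.2, ← hθ.2, ← map_mul, hpq]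
    have h3 : (evT (HahnSeries.C c + HahnSeries.single 1 1) q * θ y).coeff 0 =
        (evT (HahnSeries.C c + HahnSeries.single 1 1) p).coeff 0 := by rw [h2]
    have h30 : ∀ j < 0, (evT (HahnSeries.C c + HahnSeries.single 1 1) q).coeff j = 0 := by
      intro j hj
      have := coeff_evT_C_add_neg (e := 1) one_pos c q hj
      rwa [Nat.cast_one] at this
    rw [coeff_zero_mul h30 h1] at h3
    have h4 := coeff_evT_C_add_zero (e := 1) one_pos c q
    have h5 := coeff_evT_C_add_zero (e := 1) one_pos c p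
    rw [Nat.cast_one] at h4 h5
    rw [h4, h5, hc.eq_zero, zero_mul] at h3
    obtain ⟨u, v, huv⟩ := hcop
    have h6 := congrArg (eval c) huv
    rw [eval_add, eval_mul, eval_mul, hc.eq_zero, ← h3, mul_zero, mul_zero, add_zero,
      eval_one] at h6
    exact zero_ne_one h6
  obtain ⟨M, r, hr⟩ := dvd_pow_of_roots hq hroots
  refine ⟨M, ?_⟩
  have h7 : algebraMap A[X] E s ^ M * y = algebraMap k[X] E (r * p) := by
    rw [hcomp, ← map_pow, hr, map_mul, map_mul, mul_comm (algebraMap k[X] E q), mul_assoc, hpq]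
  obtain ⟨g, hg, hgy⟩ := hloc
  obtain ⟨w, hw⟩ := Algebra.IsInvariant.isInvariant (A := A[X]) (G := G)
    (⟨algebraMap A[X] E g * y, hgy⟩ : integralClosure A[X] E) (by
      intro σ
      apply Subtype.ext
      change σ • (algebraMap A[X] E g * y) = algebraMap A[X] E g * y
      rw [smul_mul', smul_algebraMap, hy])
  have hw' : algebraMap A[X] E w = algebraMap A[X] E g * y := congrArg Subtype.val hw
  obtain ⟨h', hh'⟩ := exists_eq_map_of_mul (k := k) hrank (g := g) (w := s ^ M * w)
    (h := r * p) hg (by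
      apply hinjE
      rw [map_mul, ← h7, ← hcomp, ← hcomp, map_mul, hw', map_pow]
      ring)
  refine ⟨h', ?_⟩
  rw [h7, hh', hcomp]

/-- divided derivatives are integral outside `s` -/
theorem exists_pow_mul_integral [IsAlgClosed k]
    [Algebra.IsInvariant A[X] (integralClosure A[X] E) G]
    (hrank : ∀ a : A, a ≠ 0 → ∀ π ∈ IsLocalRing.maximalIdeal A, ∃ n : ℕ, a ∣ π ^ n)
    (hcomp : ∀ p : A[X], algebraMap A[X] E p = algebraMap k[X] E (p.map (algebraMap A k)))
    (hinjE : Function.Injective (algebraMap k[X] E))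
    (hfix : ∀ x : E, (∀ g : G, g • x = x) → ∃ p q : k[X], q ≠ 0 ∧
      algebraMap k[X] E q * x = algebraMap k[X] E p)
    {s : A[X]} (hreg : ∀ c : k, (s.map (algebraMap A k)).eval c ≠ 0 →
      ∃ θ : E →+* LaurentSeries k, IsPlace θ c 1)
    {x : E} (hloc : x ∈ locInt A E)
    (hxreg : ∀ (θ : E →+* LaurentSeries k) (c : k), IsPlace θ c 1 → θ x ∈ regLS k) :
    ∃ M : ℕ, IsIntegral A[X] (algebraMap A[X] E s ^ M * x) := by
  classical
  set Φ : E[X] := MulSemiringAction.charpoly G x with hΦ
  have hΦ' : Φ = ∏ g : G, (X - C (g • x)) := rfl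
  have hmonic : Φ.Monic := MulSemiringAction.monic_charpoly G x
  have hfixed : ∀ n, ∀ g : G, g • Φ.coeff n = Φ.coeff n :=
    fun n g => MulSemiringAction.smul_coeff_charpoly x n g
  have hlocΦ : ∀ n, Φ.coeff n ∈ locInt A E := by
    intro n
    have h1 : ∀ T : Finset G, ∀ n, (∏ g ∈ T, (X - C (g • x))).coeff n ∈ locInt A E := by
      intro T
      have h2 : (∏ g ∈ T, (X - C (g • x))) ∈ Polynomial.lifts (locInt A E).subtype := by
        refine Subsemiring.prod_mem _ fun g _ => ?_
        have h3 : (X - C (g • x)) = Polynomial.map (locInt A E).subtype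
            (X - C ⟨g • x, smul_mem_locInt hloc g⟩) := by
          rw [Polynomial.map_sub, map_X, map_C]
          rfl
        rw [h3]
        exact Polynomial.lifts_iff_set_range _ |>.mpr ⟨_, rfl⟩
      intro n
      rw [Polynomial.lifts_iff_coeff_lifts] at h2
      obtain ⟨a, ha⟩ := h2 n
      rw [← ha]
      exact a.2
    exact h1 Finset.univ n
  have hregΦ : ∀ n, ∀ (θ : E →+* LaurentSeries k) (c : k), IsPlace θ c 1 →
      θ (Φ.coeff n) ∈ regLS k := by
    intro n θ c hθ
    have h2 : (∏ g : G, (X - C (θ (g • x)))) ∈ Polynomial.lifts (regLS k).subtype := by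
      refine Subsemiring.prod_mem _ fun g _ => ?_
      have h4 : θ (g • x) ∈ regLS k := by
        have := hxreg _ c (hθ.comp_smul g)
        rwa [RingHom.comp_apply, MulSemiringAction.toRingHom_apply] at this
      have h3 : (X - C (θ (g • x))) = Polynomial.map (regLS k).subtype
          (X - C ⟨θ (g • x), h4⟩) := by
        rw [Polynomial.map_sub, map_X, map_C]
        rfl
      rw [h3]
      exact Polynomial.lifts_iff_set_range _ |>.mpr ⟨_, rfl⟩
    have h5 : (∏ g : G, (X - C (θ (g • x)))) = Φ.map θ := by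
      rw [hΦ', Polynomial.map_prod]
      refine Finset.prod_congr rfl fun g _ => ?_
      rw [Polynomial.map_sub, map_X, map_C]
    rw [h5, Polynomial.lifts_iff_coeff_lifts] at h2
    obtain ⟨a, ha⟩ := h2 n
    rw [← coeff_map, ← ha]
    exact a.2
  choose M w hMw using fun n => exists_pow_mul_eq hrank hcomp hinjE hfix hreg (hfixed n)
    (hlocΦ n) (hregΦ n)
  set M₀ : ℕ := (Finset.range (Φ.natDegree + 1)).sup M + 1 with hM₀
  have hM₀n : ∀ n ∈ Finset.range (Φ.natDegree + 1), M n ≤ M₀ := fun n hn =>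
    (Finset.le_sup (f := M) hn).trans (Nat.le_succ _)
  refine ⟨M₀, ?_⟩
  -- the scaled polynomial
  have hroot : Φ.eval x = 0 := MulSemiringAction.eval_charpoly G x
  have h8 : (Φ.scaleRoots (algebraMap A[X] E s ^ M₀)).eval (algebraMap A[X] E s ^ M₀ * x) = 0 := by
    have := scaleRoots_eval₂_mul (p := Φ) (RingHom.id E) x (algebraMap A[X] E s ^ M₀)
    rw [RingHom.id_apply, eval₂_id, eval₂_id, hroot, mul_zero] at this
    exact this
  have h9 : Φ.scaleRoots (algebraMap A[X] E s ^ M₀) ∈ Polynomial.lifts (algebraMap A[X] E) := by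
    rw [Polynomial.lifts_iff_coeff_lifts]
    intro n
    rw [coeff_scaleRoots]
    rcases lt_trichotomy n Φ.natDegree with hn | hn | hn
    · refine ⟨w n * s ^ (M₀ * (Φ.natDegree - n) - M n), ?_⟩
      have h10 : M n ≤ M₀ * (Φ.natDegree - n) := by
        calc M n ≤ M₀ * 1 := by
              rw [mul_one]; exact hM₀n n (Finset.mem_range.mpr (by omega))
          _ ≤ M₀ * (Φ.natDegree - n) := Nat.mul_le_mul le_rfl (by omega)
      rw [map_mul, ← hMw, map_pow, ← pow_mul]
      calc algebraMap A[X] E s ^ M n * Φ.coeff n *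
            algebraMap A[X] E s ^ (M₀ * (Φ.natDegree - n) - M n)
          = Φ.coeff n * (algebraMap A[X] E s ^ M n *
            algebraMap A[X] E s ^ (M₀ * (Φ.natDegree - n) - M n)) := by ring
        _ = _ := by rw [← pow_add, Nat.add_sub_cancel' h10]
    · refine ⟨1, ?_⟩
      rw [hn, Nat.sub_self, pow_zero, mul_one, map_one]
      exact hmonic.symm
    · refine ⟨0, ?_⟩
      rw [coeff_eq_zero_of_natDegree_lt hn, zero_mul, map_zero]
  obtain ⟨q, hq1, -, hq2⟩ := lifts_and_natDegree_eq_and_monic h9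
    ((monic_scaleRoots_iff _).mpr hmonic)
  refine ⟨q, hq2, ?_⟩
  rw [← eval_map, hq1, h8]

end Fermat.Agent.LP
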