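import Mathlib
import Fermat.Agent.LP.Regular

set_option autoImplicit false
set_option linter.unusedSectionVars false

/-!
# Uniqueness of the Gauss valuation
-/

open Polynomial
open scoped Pointwise

noncomputable section

namespace Fermat.Agent.LP

variable {A k E G : Type*} [CommRing A] [IsDomain A] [ValuationRing A] [Field k] [CharZero k]
  [Algebra A k] [IsFractionRing A k] [Field E] [Algebra A[X] E] [Algebra k[X] E]
  [Group G] [Fintype G] [MulSemiringAction G E] [SMulCommClass G A[X] E] [SMulCommClass G k[X] E]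

local notation "res" => IsLocalRing.residue A
local notation "κ" => IsLocalRing.ResidueField A

/-- the prime of `A[X]` given by the Gauss valuation -/
abbrev gaussPrime (A : Type*) [CommRing A] [IsLocalRing A] : Ideal A[X] :=
  Ideal.map (C : A →+* A[X]) (IsLocalRing.maximalIdeal A)

/-- the separating element -/
theorem exists_separating {G B : Type*} [Group G] [Fintype G] [CommRing B]
    [MulSemiringAction G B] (P : Ideal B) [hP : P.IsPrime] :
    ∃ Z : B, (∀ g ∈ MulAction.stabilizer G P, g • Z = Z) ∧ Z ∉ P ∧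
      ∀ g ∉ MulAction.stabilizer G P, g • Z ∈ P := by
  classical
  set H := MulAction.stabilizer G P with hH
  -- avoid P
  have h1 : ¬ (∏ g ∈ Finset.univ.filter (fun g : G => g ∉ H), g • P) ≤ P := by
    intro hle
    rw [hP.prod_le] at hle
    obtain ⟨g, hg, hgP⟩ := hle
    rw [Finset.mem_filter] at hg
    apply hg.2
    rw [hH, MulAction.mem_stabilizer_iff]
    exact smul_eq_of_smul_le hgP
  obtain ⟨z, hz, hzP⟩ := SetLike.not_le_iff_exists.mp h1
  have hz' : ∀ g ∉ H, z ∈ g • P := fun g hg =>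
    Ideal.prod_le_inf.trans (Finset.inf_le (Finset.mem_filter.mpr ⟨Finset.mem_univ g, hg⟩)) hz
  refine ⟨∏ h : H, (h : G) • z, ?_, ?_, ?_⟩
  · intro g hg
    rw [Finset.smul_prod']
    rw [← Equiv.prod_comp (Equiv.mulLeft (⟨g, hg⟩ : H)) (fun h : H => (h : G) • z)]
    refine Finset.prod_congr rfl fun h _ => ?_
    rw [smul_smul]
    rfl
  · rw [hP.prod_mem_iff]
    rintro ⟨h, -, hh⟩
    apply hzP
    have h2 : (h : G)⁻¹ • P = P := by
      rw [inv_smul_eq_iff, MulAction.mem_stabilizer_iff.mp h.2]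
    rw [← h2, Ideal.mem_inv_pointwise_smul_iff]
    exact hh
  · intro g hg
    rw [Finset.smul_prod']
    refine Ideal.prod_mem P (Finset.mem_univ (1 : H)) ?_
    rw [Subgroup.coe_one, one_smul]
    have h3 : g⁻¹ ∉ H := fun h => hg (by rw [← inv_inv g]; exact H.inv_mem h)
    have h4 := hz' _ h3
    rwa [Ideal.mem_inv_pointwise_smul_iff] at h4


theorem coeff_X_pow_mul_X_sub_C {R : Type*} [CommRing R] (d : ℕ) (a : R) (i : ℕ) :
    ((X : R[X]) ^ d * (X - C a)).coeff i =
      (if i = d + 1 then 1 else 0) - (if i = d then a else 0) := by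
  rw [mul_sub, coeff_sub, ← pow_succ, coeff_X_pow, mul_comm ((X : R[X]) ^ d), coeff_C_mul,
    coeff_X_pow]
  congr 1
  split_ifs <;> simp

local notation "𝓑" => (integralClosure A[X] E)

/-- **Uniqueness of the Gauss valuation** (primes above the Gauss prime are stable). -/
theorem smul_eq_of_gauss [IsAlgClosed k] [IsAlgClosed κ]
    [Algebra.IsInvariant A[X] (integralClosure A[X] E) G]
    (hrank : ∀ a : A, a ≠ 0 → ∀ π ∈ IsLocalRing.maximalIdeal A, ∃ n : ℕ, a ∣ π ^ n)
    (hnf : ∃ ϖ ∈ IsLocalRing.maximalIdeal A, ϖ ≠ 0)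
    (hcomp : ∀ p : A[X], algebraMap A[X] E p = algebraMap k[X] E (p.map (algebraMap A k)))
    (hfix : ∀ x : E, (∀ g : G, g • x = x) → ∃ p q : k[X], q ≠ 0 ∧
      algebraMap k[X] E q * x = algebraMap k[X] E p)
    {D : Derivation ℤ E E} (hDt : D (algebraMap k[X] E X) = 1)
    (hDC : ∀ a : k, D (algebraMap k[X] E (C a)) = 0) (halg : ∀ z : E, IsAlgebraic k[X] z)
    (hder : ∀ z : E, IsIntegral A[X] z → ∀ j, hasse D j z ∈ locInt A E)
    {s : A[X]} (hreg : ∀ c : k, (s.map (algebraMap A k)).eval c ≠ 0 →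
      ∃ θ : E →+* LaurentSeries k, IsPlace θ c 1)
    (hpl : ∀ c' : κ, ∃ c : A, res c = c' ∧ ∃ e : ℕ, 0 < e ∧ ∃ θ : E →+* LaurentSeries k,
      IsPlace θ (algebraMap A k c) e ∧
      ∃ s' : LaurentSeries A, evT (HahnSeries.C c + HahnSeries.single (e : ℤ) 1) s * s' = 1)
    (h0 : ∃ c₀ : A, ∃ θ : E →+* LaurentSeries k, IsPlace θ (algebraMap A k c₀) 1 ∧
      ∃ s' : LaurentSeries A, evT (HahnSeries.C c₀ + HahnSeries.single 1 1) s * s' = 1)
    (hinf : ∃ e : ℕ, 0 < e ∧ ∃ θ : E →+* LaurentSeries k, IsPlace θ 0 (-(e : ℤ)) ∧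
      ∃ s' : LaurentSeries A, evT (HahnSeries.single (-(e : ℤ)) 1) s * s' = 1)
    (𝔓 : Ideal (integralClosure A[X] E)) [h𝔓 : 𝔓.IsPrime]
    (hcomap : 𝔓.comap (algebraMap A[X] (integralClosure A[X] E)) = gaussPrime A) (g : G) :
    g • 𝔓 = 𝔓 := by
  classical
  set H := MulAction.stabilizer G 𝔓 with hH
  obtain ⟨Z, hZ1, hZ2, hZ3⟩ := exists_separating (G := G) 𝔓
  by_contra hg
  have hgH : g ∉ H := fun h => hg (MulAction.mem_stabilizer_iff.mp h)
  have hinjA : Function.Injective (algebraMap A k) := IsFractionRing.injective A k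
  -- injectivity
  obtain ⟨c₀, θ₀, hθ₀, s₀, hs₀⟩ := h0
  have hinjE : Function.Injective (algebraMap k[X] E) := hθ₀.injective
  have hinjE' : Function.Injective (algebraMap A[X] E) := by
    intro p q h
    rw [hcomp, hcomp] at h
    exact Polynomial.map_injective _ hinjA (hinjE h)
  -- the conjugates of Z
  let zf : G ⧸ H → 𝓑 := fun q => q.out • Z
  have hzf : ∀ g : G, g • Z = zf (g : G ⧸ H) := by
    intro g
    obtain ⟨h, hh⟩ := QuotientGroup.mk_out_eq_mul H g
    change g • Z = (QuotientGroup.mk g : G ⧸ H).out • Z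
    rw [hh, mul_smul, hZ1 _ h.2]
  have hzf_smul : ∀ (g : G) (q : G ⧸ H), g • zf q = zf (g • q) := by
    intro g q
    change g • q.out • Z = _
    rw [smul_smul, hzf]
    congr 1
    conv_rhs => rw [← QuotientGroup.out_eq' q]
    rfl
  let PB : 𝓑[X] := ∏ q : G ⧸ H, (X - C (zf q))
  have hPBmonic : PB.Monic := monic_prod_of_monic _ _ fun q _ => monic_X_sub_C _
  have hinv : ∀ (g : G) (n : ℕ), g • PB.coeff n = PB.coeff n := by
    intro g n
    have h1 : PB.map (MulSemiringAction.toRingHom G 𝓑 g) = PB := by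
      change (∏ q : G ⧸ H, (X - C (zf q))).map (MulSemiringAction.toRingHom G 𝓑 g) = _
      rw [Polynomial.map_prod]
      change _ = ∏ q : G ⧸ H, (X - C (zf q))
      rw [← Equiv.prod_comp (MulAction.toPerm g) (fun q : G ⧸ H => X - C (zf q))]
      refine Finset.prod_congr rfl fun q _ => ?_
      rw [Polynomial.map_sub, map_X, map_C, MulSemiringAction.toRingHom_apply, hzf_smul]
      rfl
    conv_rhs => rw [← h1]
    rw [coeff_map, MulSemiringAction.toRingHom_apply]
  have hlift : PB ∈ Polynomial.lifts (algebraMap A[X] 𝓑) := by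
    rw [Polynomial.lifts_iff_coeff_lifts]
    intro n
    obtain ⟨a, ha⟩ := Algebra.IsInvariant.isInvariant (A := A[X]) (G := G) (PB.coeff n)
      (fun g => hinv g n)
    exact ⟨a, ha⟩
  obtain ⟨P, hP1, hP2, hP3⟩ := lifts_and_natDegree_eq_and_monic hlift hPBmonic
  -- degree
  have hcard : 0 < Fintype.card (G ⧸ H) := Fintype.card_pos
  obtain ⟨d, hd⟩ : ∃ d, Fintype.card (G ⧸ H) = d + 1 :=
    ⟨_, (Nat.succ_pred_eq_of_pos hcard).symm⟩
  have hPdeg : P.natDegree = d + 1 := by
    rw [hP2, natDegree_prod_of_monic _ _ fun q _ => monic_X_sub_C _]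
    simp [hd]
  -- reduction modulo 𝔓
  obtain ⟨R, iR, π, hπ⟩ : ∃ (R : Type _) (_ : CommRing R) (π : 𝓑 →+* R),
      ∀ x, π x = 0 ↔ x ∈ 𝔓 :=
    ⟨𝓑 ⧸ 𝔓, inferInstance, Ideal.Quotient.mk 𝔓, fun x => Ideal.Quotient.eq_zero_iff_mem⟩
  have hred : PB.map π = X ^ d * (X - C (π Z)) := by
    refine (Polynomial.map_prod π (fun q : G ⧸ H => (X - C (zf q))) Finset.univ).trans ?_
    rw [← Finset.prod_erase_mul _ _ (Finset.mem_univ ((1 : G) : G ⧸ H))]
    congr 1
    · rw [Finset.prod_congr rfl (g := fun _ => (X : R[X]))]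
      · rw [Finset.prod_const, Finset.card_erase_of_mem (Finset.mem_univ _), Finset.card_univ, hd,
          Nat.add_sub_cancel]
      · intro q hq
        rw [Finset.mem_erase] at hq
        have h1 : zf q ∈ 𝔓 := by
          apply hZ3
          intro hmem
          apply hq.1
          rw [← QuotientGroup.out_eq' q, QuotientGroup.eq]
          rw [mul_one]
          exact H.inv_mem hmem
        rw [Polynomial.map_sub, map_X, map_C, (hπ _).mpr h1, C_0, sub_zero]
    · rw [Polynomial.map_sub, map_X, map_C, ← hzf, one_smul]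
  have hcoef : ∀ i, π (algebraMap A[X] 𝓑 (P.coeff i)) =
      (X ^ d * (X - C (π Z))).coeff i := by
    intro i
    rw [← hred, coeff_map, ← hP1, coeff_map]
  have hmemres : ∀ x : A[X], algebraMap A[X] 𝓑 x ∈ 𝔓 ↔ x.map res = 0 := by
    intro x
    rw [← mem_map_C_iff, ← Ideal.mem_comap, hcomap]
  set g₀ : A[X] := -P.coeff d with hg₀
  have hg₀ne : g₀.map res ≠ 0 := by
    intro h
    rw [← hmemres] at h
    have h1 := hcoef d
    rw [coeff_X_pow_mul_X_sub_C] at h1
    rw [if_neg (by omega), if_pos rfl, zero_sub] at h1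
    apply hZ2
    rw [← hπ, ← neg_eq_zero, ← h1, hπ]
    have h2 : algebraMap A[X] 𝓑 (P.coeff d) = - algebraMap A[X] 𝓑 g₀ := by
      rw [hg₀, map_neg, neg_neg]
    rw [h2]
    exact neg_mem h
  have hPbar : P.map (mapRingHom res) = X ^ d * (X - C (g₀.map res)) := by
    ext1 i
    rw [coeff_map, coe_mapRingHom, coeff_X_pow_mul_X_sub_C]
    rcases lt_trichotomy i d with hi | hi | hi
    · rw [if_neg (by omega), if_neg (by omega), sub_zero, ← hmemres,
        ← hπ, hcoef, coeff_X_pow_mul_X_sub_C, if_neg (by omega), if_neg (by omega),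
        sub_zero]
    · rw [if_neg (by omega), if_pos hi, zero_sub, hg₀, Polynomial.map_neg, neg_neg, hi]
    · rw [if_neg (show ¬ i = d by omega), sub_zero]
      rcases eq_or_lt_of_le (Nat.succ_le_of_lt hi) with h1 | h1
      · rw [if_pos h1.symm]
        have h2 : P.coeff i = 1 := by
          rw [← h1]
          have := hP3.coeff_natDegree
          rwa [hPdeg] at this
        rw [h2, Polynomial.map_one]
      · rw [if_neg (by omega), coeff_eq_zero_of_natDegree_lt (by rw [hPdeg]; omega),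
          Polynomial.map_zero]
  -- roots at a place
  have hint : ∀ q : G ⧸ H, IsIntegral A[X] (zf q : E) := fun q => (zf q).2
  have hroots : ∀ (c : A) (e : ℤ) (θ : E →+* LaurentSeries k) (s' : LaurentSeries A),
      IsPlace θ (algebraMap A k c) e →
      evT (HahnSeries.C c + HahnSeries.single e 1) s * s' = 1 →
      ∃ ζ : G ⧸ H → LaurentSeries A, (∀ q, mapLS (algebraMap A k) (ζ q) = θ (zf q : E)) ∧
        P.map (evT (HahnSeries.C c + HahnSeries.single e 1)) = ∏ q, (X - C (ζ q)) := by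
    intro c e θ s' hθ hs'
    have h1 : ∀ q : G ⧸ H, θ (zf q : E) ∈ intLS A k := by
      intro q
      apply mem_intLS_of_coeff
      intro n
      refine taylor_integral (G := G) hcomp hDt hDC halg hθ hs' (zf q : E) (fun j => ?_) n
      exact exists_pow_mul_integral (G := G) hrank hcomp hinjE hfix hreg (hder _ (hint q) j)
        fun θ' c' hθ' => hθ'.hasse_mem_regLS hcomp hDt hDC halg (hint q) j
    choose ζ hζ using h1
    refine ⟨ζ, hζ, ?_⟩
    apply Polynomial.map_injective _ (mapLS_injective hinjA)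
    rw [Polynomial.map_map, Polynomial.map_prod]
    have h2 : ((mapLS (algebraMap A k)).comp (evT (HahnSeries.C c + HahnSeries.single e 1))) =
        (θ.comp (algebraMap 𝓑 E)).comp (algebraMap A[X] 𝓑) := by
      refine Polynomial.ringHom_ext (fun p => ?_) ?_
      · simp only [RingHom.comp_apply]
        change _ = θ (algebraMap A[X] E (C p))
        rw [hcomp, hθ.2, mapLS_evT, map_add, mapLS_C, mapLS_single, map_one]
      · simp only [RingHom.comp_apply]
        change _ = θ (algebraMap A[X] E X)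
        rw [hcomp, hθ.2, mapLS_evT, map_add, mapLS_C, mapLS_single, map_one]
    rw [h2, ← Polynomial.map_map, hP1, Polynomial.map_prod]
    refine Finset.prod_congr rfl fun q _ => ?_
    rw [Polynomial.map_sub, map_X, map_C, Polynomial.map_sub, map_X, map_C, hζ]
    rfl
  have hrootsAt : ∀ (c : A) (e : ℤ) (θ : E →+* LaurentSeries k) (s' : LaurentSeries A)
      (D : ℤ), IsPlace θ (algebraMap A k c) e →
      evT (HahnSeries.C c + HahnSeries.single e 1) s * s' = 1 →
      (∀ q, ∀ j < D, (θ (zf q : E)).coeff j = 0) →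
      RootsAt P (HahnSeries.C c + HahnSeries.single e 1) D := by
    intro c e θ s' D' hθ hs' hD'
    obtain ⟨ζ, hζ1, hζ2⟩ := hroots c e θ s' hθ hs'
    refine ⟨Finset.univ.val.map ζ, ?_, ?_⟩
    · rw [hζ2, Multiset.map_map]
      rfl
    · intro z hz j hj
      rw [Multiset.mem_map] at hz
      obtain ⟨q, -, rfl⟩ := hz
      apply hinjA
      have := hD' q j hj
      rw [← hζ1, coeff_mapLS] at this
      rw [this, map_zero]
  obtain ⟨p, hp⟩ := liouville hP3 hg₀ne hPbar hrank hnf
    (by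
      intro c'
      obtain ⟨c, hc, e, he, θ, hθ, s', hs'⟩ := hpl c'
      refine ⟨c, hc, e, he, hrootsAt c e θ s' 0 hθ hs' fun q => ?_⟩
      exact mem_regLS_iff.mp (hθ.mem_regLS hcomp he (hint q)))
    ⟨c₀, hrootsAt c₀ 1 θ₀ s₀ 0 hθ₀ hs₀ fun q => mem_regLS_iff.mp
      (IsPlace.mem_regLS (e := 1) hcomp one_pos (by exact_mod_cast hθ₀) (hint q))⟩
    (by
      obtain ⟨e, he, θ, hθ, s', hs'⟩ := hinf
      have hC0 : (HahnSeries.C (0 : A) + HahnSeries.single (-(e : ℤ)) 1 : LaurentSeries A) =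
          HahnSeries.single (-(e : ℤ)) 1 := by rw [map_zero, zero_add]
      -- a common bound
      obtain ⟨D', hD'⟩ := exists_pole_bound (G := G) θ (Z : E)
      refine ⟨e, he, -(D' : ℤ), ?_⟩
      rw [← hC0]
      refine hrootsAt 0 (-(e : ℤ)) θ s' _ (by rw [map_zero]; exact hθ) (by rw [hC0]; exact hs') ?_
      intro q j hj
      exact hD' q.out j hj)
  -- conclusion
  have h3 : PB.eval (algebraMap A[X] 𝓑 p) = 0 := by
    rw [← hP1, eval_map, eval₂_at_apply, hp, map_zero]
  rw [eval_prod, Finset.prod_eq_zero_iff] at h3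
  obtain ⟨q, -, hq⟩ := h3
  rw [eval_sub, eval_X, eval_C, sub_eq_zero] at hq
  have h4 : Z = algebraMap A[X] 𝓑 p := by
    have h5 : q.out⁻¹ • algebraMap A[X] 𝓑 p = Z := by
      rw [hq]
      exact inv_smul_smul _ _
    rw [← h5, smul_algebraMap]
  have h6 := hZ3 g hgH
  rw [h4, smul_algebraMap, ← h4] at h6
  exact hZ2 h6

end Fermat.Agent.LP
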