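import Mathlib
import Fermat.Agent.LP.UT

set_option autoImplicit false
set_option linter.unusedSectionVars false

/-!
# Localisations of integral closures are valuation rings
-/

open Polynomial

noncomputable section

namespace Fermat.Agent.LP

/-- The `u, u⁻¹` lemma. -/
theorem exists_mul_eq_or' {B E : Type*} [CommRing B] [Field E] [Algebra B E]
    (hinj : Function.Injective (algebraMap B E)) {x : E}
    (hB : ∀ b : B, IsIntegral B (algebraMap B E b * x) →
      ∃ b', algebraMap B E b' = algebraMap B E b * x) (𝔓 : Ideal B) [h𝔓 : 𝔓.IsPrime]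
    (p : B[X]) (hp : aeval x p = 0) (hp𝔓 : ∃ i, p.coeff i ∉ 𝔓) :
    (∃ b ∉ 𝔓, ∃ a, algebraMap B E b * x = algebraMap B E a) ∨
      (∃ b ∉ 𝔓, ∃ a, algebraMap B E b * x⁻¹ = algebraMap B E a) := by
  by_cases hx : x = 0
  · left
    refine ⟨1, (Ideal.ne_top_iff_one 𝔓).mp h𝔓.ne_top, 0, ?_⟩
    rw [hx, mul_zero, map_zero]
  suffices h : ∀ (n : ℕ) (p : B[X]), p.natDegree ≤ n → aeval x p = 0 → (∃ i, p.coeff i ∉ 𝔓) →
      (∃ b ∉ 𝔓, ∃ a, algebraMap B E b * x = algebraMap B E a) ∨
      (∃ b ∉ 𝔓, ∃ a, algebraMap B E b * x⁻¹ = algebraMap B E a) from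
    h _ p le_rfl hp hp𝔓
  intro n
  induction n with
  | zero =>
    intro p hn hp ⟨i, hi⟩
    exfalso
    rw [eq_C_of_natDegree_le_zero hn, aeval_C] at hp
    have h0 : p.coeff 0 = 0 := hinj (by rw [hp, map_zero])
    rcases Nat.eq_zero_or_pos i with rfl | hi'
    · exact hi (by rw [h0]; exact 𝔓.zero_mem)
    · exact hi (by rw [coeff_eq_zero_of_natDegree_lt (by omega)]; exact 𝔓.zero_mem)
  | succ n ih =>
    intro p hn hp ⟨i, hi⟩
    rcases Nat.lt_or_ge p.natDegree (n + 1) with h1 | h1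
    · exact ih p (by omega) hp ⟨i, hi⟩
    have hdeg : p.natDegree = n + 1 := le_antisymm hn h1
    have hint := isIntegral_leadingCoeff_smul p x hp
    rw [Algebra.smul_def] at hint
    obtain ⟨b, hb⟩ := hB _ hint
    by_cases hl : p.leadingCoeff ∈ 𝔓
    swap
    · exact Or.inl ⟨_, hl, b, hb.symm⟩
    by_cases hb𝔓 : b ∈ 𝔓
    swap
    · refine Or.inr ⟨b, hb𝔓, p.leadingCoeff, ?_⟩
      rw [hb, mul_assoc, mul_inv_cancel₀ hx, mul_one]
    have hsplit : p = C p.leadingCoeff * X ^ (n + 1) + p.eraseLead := by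
      conv_lhs => rw [← p.eraseLead_add_C_mul_X_pow, hdeg]
      rw [add_comm]
    refine ih (p.eraseLead + monomial n b) ?_ ?_ ?_
    · refine natDegree_add_le_of_degree_le ?_ (natDegree_monomial_le _)
      have := p.eraseLead_natDegree_le
      omega
    · have h2 : aeval x p = algebraMap B E p.leadingCoeff * x ^ (n + 1) + aeval x p.eraseLead := by
        conv_lhs => rw [hsplit]
        rw [map_add, map_mul, aeval_C, map_pow, aeval_X]
      rw [map_add, aeval_monomial, hb, mul_assoc, ← pow_succ', add_comm, ← h2, hp]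
    · rcases eq_or_ne i p.natDegree with h2 | h2
      · exact absurd (by rw [h2]; exact hl) hi
      · refine ⟨i, ?_⟩
        rw [coeff_add, eraseLead_coeff_of_ne _ h2, coeff_monomial]
        intro hmem
        apply hi
        split_ifs at hmem with h3
        · exact (Ideal.add_mem_iff_left _ hb𝔓).mp hmem
        · rwa [add_zero] at hmem

/-- The `u, u⁻¹` lemma. -/
theorem exists_mul_eq_or {B E : Type*} [CommRing B] [Field E] [Algebra B E]
    (hinj : Function.Injective (algebraMap B E))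
    (hB : ∀ x : E, IsIntegral B x → ∃ b, algebraMap B E b = x) (𝔓 : Ideal B) [h𝔓 : 𝔓.IsPrime]
    {x : E} (p : B[X]) (hp : aeval x p = 0) (hp𝔓 : ∃ i, p.coeff i ∉ 𝔓) :
    (∃ b ∉ 𝔓, ∃ a, algebraMap B E b * x = algebraMap B E a) ∨
      (∃ b ∉ 𝔓, ∃ a, algebraMap B E b * x⁻¹ = algebraMap B E a) :=
  exists_mul_eq_or' hinj (fun _ h => hB _ h) 𝔓 p hp hp𝔓

section Content

variable {A : Type*} [CommRing A] [IsDomain A] [ValuationRing A]

local notation "res" => IsLocalRing.residue A

/-- content of a polynomial in two variables -/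
theorem exists_content₂ {P : A[X][X]} (hP : P ≠ 0) :
    ∃ (b : A) (Q : A[X][X]), b ≠ 0 ∧ P = C (C b) * Q ∧ ∃ i, (Q.coeff i).map res ≠ 0 := by
  classical
  have h1 : ∀ i ∈ P.support, ∃ (b : A) (y : A[X]), b ≠ 0 ∧ P.coeff i = C b * y ∧ y.map res ≠ 0 :=
    fun i hi => exists_content (mem_support_iff.mp hi)
  choose! b y hb hy hy' using h1
  have key : ∀ s : Finset ℕ, s.Nonempty → ∃ i ∈ s, ∀ j ∈ s, b i ∣ b j := by
    intro s hs
    induction hs using Finset.Nonempty.cons_induction with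
    | singleton i => exact ⟨i, by simp, fun j hj => by simp at hj; rw [hj]⟩
    | cons i s hi hs ih =>
      obtain ⟨i₀, hi₀, h⟩ := ih
      rcases ValuationRing.dvd_total (b i) (b i₀) with h2 | h2
      · refine ⟨i, by simp, fun j hj => ?_⟩
        rw [Finset.mem_cons] at hj
        rcases hj with rfl | hj
        · exact dvd_rfl
        · exact h2.trans (h j hj)
      · refine ⟨i₀, by simp [hi₀], fun j hj => ?_⟩
        rw [Finset.mem_cons] at hj
        rcases hj with rfl | hj
        · exact h2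
        · exact h j hj
  obtain ⟨i₀, hi₀, h2⟩ := key P.support (support_nonempty.mpr hP)
  have h3 : C (C (b i₀)) ∣ P := by
    rw [C_dvd_iff_dvd_coeff]
    intro j
    by_cases hj : j ∈ P.support
    · rw [hy j hj]
      exact (map_dvd C (h2 j hj)).mul_right _
    · rw [notMem_support_iff.mp hj]
      exact dvd_zero _
  obtain ⟨Q, hQ⟩ := h3
  refine ⟨b i₀, Q, hb i₀ hi₀, hQ, i₀, ?_⟩
  have h4 : C (b i₀) * Q.coeff i₀ = C (b i₀) * y i₀ := by
    rw [← hy i₀ hi₀]
    conv_rhs => rw [hQ]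
    rw [coeff_C_mul]
  have h5 := mul_left_cancel₀ (by rw [Ne, C_eq_zero]; exact hb i₀ hi₀) h4
  rw [h5]
  exact hy' i₀ hi₀

end Content

end Fermat.Agent.LP
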