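import Mathlib
import Fermat.Agent.LP.ValRing

set_option autoImplicit false
set_option linter.unusedSectionVars false

/-!
# The valuation ring attached to a prime above the Gauss prime
-/

open Polynomial
open scoped Pointwise

noncomputable section

namespace Fermat.Agent.LP

variable {A k E : Type*} [CommRing A] [IsDomain A] [ValuationRing A] [Field k]
  [Algebra A k] [IsFractionRing A k] [Field E] [Algebra A[X] E] [Algebra k[X] E]

local notation "res" => IsLocalRing.residue A
local notation "κ" => IsLocalRing.ResidueField A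
local notation "𝓑" => (integralClosure A[X] E)

theorem integralClosure_closed (x : E) (hx : IsIntegral 𝓑 x) : ∃ b : 𝓑, algebraMap 𝓑 E b = x :=
  ⟨⟨x, isIntegral_trans (R := A[X]) (A := 𝓑) x hx⟩, rfl⟩

/-- elements of `E` lie in the localisation of the integral closure at `𝔓`, or their inverses. -/
theorem exists_place_or (halg : ∀ z : E, IsAlgebraic A[X] z) (𝔓 : Ideal 𝓑) [h𝔓 : 𝔓.IsPrime]
    (hcomap : 𝔓.comap (algebraMap A[X] 𝓑) = gaussPrime A)
    (hinj : Function.Injective (algebraMap A[X] E)) (x : E) :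
    (∃ b : 𝓑, b ∉ 𝔓 ∧ ∃ a : 𝓑, (b : E) * x = a) ∨
      (∃ b : 𝓑, b ∉ 𝔓 ∧ ∃ a : 𝓑, (b : E) * x⁻¹ = a) := by
  obtain ⟨P, hP0, hPx⟩ := halg x
  obtain ⟨b, Q, hb, hPQ, i, hi⟩ := exists_content₂ hP0
  have hQx : aeval x Q = 0 := by
    rw [hPQ, map_mul, aeval_C] at hPx
    refine (mul_eq_zero.mp hPx).resolve_left ?_
    intro h0
    have := hinj (h0.trans (map_zero _).symm)
    rw [C_eq_zero] at this
    exact hb this
  have h1 := exists_mul_eq_or (B := 𝓑) (E := E) Subtype.val_injective integralClosure_closed 𝔓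
    (x := x) (Q.map (algebraMap A[X] 𝓑)) (by rw [aeval_map_algebraMap]; exact hQx)
    ⟨i, by
      rw [coeff_map, ← Ideal.mem_comap, hcomap, mem_map_C_iff]
      exact hi⟩
  exact h1

/-- the valuation ring of `𝔓` -/
def placeRing (halg : ∀ z : E, IsAlgebraic A[X] z) (𝔓 : Ideal 𝓑) [h𝔓 : 𝔓.IsPrime]
    (hcomap : 𝔓.comap (algebraMap A[X] 𝓑) = gaussPrime A)
    (hinj : Function.Injective (algebraMap A[X] E)) : ValuationSubring E where
  carrier := {x | ∃ b : 𝓑, b ∉ 𝔓 ∧ ∃ a : 𝓑, (b : E) * x = a}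
  mul_mem' := by
    rintro x y ⟨b, hb, a, hx⟩ ⟨b', hb', a', hy⟩
    refine ⟨b * b', fun h => (h𝔓.mem_or_mem h).elim hb hb', a * a', ?_⟩
    push_cast
    rw [← hx, ← hy]
    ring
  one_mem' := ⟨1, (Ideal.ne_top_iff_one 𝔓).mp h𝔓.ne_top, 1, by push_cast; ring⟩
  add_mem' := by
    rintro x y ⟨b, hb, a, hx⟩ ⟨b', hb', a', hy⟩
    refine ⟨b * b', fun h => (h𝔓.mem_or_mem h).elim hb hb', b' * a + b * a', ?_⟩
    push_cast
    rw [← hx, ← hy]
    ring
  zero_mem' := ⟨1, (Ideal.ne_top_iff_one 𝔓).mp h𝔓.ne_top, 0, by push_cast; ring⟩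
  neg_mem' := by
    rintro x ⟨b, hb, a, hx⟩
    refine ⟨b, hb, -a, ?_⟩
    push_cast
    rw [← hx]
    ring
  mem_or_inv_mem' := exists_place_or halg 𝔓 hcomap hinj

section props

variable {halg : ∀ z : E, IsAlgebraic A[X] z} {𝔓 : Ideal (integralClosure A[X] E)}
    [h𝔓 : 𝔓.IsPrime]
    {hcomap : 𝔓.comap (algebraMap A[X] (integralClosure A[X] E)) = gaussPrime A}
    {hinj : Function.Injective (algebraMap A[X] E)}

theorem mem_placeRing {x : E} : x ∈ placeRing halg 𝔓 hcomap hinj ↔
    ∃ b : 𝓑, b ∉ 𝔓 ∧ ∃ a : 𝓑, (b : E) * x = a := Iff.rfl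

theorem coe_mem_placeRing (b : 𝓑) : (b : E) ∈ placeRing halg 𝔓 hcomap hinj :=
  ⟨1, (Ideal.ne_top_iff_one 𝔓).mp h𝔓.ne_top, b, by push_cast; ring⟩

theorem inv_mem_placeRing {b : 𝓑} (hb : b ∉ 𝔓) : (b : E)⁻¹ ∈ placeRing halg 𝔓 hcomap hinj := by
  have hb0 : (b : E) ≠ 0 := by
    intro h
    apply hb
    have : b = 0 := Subtype.ext h
    rw [this]; exact 𝔓.zero_mem
  exact ⟨b, hb, 1, by push_cast; exact mul_inv_cancel₀ hb0⟩

theorem not_mem_of_inv_mem {b : 𝓑} (hb0 : b ≠ 0)
    (hb : (b : E)⁻¹ ∈ placeRing halg 𝔓 hcomap hinj) : b ∉ 𝔓 := by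
  obtain ⟨c, hc, a, hca⟩ := hb
  intro hmem
  apply hc
  have hb0' : (b : E) ≠ 0 := fun h => hb0 (Subtype.ext h)
  have : c = b * a := by
    apply Subtype.ext
    push_cast
    rw [← hca]
    field_simp
  rw [this]
  exact Ideal.mul_mem_right _ _ hmem

theorem base_not_mem (hcomap : 𝔓.comap (algebraMap A[X] (integralClosure A[X] E)) = gaussPrime A)
    {g : A[X]} (hg : g.map res ≠ 0) : algebraMap A[X] 𝓑 g ∉ 𝔓 := by
  rw [← Ideal.mem_comap, hcomap, mem_map_C_iff]
  exact hg

theorem base_inv_mem {g : A[X]} (hg : g.map res ≠ 0) :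
    (algebraMap A[X] E g)⁻¹ ∈ placeRing halg 𝔓 hcomap hinj :=
  inv_mem_placeRing (b := algebraMap A[X] 𝓑 g) (base_not_mem hcomap hg)

theorem base_mem (g : A[X]) : algebraMap A[X] E g ∈ placeRing halg 𝔓 hcomap hinj :=
  coe_mem_placeRing (algebraMap A[X] 𝓑 g)

theorem const_mem_iff
    (hcomp : ∀ p : A[X], algebraMap A[X] E p = algebraMap k[X] E (p.map (algebraMap A k)))
    (a : k) : algebraMap k[X] E (C a) ∈ placeRing halg 𝔓 hcomap hinj ↔
      ∃ a' : A, algebraMap A k a' = a := by
  constructor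
  · intro h
    rcases ValuationRing.isInteger_or_isInteger A a with ⟨a', ha'⟩ | ⟨a', ha'⟩
    · exact ⟨a', ha'⟩
    · by_cases h0 : a = 0
      · exact ⟨0, by rw [h0, map_zero]⟩
      by_cases hu : IsUnit a'
      · obtain ⟨u, rfl⟩ := hu
        refine ⟨(↑u⁻¹ : A), ?_⟩
        have h1 : algebraMap A k (u : A) * algebraMap A k (↑u⁻¹ : A) = 1 := by
          rw [← map_mul, Units.mul_inv, map_one]
        rw [ha'] at h1
        exact (inv_mul_eq_one₀ h0).mp h1 |>.symm
      · exfalso
        have ha'0 : a' ≠ 0 := by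
          rintro rfl
          rw [map_zero] at ha'
          exact h0 (inv_eq_zero.mp ha'.symm)
        have hinv : (algebraMap A[X] E (C a'))⁻¹ = algebraMap k[X] E (C a) := by
          rw [hcomp, map_C, ha']
          apply inv_eq_of_mul_eq_one_left
          rw [← map_mul, ← C_mul, mul_inv_cancel₀ h0, C_1, map_one]
        rw [← hinv] at h
        have hne : algebraMap A[X] 𝓑 (C a') ≠ 0 := by
          intro h2
          have h3 : algebraMap A[X] E (C a') = 0 := congrArg Subtype.val h2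
          have h4 := hinj (h3.trans (map_zero _).symm)
          exact ha'0 (C_eq_zero.mp h4)
        have h5 := not_mem_of_inv_mem hne h
        apply h5
        rw [← Ideal.mem_comap, hcomap, mem_map_C_iff, map_C, C_eq_zero,
          IsLocalRing.residue_eq_zero_iff]
        exact (IsLocalRing.mem_maximalIdeal _).mpr hu
  · rintro ⟨a', rfl⟩
    rw [← map_C, ← hcomp]
    exact base_mem _

/-- the value group is that of `k`. -/
theorem exists_const_unit [IsAlgClosed k]
    (hcomp : ∀ p : A[X], algebraMap A[X] E p = algebraMap k[X] E (p.map (algebraMap A k)))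
    {z : E} (hz : z ≠ 0) : ∃ c : k, c ≠ 0 ∧
      algebraMap k[X] E (C c) * z ∈ placeRing halg 𝔓 hcomap hinj ∧
      (algebraMap k[X] E (C c) * z)⁻¹ ∈ placeRing halg 𝔓 hcomap hinj := by
  classical
  set O := placeRing halg 𝔓 hcomap hinj with hO
  have hinjk : ∀ a : k, a ≠ 0 → algebraMap k[X] E (C a) ≠ 0 := by
    intro a ha h0
    have h1 : algebraMap k[X] E (C a) * algebraMap k[X] E (C a⁻¹) = 1 := by
      rw [← map_mul, ← C_mul, mul_inv_cancel₀ ha, C_1, map_one]
    rw [h0, zero_mul] at h1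
    exact zero_ne_one h1
  -- valuations of base elements
  have hbase : ∀ p : A[X], p ≠ 0 → ∃ b : A, b ≠ 0 ∧
      O.valuation (algebraMap A[X] E p) = O.valuation (algebraMap A[X] E (C b)) := by
    intro p hp
    obtain ⟨b, y, hb, hpy, hy⟩ := exists_content hp
    refine ⟨b, hb, ?_⟩
    have h1 : O.valuation (algebraMap A[X] E y) = 1 := by
      apply le_antisymm
      · exact (O.valuation_le_one_iff _).mpr (base_mem y)
      · have h2 := (O.valuation_le_one_iff _).mpr (base_inv_mem (halg := halg) (hcomap := hcomap)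
          (hinj := hinj) hy)
        rw [map_inv₀] at h2
        have h3 : O.valuation (algebraMap A[X] E y) ≠ 0 := by
          rw [Valuation.ne_zero_iff]
          intro h4
          have h5 := hinj (h4.trans (map_zero _).symm)
          rw [h5, Polynomial.map_zero] at hy
          exact hy rfl
        exact (inv_le_one₀ (zero_lt_iff.mpr h3)).mp h2
    rw [hpy, map_mul, map_mul, h1, mul_one]
  obtain ⟨P, hP0, hPz⟩ := halg z
  have hvz : O.valuation z ≠ 0 := (Valuation.ne_zero_iff _).mpr hz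
  -- two terms of equal valuation
  obtain ⟨i, hi, j, hj, hij, hval⟩ : ∃ i ∈ P.support, ∃ j ∈ P.support, i < j ∧
      O.valuation (algebraMap A[X] E (P.coeff i) * z ^ i) =
      O.valuation (algebraMap A[X] E (P.coeff j) * z ^ j) := by
    by_contra hcon
    push Not at hcon
    have hdist : ∀ i ∈ P.support, ∀ j ∈ P.support, i ≠ j →
        O.valuation (algebraMap A[X] E (P.coeff i) * z ^ i) ≠
        O.valuation (algebraMap A[X] E (P.coeff j) * z ^ j) := by
      intro i hi j hj hij
      rcases lt_or_gt_of_ne hij with h | h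
      · exact hcon i hi j hj h
      · exact (hcon j hj i hi h).symm
    obtain ⟨j, hj, hmax⟩ := P.support.exists_max_image
      (fun i => O.valuation (algebraMap A[X] E (P.coeff i) * z ^ i)) (support_nonempty.mpr hP0)
    have h1 : O.valuation (∑ i ∈ P.support, algebraMap A[X] E (P.coeff i) * z ^ i) =
        O.valuation (algebraMap A[X] E (P.coeff j) * z ^ j) := by
      refine Valuation.map_sum_eq_of_lt _ hj fun i hi => ?_
      rw [Finset.mem_sdiff, Finset.mem_singleton] at hi
      exact lt_of_le_of_ne (hmax i hi.1) (hdist i hi.1 j hj hi.2)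
    have h2 : ∑ i ∈ P.support, algebraMap A[X] E (P.coeff i) * z ^ i = 0 := by
      rw [← hPz, aeval_def, eval₂_eq_sum, Polynomial.sum]
    rw [h2, map_zero] at h1
    have h3 := (Valuation.zero_iff _).mp h1.symm
    rw [mul_eq_zero] at h3
    rcases h3 with h3 | h3
    · have h4 := hinj (h3.trans (map_zero _).symm)
      exact (mem_support_iff.mp hj) h4
    · exact pow_ne_zero _ hz h3
  obtain ⟨b, hb, hbv⟩ := hbase _ (mem_support_iff.mp hi)
  obtain ⟨b', hb', hbv'⟩ := hbase _ (mem_support_iff.mp hj)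
  rw [map_mul, map_mul, hbv, hbv', map_pow, map_pow] at hval
  have hinjA : Function.Injective (algebraMap A k) := IsFractionRing.injective A k
  have hbk : algebraMap A k b ≠ 0 := fun h => hb (hinjA (by rw [h, map_zero]))
  have hbk' : algebraMap A k b' ≠ 0 := fun h => hb' (hinjA (by rw [h, map_zero]))
  -- root
  obtain ⟨d, hd⟩ : ∃ d, j = i + d := ⟨j - i, by omega⟩
  have hdpos : 0 < d := by omega
  obtain ⟨c, hc⟩ := IsAlgClosed.exists_pow_nat_eq (algebraMap A k b' / algebraMap A k b) hdpos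
  have hc0 : c ≠ 0 := by
    rintro rfl
    rw [zero_pow hdpos.ne'] at hc
    exact (div_ne_zero hbk' hbk) hc.symm
  refine ⟨c, hc0, ?_⟩
  have hval2 : O.valuation (algebraMap k[X] E (C c) * z) ^ d = 1 := by
    have hvb : O.valuation (algebraMap k[X] E (C (algebraMap A k b))) ≠ 0 :=
      (Valuation.ne_zero_iff _).mpr (hinjk _ hbk)
    have h1 : O.valuation (algebraMap k[X] E (C (algebraMap A k b))) =
        O.valuation (algebraMap k[X] E (C (algebraMap A k b'))) * O.valuation z ^ d := by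
      rw [hcomp, hcomp, map_C, map_C, hd, pow_add] at hval
      have h2 : O.valuation z ^ i ≠ 0 := pow_ne_zero _ hvz
      apply mul_right_cancel₀ h2
      rw [hval]
      rw [mul_assoc, mul_comm (O.valuation z ^ d)]
    have h3 : algebraMap k[X] E (C (algebraMap A k b)) * algebraMap k[X] E (C c) ^ d =
        algebraMap k[X] E (C (algebraMap A k b')) := by
      rw [← map_pow, ← C_pow, hc, ← map_mul, ← C_mul, mul_div_cancel₀ _ hbk]
    have h4 : O.valuation (algebraMap k[X] E (C (algebraMap A k b'))) =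
        O.valuation (algebraMap k[X] E (C (algebraMap A k b))) *
          O.valuation (algebraMap k[X] E (C c)) ^ d := by
      rw [← h3, map_mul, map_pow]
    rw [map_mul, mul_pow]
    apply mul_left_cancel₀ hvb
    rw [← mul_assoc, ← h4, mul_one]
    exact h1.symm
  have hval3 : O.valuation (algebraMap k[X] E (C c) * z) = 1 :=
    (pow_eq_one_iff_of_nonneg zero_le hdpos.ne').mp hval2
  constructor
  · exact (O.valuation_le_one_iff _).mp hval3.le
  · apply (O.valuation_le_one_iff _).mp
    rw [map_inv₀, hval3, inv_one]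

end props

end Fermat.Agent.LP
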