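import Mathlib
import Fermat.Agent.LP.ValRing2

set_option autoImplicit false
set_option linter.unusedSectionVars false

/-!
# Power series over subrings of fields; Taylor homomorphism; complete integral closedness
-/

open Polynomial

noncomputable section

namespace Fermat.Agent.LP

section Root

open PowerSeries

/-- roots of power series over a subring -/
theorem coeff_mem_of_pow {K : Type*} [Field K] (R : Subring K) {m : ℕ} (hm0 : (m : K) ≠ 0)
    (hm : (m : K)⁻¹ ∈ R) {W : PowerSeries K} (h0 : PowerSeries.constantCoeff W ∈ R)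
    (h0' : (PowerSeries.constantCoeff W)⁻¹ ∈ R) (hne : PowerSeries.constantCoeff W ≠ 0)
    (h : ∀ n, PowerSeries.coeff n (W ^ m) ∈ R) (n : ℕ) : PowerSeries.coeff n W ∈ R := by
  have hmpos : 0 < m := Nat.pos_of_ne_zero (by rintro rfl; simp at hm0)
  induction n using Nat.strong_induction_on with
  | _ n ih =>
    rcases Nat.eq_zero_or_pos n with rfl | hn
    · rw [PowerSeries.coeff_zero_eq_constantCoeff_apply]; exact h0
    -- split `W`
    set V : PowerSeries K := ((PowerSeries.trunc n W : Polynomial K) : PowerSeries K) with hV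
    have hVc : ∀ i, PowerSeries.coeff i V = if i < n then PowerSeries.coeff i W else 0 := by
      intro i
      rw [hV, Polynomial.coeff_coe, PowerSeries.coeff_trunc]
    have hVR : ∀ i, PowerSeries.coeff i V ∈ R := by
      intro i
      rw [hVc]
      split_ifs with h1
      · exact ih i h1
      · exact R.zero_mem
    obtain ⟨U, hU⟩ : (PowerSeries.X : PowerSeries K) ^ n ∣ W - V := by
      rw [PowerSeries.X_pow_dvd_iff]
      intro i hi
      rw [map_sub, hVc, if_pos hi, sub_self]
    have hW : W = V + PowerSeries.X ^ n * U := by rw [← hU]; ring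
    have hU0 : PowerSeries.constantCoeff U = PowerSeries.coeff n W := by
      have h1 := congrArg (PowerSeries.coeff n) hU
      rw [map_sub, hVc, if_neg (lt_irrefl n), sub_zero] at h1
      rw [h1, PowerSeries.coeff_X_pow_mul', if_pos le_rfl, Nat.sub_self,
        PowerSeries.coeff_zero_eq_constantCoeff_apply]
    -- lift `V` to `R`
    obtain ⟨V', hV'⟩ : ∃ V' : PowerSeries R, V'.map R.subtype = V := by
      refine ⟨PowerSeries.mk fun i => ⟨_, hVR i⟩, ?_⟩
      ext i
      rw [PowerSeries.coeff_map, PowerSeries.coeff_mk]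
      rfl
    obtain ⟨z, hz⟩ := Polynomial.powAddExpansion V (PowerSeries.X ^ n * U) m
    have h2 := h n
    rw [hW, hz, map_add, map_add] at h2
    have h3 : PowerSeries.coeff n (z * (PowerSeries.X ^ n * U) ^ 2) = 0 := by
      have h4 : z * (PowerSeries.X ^ n * U) ^ 2 = PowerSeries.X ^ (2 * n) * (z * U ^ 2) := by ring
      rw [h4, PowerSeries.coeff_X_pow_mul', if_neg (by omega)]
    have h4 : PowerSeries.coeff n (V ^ m) ∈ R := by
      rw [← hV', ← map_pow, PowerSeries.coeff_map]
      exact Subtype.coe_prop _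
    have hV0 : PowerSeries.constantCoeff V = PowerSeries.constantCoeff W := by
      rw [← PowerSeries.coeff_zero_eq_constantCoeff_apply, hVc, if_pos hn,
        PowerSeries.coeff_zero_eq_constantCoeff_apply]
    have h5 : PowerSeries.coeff n ((m : PowerSeries K) * V ^ (m - 1) * (PowerSeries.X ^ n * U)) =
        (m : K) * PowerSeries.constantCoeff W ^ (m - 1) * PowerSeries.coeff n W := by
      have h6 : (m : PowerSeries K) * V ^ (m - 1) * (PowerSeries.X ^ n * U) =
          PowerSeries.X ^ n * ((m : PowerSeries K) * V ^ (m - 1) * U) := by ring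
      rw [h6, PowerSeries.coeff_X_pow_mul', if_pos le_rfl, Nat.sub_self,
        PowerSeries.coeff_zero_eq_constantCoeff_apply, map_mul,
        map_mul, map_pow, hV0, hU0, map_natCast]
    rw [h3, add_zero, h5] at h2
    have h6 := R.sub_mem h2 h4
    rw [add_sub_cancel_left] at h6
    have h7 := R.mul_mem (R.mul_mem hm (R.pow_mem h0' (m - 1))) h6
    have h8 : (m : K)⁻¹ * (PowerSeries.constantCoeff W)⁻¹ ^ (m - 1) *
        ((m : K) * PowerSeries.constantCoeff W ^ (m - 1) * PowerSeries.coeff n W) =
        PowerSeries.coeff n W := by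
      rw [inv_pow]
      field_simp
    rw [← h8]
    exact h7

/-- quotients of power series over a subring -/
theorem coeff_mem_of_mul {K : Type*} [Field K] (R : Subring K) {U V W : PowerSeries K}
    (hU : ∀ n, PowerSeries.coeff n U ∈ R) (hV : ∀ n, PowerSeries.coeff n V ∈ R)
    (hU0 : (PowerSeries.constantCoeff U)⁻¹ ∈ R) (hne : PowerSeries.constantCoeff U ≠ 0)
    (h : U * W = V) (n : ℕ) : PowerSeries.coeff n W ∈ R := by
  induction n using Nat.strong_induction_on with
  | _ n ih =>
    have h1 := congrArg (PowerSeries.coeff n) h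
    rw [PowerSeries.coeff_mul, ← Finset.add_sum_erase _ _ (a := (0, n)) (by simp)] at h1
    simp only [PowerSeries.coeff_zero_eq_constantCoeff_apply] at h1
    have h2 : ∑ x ∈ (Finset.HasAntidiagonal.antidiagonal n).erase (0, n),
        PowerSeries.coeff x.1 U * PowerSeries.coeff x.2 W ∈ R := by
      refine R.sum_mem fun x hx => R.mul_mem (hU _) (ih _ ?_)
      rw [Finset.mem_erase, Finset.HasAntidiagonal.mem_antidiagonal] at hx
      by_contra hcon
      apply hx.1
      have : x.2 = n := by omega
      ext <;> simp <;> omega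
    have h3 : PowerSeries.coeff n W = (PowerSeries.constantCoeff U)⁻¹ *
        (PowerSeries.coeff n V - ∑ x ∈ (Finset.HasAntidiagonal.antidiagonal n).erase (0, n),
        PowerSeries.coeff x.1 U * PowerSeries.coeff x.2 W) := by
      rw [← h1, add_sub_cancel_right, ← mul_assoc, inv_mul_cancel₀ hne, one_mul]
    rw [h3]
    exact R.mul_mem hU0 (R.sub_mem (hV n) h2)

end Root

section Taylor

variable {E : Type*} [Field E] [CharZero E] (D : Derivation ℤ E E)

/-- the Taylor series of `z` -/
def taylorS (z : E) : PowerSeries E := PowerSeries.mk fun j => hasse D j z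

@[simp] theorem coeff_taylorS (z : E) (n : ℕ) : PowerSeries.coeff n (taylorS D z) = hasse D n z :=
  PowerSeries.coeff_mk _ _

theorem hasse_zero' (z : E) : hasse D 0 z = z := by
  rw [hasse]
  simp

theorem constantCoeff_taylorS (z : E) : PowerSeries.constantCoeff (taylorS D z) = z := by
  rw [← PowerSeries.coeff_zero_eq_constantCoeff_apply, coeff_taylorS, hasse_zero']

theorem hasse_succ (z : E) (n : ℕ) : ((n : E) + 1) * hasse D (n + 1) z = hasse D n (D z) := by
  have h1 : ((n + 1 : ℕ) : E) ≠ 0 := by exact_mod_cast Nat.succ_ne_zero n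
  have h2 : (n.factorial : E) ≠ 0 := by exact_mod_cast n.factorial_ne_zero
  rw [hasse, hasse, Function.iterate_succ_apply, Nat.factorial_succ]
  push_cast at h1 ⊢
  field_simp

theorem hasse_map_add (x y : E) (n : ℕ) : hasse D n (x + y) = hasse D n x + hasse D n y := by
  have h1 : ∀ n, D^[n] (x + y) = D^[n] x + D^[n] y := by
    intro n
    induction n with
    | zero => rfl
    | succ n ih =>
      rw [Function.iterate_succ_apply', ih, map_add, Function.iterate_succ_apply',
        Function.iterate_succ_apply']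
  rw [hasse, h1, hasse, hasse, add_div]

theorem hasse_map_zero (n : ℕ) : hasse D n (0 : E) = 0 := by
  have := hasse_map_add D 0 0 n
  rw [add_zero] at this
  exact (left_eq_add.mp this)

theorem taylorS_add (x y : E) : taylorS D (x + y) = taylorS D x + taylorS D y := by
  ext n
  rw [map_add, coeff_taylorS, coeff_taylorS, coeff_taylorS, hasse_map_add]

theorem taylorS_mul (x y : E) : taylorS D (x * y) = taylorS D x * taylorS D y := by
  have key : ∀ n : ℕ, ∀ x y : E, PowerSeries.coeff n (taylorS D (x * y)) =
      PowerSeries.coeff n (taylorS D x * taylorS D y) := by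
    intro n
    induction n with
    | zero =>
      intro x y
      rw [coeff_taylorS, hasse_zero', PowerSeries.coeff_zero_eq_constantCoeff_apply, map_mul,
        constantCoeff_taylorS, constantCoeff_taylorS]
    | succ n ih =>
      intro x y
      have hn : ((n : E) + 1) ≠ 0 := by exact_mod_cast Nat.succ_ne_zero n
      have hder : ∀ z : E, PowerSeries.derivative (R := E) (taylorS D z) = taylorS D (D z) := by
        intro z
        ext i
        rw [PowerSeries.coeff_derivative, coeff_taylorS, coeff_taylorS, ← hasse_succ, mul_comm]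
      apply mul_right_cancel₀ hn
      rw [← PowerSeries.coeff_derivative, ← PowerSeries.coeff_derivative, hder,
        Derivation.leibniz, Derivation.leibniz, smul_eq_mul, smul_eq_mul, smul_eq_mul, smul_eq_mul,
        hder, hder, taylorS_add, map_add, map_add, ih, ih]
  ext n
  exact key n x y

theorem hasse_one (n : ℕ) : hasse D n (1 : E) = if n = 0 then 1 else 0 := by
  rcases Nat.eq_zero_or_pos n with rfl | hn
  · rw [hasse_zero', if_pos rfl]
  · obtain ⟨m, rfl⟩ := Nat.exists_eq_succ_of_ne_zero hn.ne'
    rw [if_neg (by omega)]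
    have h := hasse_succ D (1 : E) m
    have hm : ((m : E) + 1) ≠ 0 := by exact_mod_cast Nat.succ_ne_zero m
    rw [Derivation.map_one_eq_zero, hasse_map_zero] at h
    exact (mul_eq_zero.mp h).resolve_left hm

theorem taylorS_one : taylorS D (1 : E) = 1 := by
  ext n
  rw [coeff_taylorS, hasse_one, PowerSeries.coeff_one]

theorem taylorS_pow (x : E) (m : ℕ) : taylorS D (x ^ m) = taylorS D x ^ m := by
  induction m with
  | zero => rw [pow_zero, pow_zero, taylorS_one]
  | succ m ih => rw [pow_succ, taylorS_mul, ih, pow_succ]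

theorem hasse_const_mul {c : E} (hc : D c = 0) (z : E) (n : ℕ) :
    hasse D n (c * z) = c * hasse D n z := by
  have h1 : ∀ n, D^[n] (c * z) = c * D^[n] z := by
    intro n
    induction n with
    | zero => rfl
    | succ n ih =>
      rw [Function.iterate_succ_apply', ih, Derivation.leibniz, hc, smul_zero, add_zero,
        smul_eq_mul, Function.iterate_succ_apply']
  rw [hasse, h1, hasse, mul_div_assoc]

end Taylor

section Expansion

open Finset

theorem coeff_bcPoly (b : ℕ) : (bcPoly b).coeff b = (b.factorial : ℚ)⁻¹ := by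
  have h1 : (∏ i ∈ range b, (X - C (i : ℚ))).Monic := monic_prod_of_monic _ _ fun i _ =>
    monic_X_sub_C _
  have h2 : (∏ i ∈ range b, (X - C (i : ℚ))).natDegree = b := by
    rw [natDegree_prod_of_monic _ _ fun i _ => monic_X_sub_C _,
      Finset.sum_congr rfl fun i _ => natDegree_X_sub_C _]
    simp
  rw [bcPoly, coeff_C_mul]
  have h3 := h1.coeff_natDegree
  rw [h2] at h3
  rw [h3, mul_one]

/-- binomial coefficients at fractions with unit denominator -/
theorem exists_bc_eq (e : ℤ) (b : ℕ) : ∃ a : ℕ → ℤ, ∀ {K : Type*} [Field K] [CharZero K] (x : K),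
    (e : K) ^ b * bc b x = bc b (e * x) - ∑ j ∈ range b, (a j : K) * bc j x := by
  obtain ⟨a, ha⟩ := exists_expansion_aux e 0 b
  have hab : (a b : ℚ) = (e : ℚ) ^ b := by
    have h1 := congrArg (fun p : ℚ[X] => p.coeff b) ha
    simp only [Nat.cast_zero, C_0, add_zero, comp_C_mul_X_coeff] at h1
    rw [finsetSum_coeff, Finset.sum_range_succ, Finset.sum_eq_zero, zero_add, coeff_C_mul] at h1
    · have h2 : (bcPoly b).coeff b ≠ 0 := by
        rw [coeff_bcPoly]
        exact inv_ne_zero (by exact_mod_cast b.factorial_ne_zero)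
      rw [mul_comm] at h1
      exact (mul_right_cancel₀ h2 h1).symm
    · intro j hj
      rw [Finset.mem_range] at hj
      rw [coeff_C_mul, coeff_eq_zero_of_natDegree_lt (lt_of_le_of_lt (natDegree_bcPoly_le j) hj),
        mul_zero]
  refine ⟨a, fun {K} _ _ x => ?_⟩
  have h := congrArg (fun p : ℚ[X] => (p.map (algebraMap ℚ K)).eval x) ha
  simp only [Polynomial.map_comp, eval_comp, Polynomial.map_sum, eval_finsetSum,
    Polynomial.map_mul, eval_mul, eval_bcPoly, Polynomial.map_add, Polynomial.map_C, map_X,
    eval_add, eval_C, eval_X] at h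
  simp only [map_intCast, Nat.cast_zero, map_zero, add_zero] at h
  rw [h, Finset.sum_range_succ, add_sub_cancel_left]
  congr 1
  have h3 := congrArg (algebraMap ℚ K) hab
  rw [map_intCast, map_pow, map_intCast] at h3
  exact h3.symm

variable {A k : Type*} [CommRing A] [Field k] [CharZero k] [Algebra A k]

theorem exists_bc_mem {e : ℤ} (he : IsUnit (e : A)) (m : ℤ) (b : ℕ) :
    ∃ a : A, algebraMap A k a = bc b ((m : k) / e) := by
  have he0 : (e : k) ≠ 0 := by
    have := (he.map (algebraMap A k)).ne_zero
    rwa [map_intCast] at this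
  induction b using Nat.strong_induction_on with
  | _ b ih =>
    obtain ⟨a, ha⟩ := exists_bc_eq e b
    have h1 := ha ((m : k) / e)
    rw [mul_div_cancel₀ _ he0, bc_intCast] at h1
    obtain ⟨u, hu⟩ := he
    choose! f hf using ih
    refine ⟨(↑u⁻¹ : A) ^ b * (((Ring.choose m b : ℤ) : A) -
      ∑ j ∈ range b, ((a j : ℤ) : A) * f j), ?_⟩
    have h2 : algebraMap A k (↑u⁻¹ : A) ^ b * (e : k) ^ b = 1 := by
      rw [← mul_pow, ← map_intCast (algebraMap A k), ← hu, ← map_mul, Units.inv_mul, map_one,
        one_pow]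
    rw [map_mul, map_sub, map_intCast, map_sum, map_pow]
    have h3 : ∑ j ∈ range b, algebraMap A k (((a j : ℤ) : A) * f j) =
        ∑ j ∈ range b, (a j : k) * bc j ((m : k) / e) := by
      refine Finset.sum_congr rfl fun j hj => ?_
      rw [map_mul, map_intCast, hf j (Finset.mem_range.mp hj)]
    rw [h3, ← h1, ← mul_assoc, h2, one_mul]

end Expansion

section Integral

variable {A k : Type*} [CommRing A] [IsDomain A] [ValuationRing A] [Field k] [CharZero k]
  [Algebra A k] [IsFractionRing A k]

/-- `A((u))` is completely integrally closed. -/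
theorem mem_intLS_of_almost
    (hrank : ∀ a : A, a ≠ 0 → ∀ π ∈ IsLocalRing.maximalIdeal A, ∃ n : ℕ, a ∣ π ^ n)
    {x r : LaurentSeries k} (hr0 : r ≠ 0) (hr : ∀ n : ℕ, r * x ^ n ∈ intLS A k) :
    x ∈ intLS A k := by
  classical
  have hinj : Function.Injective (algebraMap A k) := IsFractionRing.injective A k
  by_contra hx
  have hex : ∃ j : ℤ, ¬ ∃ a : A, algebraMap A k a = x.coeff j := by
    by_contra hcon
    push Not at hcon
    exact hx (mem_intLS_of_coeff hcon)
  -- minimal bad index
  have hbd : ∀ j : ℤ, (¬ ∃ a : A, algebraMap A k a = x.coeff j) → x.order ≤ j := by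
    intro j hj
    by_contra hlt
    push Not at hlt
    exact hj ⟨0, by rw [map_zero, HahnSeries.coeff_eq_zero_of_lt_order hlt]⟩
  obtain ⟨j, hj, hjmin⟩ := Int.exists_least_of_bdd (P := fun j : ℤ =>
    ¬ ∃ a : A, algebraMap A k a = x.coeff j) ⟨x.order, hbd⟩ hex
  -- truncation
  let y : LaurentSeries k :=
    { coeff := fun i => if i < j then x.coeff i else 0
      isPWO_support' := x.isPWO_support.mono (by
        intro i hi
        rw [Function.mem_support] at hi
        rw [HahnSeries.mem_support]
        intro h0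
        apply hi
        rw [h0, ite_self]) }
  have hyc : ∀ i, y.coeff i = if i < j then x.coeff i else 0 := fun i => rfl
  have hy : y ∈ intLS A k := by
    apply mem_intLS_of_coeff
    intro i
    rw [hyc]
    split_ifs with h1
    · by_contra hcon
      exact absurd (hjmin i hcon) (not_le.mpr h1)
    · exact ⟨0, map_zero _⟩
  set x' : LaurentSeries k := x - y with hx'
  have hx'c : ∀ i, x'.coeff i = if i < j then 0 else x.coeff i := by
    intro i
    rw [hx', HahnSeries.coeff_sub, hyc]
    split_ifs <;> simp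
  have hr' : ∀ n : ℕ, r * x' ^ n ∈ intLS A k := by
    intro n
    rw [hx', sub_eq_add_neg, add_pow, Finset.mul_sum]
    refine Subring.sum_mem _ fun i _ => ?_
    have h1 : r * (x ^ i * (-y) ^ (n - i) * (n.choose i : LaurentSeries k)) =
        (r * x ^ i) * ((-y) ^ (n - i) * (n.choose i : LaurentSeries k)) := by ring
    rw [h1]
    refine Subring.mul_mem _ (hr i) (Subring.mul_mem _ (Subring.pow_mem _ (Subring.neg_mem _ hy) _)
      (natCast_mem _ _))
  have hxj : x.coeff j ≠ 0 := by
    intro h0
    exact hj ⟨0, by rw [h0, map_zero]⟩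
  have hx'0 : x' ≠ 0 := by
    intro h0
    have := hx'c j
    rw [h0, if_neg (lt_irrefl j), HahnSeries.coeff_zero] at this
    exact hxj this.symm
  have hx'ord : x'.order = j := by
    apply le_antisymm
    · apply HahnSeries.order_le_of_coeff_ne_zero
      rw [hx'c, if_neg (lt_irrefl j)]
      exact hxj
    · by_contra hlt
      push Not at hlt
      have h1 := mt HahnSeries.coeff_order_eq_zero.mp hx'0
      rw [hx'c, if_pos hlt] at h1
      exact h1 rfl
  have hx'lead : x'.leadingCoeff = x.coeff j := by
    rw [HahnSeries.leadingCoeff_eq, hx'ord, hx'c, if_neg (lt_irrefl j)]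
  have hpowlead : ∀ n : ℕ, (x' ^ n).leadingCoeff = x'.leadingCoeff ^ n := by
    intro n
    induction n with
    | zero => rw [pow_zero, pow_zero, HahnSeries.leadingCoeff_one]
    | succ n ih => rw [pow_succ, HahnSeries.leadingCoeff_mul, ih, pow_succ]
  have hlead : ∀ n : ℕ, ∃ a : A, algebraMap A k a = r.leadingCoeff * (x.coeff j) ^ n := by
    intro n
    obtain ⟨a, ha⟩ := coeff_of_mem_intLS (hr' n) (r * x' ^ n).order
    refine ⟨a, ?_⟩
    rw [ha, ← HahnSeries.leadingCoeff_eq, HahnSeries.leadingCoeff_mul,
      hpowlead, hx'lead]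
  -- the inverse of the bad coefficient
  obtain ⟨π, hπ⟩ : ∃ π : A, algebraMap A k π = (x.coeff j)⁻¹ :=
    (ValuationRing.isInteger_or_isInteger A (x.coeff j)).resolve_left
      (fun ⟨a, ha⟩ => hj ⟨a, ha⟩)
  have hπ0 : π ≠ 0 := by
    rintro rfl
    rw [map_zero] at hπ
    exact inv_ne_zero hxj hπ.symm
  have hπmax : π ∈ IsLocalRing.maximalIdeal A := by
    rw [IsLocalRing.mem_maximalIdeal, mem_nonunits_iff]
    rintro ⟨u, hu⟩
    apply hj
    refine ⟨(↑u⁻¹ : A), ?_⟩
    have h1 : algebraMap A k (u : A) * algebraMap A k (↑u⁻¹ : A) = 1 := by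
      rw [← map_mul, Units.mul_inv, map_one]
    rw [hu, hπ] at h1
    exact ((inv_mul_eq_one₀ hxj).mp h1).symm
  obtain ⟨r₀, hr₀⟩ := hlead 0
  rw [pow_zero, mul_one] at hr₀
  have hr₀0 : r₀ ≠ 0 := by
    rintro rfl
    rw [map_zero] at hr₀
    exact (HahnSeries.leadingCoeff_ne_zero.mpr hr0) hr₀.symm
  obtain ⟨n, t, ht⟩ := hrank (r₀ * π) (mul_ne_zero hr₀0 hπ0) π hπmax
  obtain ⟨s, hs⟩ := hlead n
  have h1 : r₀ = π ^ n * s := by
    apply hinj
    rw [map_mul, map_pow, hπ, hs, hr₀, inv_pow]
    field_simp
  have h2 : π ^ n * 1 = π ^ n * (s * π * t) := by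
    rw [mul_one]
    conv_lhs => rw [ht, h1]
    ring
  have h3 := mul_left_cancel₀ (pow_ne_zero n hπ0) h2
  rw [IsLocalRing.mem_maximalIdeal, mem_nonunits_iff] at hπmax
  exact hπmax (IsUnit.of_mul_eq_one (s * t) (by rw [h3]; ring))

end Integral

end Fermat.Agent.LP
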