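import Mathlib
import Fermat.Agent.LP.Series

set_option autoImplicit false
set_option linter.unusedSectionVars false

/-!
# Divided derivatives preserve local integrality: transfer lemmas
-/

open Polynomial
open scoped Pointwise

noncomputable section

namespace Fermat.Agent.LP

variable {A k E G : Type*} [CommRing A] [IsDomain A] [ValuationRing A] [Field k] [CharZero k]
  [Algebra A k] [IsFractionRing A k] [Field E] [Algebra A[X] E] [Algebra k[X] E]
  [Group G] [Fintype G] [MulSemiringAction G E] [SMulCommClass G A[X] E] [SMulCommClass G k[X] E]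

local notation "res" => IsLocalRing.residue A
local notation "κ" => IsLocalRing.ResidueField A
local notation "𝓑" => (integralClosure A[X] E)

theorem deriv_base {D : Derivation ℤ E E} (hDt : D (algebraMap k[X] E X) = 1)
    (hDC : ∀ a : k, D (algebraMap k[X] E (C a)) = 0) (p : k[X]) :
    D (algebraMap k[X] E p) = algebraMap k[X] E p.derivative := by
  induction p using Polynomial.induction_on with
  | C a => rw [hDC, derivative_C, map_zero]
  | add p q hp hq => rw [map_add, map_add, hp, hq, derivative_add, map_add]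
  | monomial n a ih =>
    have h2 : derivative (C a * X ^ n * X) = derivative (C a * X ^ n) * X + C a * X ^ n := by
      rw [derivative_mul (f := C a * X ^ n), derivative_X, mul_one]
    rw [pow_succ, ← mul_assoc, map_mul, Derivation.leibniz, ih, hDt, smul_eq_mul, smul_eq_mul,
      h2, map_add, map_mul (algebraMap k[X] E) (derivative (C a * X ^ n)) X, mul_one]
    ring

theorem smul_deriv (hinj : Function.Injective (algebraMap k[X] E)) {D : Derivation ℤ E E}
    (hDt : D (algebraMap k[X] E X) = 1) (hDC : ∀ a : k, D (algebraMap k[X] E (C a)) = 0)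
    (halg : ∀ z : E, IsAlgebraic k[X] z) (g : G) (z : E) : D (g • z) = g • D z := by
  let d : E →+ E :=
    { toFun := fun z => g⁻¹ • D (g • z) - D z
      map_zero' := by simp
      map_add' := fun x y => by
        rw [smul_add, map_add, smul_add, map_add]
        ring }
  have hd : ∀ x y, d (x * y) = (RingHom.id E) x * d y + (RingHom.id E) y * d x := by
    intro x y
    change g⁻¹ • D (g • (x * y)) - D (x * y) =
      x * (g⁻¹ • D (g • y) - D y) + y * (g⁻¹ • D (g • x) - D x)
    rw [smul_mul', Derivation.leibniz, Derivation.leibniz, smul_add, smul_eq_mul, smul_eq_mul,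
      smul_eq_mul, smul_eq_mul, smul_mul', smul_mul', inv_smul_smul, inv_smul_smul]
    ring
  have hd0 : ∀ p : k[X], d (algebraMap k[X] E p) = 0 := by
    intro p
    change g⁻¹ • D (g • algebraMap k[X] E p) - D (algebraMap k[X] E p) = 0
    rw [smul_algebraMap, deriv_base hDt hDC, smul_algebraMap, sub_self]
  have h1 := deriv_eq_zero (R := k[X]) hinj (RingHom.id E) d hd hd0 z (halg z)
  change g⁻¹ • D (g • z) - D z = 0 at h1
  rw [sub_eq_zero, inv_smul_eq_iff] at h1
  exact h1

theorem hasse_smul (hinj : Function.Injective (algebraMap k[X] E)) {D : Derivation ℤ E E}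
    (hDt : D (algebraMap k[X] E X) = 1) (hDC : ∀ a : k, D (algebraMap k[X] E (C a)) = 0)
    (halg : ∀ z : E, IsAlgebraic k[X] z) (g : G) (z : E) (j : ℕ) :
    hasse D j (g • z) = g • hasse D j z := by
  have h1 : ∀ j, D^[j] (g • z) = g • D^[j] z := by
    intro j
    induction j with
    | zero => rfl
    | succ j ih =>
      rw [Function.iterate_succ_apply', ih, smul_deriv hinj hDt hDC halg,
        Function.iterate_succ_apply']
  rw [hasse, hasse, h1]
  change _ = MulSemiringAction.toRingHom G E g (D^[j] z / (j.factorial : E))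
  rw [map_div₀, map_natCast]
  rfl

/-- content of polynomials over the fraction field -/
theorem exists_content_frac {p : k[X]} (hp : p ≠ 0) : ∃ (α : k) (y : A[X]), α ≠ 0 ∧
    y.map res ≠ 0 ∧ p = C α * y.map (algebraMap A k) := by
  have hinj : Function.Injective (algebraMap A k) := IsFractionRing.injective A k
  obtain ⟨b, hb, hbh⟩ := IsLocalization.integerNormalization_spec (nonZeroDivisors A) p
  set h₁ := IsLocalization.integerNormalization (nonZeroDivisors A) p with hh₁
  have hb0 : b ≠ 0 := nonZeroDivisors.ne_zero hb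
  have hbk : algebraMap A k b ≠ 0 := fun h => hb0 (hinj (by rw [h, map_zero]))
  have hbh' : h₁.map (algebraMap A k) = C (algebraMap A k b) * p := by
    rw [hbh, ← smul_eq_C_mul, algebraMap_smul]
  have hh0 : h₁ ≠ 0 := by
    intro h0
    rw [h0, Polynomial.map_zero] at hbh'
    have := mul_ne_zero (by rw [Ne, C_eq_zero]; exact hbk) hp
    exact this hbh'.symm
  obtain ⟨c, y, hc, hcy, hy⟩ := exists_content hh0
  have hck : algebraMap A k c ≠ 0 := fun h => hc (hinj (by rw [h, map_zero]))
  refine ⟨(algebraMap A k b)⁻¹ * algebraMap A k c, y, mul_ne_zero (inv_ne_zero hbk) hck, hy, ?_⟩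
  rw [hcy, Polynomial.map_mul, map_C] at hbh'
  rw [C_mul, mul_assoc, hbh', ← mul_assoc, ← C_mul, inv_mul_cancel₀ hbk, C_1, one_mul]

/-- `locInt` is integrally closed. -/
theorem mem_locInt_of_root {Φ : E[X]} (hΦ : Φ.Monic) (hloc : ∀ n, Φ.coeff n ∈ locInt A E) {x : E}
    (hx : Φ.eval x = 0) : x ∈ locInt A E := by
  classical
  choose g hg hint using hloc
  set g₀ : A[X] := ∏ n ∈ Finset.range Φ.natDegree, g n with hg₀
  refine ⟨g₀, ?_, ?_⟩
  · rw [hg₀, Polynomial.map_prod]
    exact Finset.prod_ne_zero_iff.mpr fun n _ => hg n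
  set s : E := algebraMap A[X] E g₀ with hs
  have h8 : (Φ.scaleRoots s).eval (s * x) = 0 := by
    have := scaleRoots_eval₂_mul (p := Φ) (RingHom.id E) x s
    rw [RingHom.id_apply, eval₂_id, eval₂_id, hx, mul_zero] at this
    exact this
  have h9 : Φ.scaleRoots s ∈ Polynomial.lifts (algebraMap 𝓑 E) := by
    rw [Polynomial.lifts_iff_coeff_lifts]
    intro n
    rw [coeff_scaleRoots]
    rcases lt_trichotomy n Φ.natDegree with hn | hn | hn
    · have h10 : IsIntegral A[X] (Φ.coeff n * s ^ (Φ.natDegree - n)) := by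
        obtain ⟨i, hi⟩ : ∃ i, Φ.natDegree - n = i + 1 := ⟨Φ.natDegree - n - 1, by omega⟩
        obtain ⟨t, ht⟩ : g n ∣ g₀ := Finset.dvd_prod_of_mem g (Finset.mem_range.mpr hn)
        have h11 : Φ.coeff n * s ^ (Φ.natDegree - n) =
            (algebraMap A[X] E (g n) * Φ.coeff n) * (algebraMap A[X] E (t * g₀ ^ i)) := by
          rw [hi, pow_succ, hs]
          conv_lhs => rw [show algebraMap A[X] E g₀ ^ i * algebraMap A[X] E g₀ =
            algebraMap A[X] E g₀ ^ i * algebraMap A[X] E (g n * t) by rw [← ht]]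
          rw [map_mul, map_mul, map_pow]
          ring
        rw [h11]
        exact (hint n).mul isIntegral_algebraMap
      exact ⟨⟨_, h10⟩, rfl⟩
    · refine ⟨1, ?_⟩
      rw [hn, Nat.sub_self, pow_zero, mul_one, map_one]
      exact hΦ.symm
    · refine ⟨0, ?_⟩
      rw [coeff_eq_zero_of_natDegree_lt hn, zero_mul, map_zero]
  obtain ⟨q, hq1, -, hq2⟩ := lifts_and_natDegree_eq_and_monic h9
    ((monic_scaleRoots_iff _).mpr hΦ)
  have h12 : IsIntegral 𝓑 (s * x) := by
    refine ⟨q, hq2, ?_⟩
    rw [← eval_map, hq1, h8]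
  exact isIntegral_trans (R := A[X]) (A := 𝓑) _ h12

/-- transfer from a subring -/
theorem mem_locInt_of_conj (S : Subring E)
    (hS : ∀ c ∈ S, (∀ g : G, g • c = c) → c ∈ locInt A E) {x : E} (hx : ∀ g : G, g • x ∈ S) :
    x ∈ locInt A E := by
  classical
  set Φ : E[X] := MulSemiringAction.charpoly G x with hΦ
  have hΦ' : Φ = ∏ g : G, (X - C (g • x)) := rfl
  refine mem_locInt_of_root (MulSemiringAction.monic_charpoly G x) (fun n => ?_)
    (MulSemiringAction.eval_charpoly G x)
  refine hS _ ?_ fun g => MulSemiringAction.smul_coeff_charpoly x n g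
  have h2 : (∏ g : G, (X - C (g • x))) ∈ Polynomial.lifts S.subtype := by
    refine Subsemiring.prod_mem _ fun g _ => ?_
    have h3 : (X - C (g • x)) = Polynomial.map S.subtype (X - C ⟨g • x, hx g⟩) := by
      rw [Polynomial.map_sub, map_X, map_C]
      rfl
    rw [h3]
    exact Polynomial.lifts_iff_set_range _ |>.mpr ⟨_, rfl⟩
  rw [Polynomial.lifts_iff_coeff_lifts] at h2
  obtain ⟨a, ha⟩ := h2 n
  change (∏ g : G, (X - C (g • x))).coeff n ∈ S
  rw [← ha]
  exact a.2

/-- general form: invariant elements `c` such that the constants are controlled -/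
theorem mem_locInt_of_fixed
    (hcomp : ∀ p : A[X], algebraMap A[X] E p = algebraMap k[X] E (p.map (algebraMap A k)))
    (hinjE : Function.Injective (algebraMap k[X] E))
    (hfix : ∀ x : E, (∀ g : G, g • x = x) → ∃ p q : k[X], q ≠ 0 ∧
      algebraMap k[X] E q * x = algebraMap k[X] E p)
    (S : Subring E) (hbase : ∀ p : A[X], algebraMap A[X] E p ∈ S)
    (hconst : ∀ (β : k) (p : A[X]), p.map res ≠ 0 →
      algebraMap k[X] E (C β) * algebraMap A[X] E p ∈ S → ∃ b : A, algebraMap A k b = β)
    (c : E) (hc : c ∈ S) (hfixc : ∀ g : G, g • c = c) : c ∈ locInt A E := by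
  obtain ⟨p, q, hq, hpq⟩ := hfix c hfixc
  obtain ⟨α, q', hα, hq', hqq'⟩ := exists_content_frac (A := A) hq
  by_cases hc0 : c = 0
  · rw [hc0]; exact (locInt A E).zero_mem
  have hp : p ≠ 0 := by
    rintro rfl
    rw [map_zero, mul_eq_zero] at hpq
    rcases hpq with h | h
    · exact hq (hinjE (by rw [h, map_zero]))
    · exact hc0 h
  obtain ⟨β, p', hβ, hp', hpp'⟩ := exists_content_frac (A := A) hp
  have h1 : algebraMap A[X] E q' * c = algebraMap k[X] E (C (α⁻¹ * β)) * algebraMap A[X] E p' := by
    rw [hcomp, hcomp]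
    have hα' : algebraMap k[X] E (C α) ≠ 0 := by
      intro h
      have := hinjE (h.trans (map_zero _).symm)
      exact hα (C_eq_zero.mp this)
    apply mul_left_cancel₀ hα'
    have h2 : algebraMap k[X] E (C α) * algebraMap k[X] E (C (α⁻¹ * β)) =
        algebraMap k[X] E (C β) := by
      rw [← map_mul, ← C_mul, ← mul_assoc, mul_inv_cancel₀ hα, one_mul]
    rw [← mul_assoc, ← map_mul, ← hqq', hpq, hpp', map_mul, ← mul_assoc, h2]
  obtain ⟨b, hb⟩ := hconst (α⁻¹ * β) p' hp' (by
    rw [← h1]
    exact S.mul_mem (hbase _) hc)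
  refine ⟨q', hq', ?_⟩
  rw [h1, ← hb, ← map_C, ← hcomp, ← map_mul]
  exact isIntegral_algebraMap

end Fermat.Agent.LP
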