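import Mathlib
import Fermat.Agent.LP.Der

set_option autoImplicit false
set_option linter.unusedSectionVars false

/-!
# Divided derivatives preserve local integrality: bounded denominators and Kummer extensions
-/

open Polynomial
open scoped Pointwise

noncomputable section

namespace Fermat.Agent.LP

variable {A k E G : Type*} [CommRing A] [IsDomain A] [ValuationRing A] [Field k] [CharZero k]
  [Algebra A k] [IsFractionRing A k] [Field E] [Algebra A[X] E] [Algebra k[X] E]
  [Group G] [Fintype G] [MulSemiringAction G E] [SMulCommClass G A[X] E] [SMulCommClass G k[X] E]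

local notation "res" => IsLocalRing.residue A
local notation "κ" => IsLocalRing.ResidueField A
local notation "𝓑" => (integralClosure A[X] E)

variable (A E) in
/-- subring of integral elements fixed by `G₁` -/
def fixInt (G₁ : Subgroup G) : Subring E where
  carrier := {x | IsIntegral A[X] x ∧ ∀ g ∈ G₁, g • x = x}
  mul_mem' := fun {x y} hx hy => ⟨hx.1.mul hy.1, fun g hg => by
    rw [smul_mul', hx.2 g hg, hy.2 g hg]⟩
  one_mem' := ⟨isIntegral_one, fun g _ => smul_one g⟩
  add_mem' := fun {x y} hx hy => ⟨hx.1.add hy.1, fun g hg => by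
    rw [smul_add, hx.2 g hg, hy.2 g hg]⟩
  zero_mem' := ⟨isIntegral_zero, fun g _ => smul_zero g⟩
  neg_mem' := fun {x} hx => ⟨hx.1.neg, fun g hg => by rw [smul_neg, hx.2 g hg]⟩

theorem exists_fix_frac (halg : ∀ z : E, IsAlgebraic A[X] z) (𝔓 : Ideal 𝓑) [h𝔓 : 𝔓.IsPrime]
    (hcomap : 𝔓.comap (algebraMap A[X] 𝓑) = gaussPrime A)
    (hinj : Function.Injective (algebraMap A[X] E)) (G₁ : Subgroup G) {z : E}
    (hz : ∀ g ∈ G₁, g • z = z) (hzO : z ∈ placeRing halg 𝔓 hcomap hinj) :
    ∃ a b : 𝓑, b ∉ 𝔓 ∧ (∀ g ∈ G₁, g • (a : E) = a) ∧ (∀ g ∈ G₁, g • (b : E) = b) ∧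
      (b : E) * z = a := by
  classical
  obtain ⟨P, hP0, hPz⟩ := halg z
  obtain ⟨b, Q, hb, hPQ, i, hi⟩ := exists_content₂ hP0
  have hQz : aeval z Q = 0 := by
    rw [hPQ, map_mul, aeval_C] at hPz
    refine (mul_eq_zero.mp hPz).resolve_left ?_
    intro h0
    have := hinj (h0.trans (map_zero _).symm)
    rw [C_eq_zero] at this
    exact hb this
  set R := fixInt A E G₁ with hR
  let ι : R →+* 𝓑 :=
    { toFun := fun x => ⟨x.1, x.2.1⟩
      map_one' := rfl
      map_mul' := fun _ _ => rfl
      map_zero' := rfl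
      map_add' := fun _ _ => rfl }
  let β : A[X] →+* R := (algebraMap A[X] E).codRestrict R fun p =>
    ⟨isIntegral_algebraMap, fun g _ => smul_algebraMap g p⟩
  have h1 := exists_mul_eq_or' (B := R) (E := E) Subtype.val_injective (x := z)
    (by
      intro r hr
      refine ⟨⟨(r : E) * z, ?_, ?_⟩, rfl⟩
      · have h2 : (𝓑).subtype.comp ι = algebraMap R E := rfl
        obtain ⟨p, hp, hpz⟩ := hr
        have h3 : IsIntegral 𝓑 ((r : E) * z) := by
          refine ⟨p.map ι, hp.map ι, ?_⟩
          rw [eval₂_map]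
          exact hpz
        exact isIntegral_trans (R := A[X]) (A := 𝓑) _ h3
      · intro g hg
        rw [smul_mul', hz g hg, r.2.2 g hg])
    (𝔓.comap ι) (Q.map β)
    (by
      rw [aeval_def, eval₂_map]
      exact hQz)
    ⟨i, by
      rw [coeff_map, Ideal.mem_comap]
      change algebraMap A[X] 𝓑 (Q.coeff i) ∉ 𝔓
      rw [← Ideal.mem_comap, hcomap, mem_map_C_iff]
      exact hi⟩
  rcases h1 with ⟨b, hb, a, hab⟩ | ⟨b, hb, a, hab⟩
  · exact ⟨ι a, ι b, hb, a.2.2, b.2.2, hab⟩
  · by_cases hz0 : z = 0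
    · refine ⟨0, 1, (Ideal.ne_top_iff_one 𝔓).mp h𝔓.ne_top, fun g _ => ?_, fun g _ => ?_, ?_⟩
      · push_cast; exact smul_zero g
      · push_cast; exact smul_one g
      · rw [hz0, mul_zero]; rfl
    have hab' : (b : E) * z⁻¹ = a := hab
    have hba : (a : E) * z = b := by
      rw [← hab', mul_assoc, inv_mul_cancel₀ hz0, mul_one]
    refine ⟨ι b, ι a, ?_, b.2.2, a.2.2, hba⟩
    intro ha
    obtain ⟨b', hb', a', ha'⟩ := hzO
    have h2 : b' * ι b = ι a * a' := by
      apply Subtype.ext
      push_cast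
      change (b' : E) * (b : E) = (a : E) * a'
      rw [← hba, ← ha']
      ring
    have h3 : b' * ι b ∈ 𝔓 := by
      rw [h2]
      exact Ideal.mul_mem_right _ _ ha
    rcases h𝔓.mem_or_mem h3 with h4 | h4
    · exact hb' h4
    · exact hb h4

theorem base_mem_intLS
    (hcomp : ∀ p : A[X], algebraMap A[X] E p = algebraMap k[X] E (p.map (algebraMap A k)))
    {θ : E →+* LaurentSeries k} {c : A} {e : ℤ} (hθ : IsPlace θ (algebraMap A k c) e) (p : A[X]) :
    θ (algebraMap A[X] E p) =
      mapLS (algebraMap A k) (evT (HahnSeries.C c + HahnSeries.single e 1) p) := by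
  have hT : mapLS (algebraMap A k) (HahnSeries.C c + HahnSeries.single e 1) =
      HahnSeries.C (algebraMap A k c) + HahnSeries.single e 1 := by
    rw [map_add, mapLS_C, mapLS_single, map_one]
  rw [hcomp, hθ.2, mapLS_evT, hT]

/-- integral elements of the field with bounded denominators -/
theorem mem_intLS_of_bdd
    (hrank : ∀ a : A, a ≠ 0 → ∀ π ∈ IsLocalRing.maximalIdeal A, ∃ n : ℕ, a ∣ π ^ n)
    (hcomp : ∀ p : A[X], algebraMap A[X] E p = algebraMap k[X] E (p.map (algebraMap A k)))
    {θ : E →+* LaurentSeries k} {c : A} {e : ℤ} (hθ : IsPlace θ (algebraMap A k c) e)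
    {a : E} (ha : IsIntegral A[X] a)
    (hBD : ∃ f g : LaurentSeries A, g ≠ 0 ∧
      mapLS (algebraMap A k) g * θ a = mapLS (algebraMap A k) f) : θ a ∈ intLS A k := by
  classical
  have hinj : Function.Injective (algebraMap A k) := IsFractionRing.injective A k
  obtain ⟨f, g, hg, hfg⟩ := hBD
  obtain ⟨p, hp, hpa⟩ := ha
  have hp1 : p ≠ 1 := by
    rintro rfl
    rw [eval₂_one] at hpa
    exact one_ne_zero hpa
  set d := p.natDegree with hd
  refine mem_intLS_of_almost hrank (r := mapLS (algebraMap A k) g ^ d) ?_ fun n => ?_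
  · apply pow_ne_zero
    intro h
    exact hg (mapLS_injective hinj (by rw [h, map_zero]))
  have h1 : θ a ^ n = ∑ i ∈ Finset.range d, θ (algebraMap A[X] E ((X ^ n %ₘ p).coeff i)) *
      θ a ^ i := by
    have h2 := aeval_modByMonic_eq_self_of_root (p := X ^ n) (q := p) (x := a) hpa
    rw [map_pow, aeval_X] at h2
    rw [← map_pow, ← h2, aeval_eq_sum_range' (natDegree_modByMonic_lt _ hp hp1), map_sum]
    refine Finset.sum_congr rfl fun i _ => ?_
    rw [Algebra.smul_def, map_mul, map_pow]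
  rw [h1, Finset.mul_sum]
  refine Subring.sum_mem _ fun i hi => ?_
  rw [Finset.mem_range] at hi
  obtain ⟨t, ht⟩ : ∃ t, d = t + i := ⟨d - i, by omega⟩
  have h3 : mapLS (algebraMap A k) g ^ d * (θ (algebraMap A[X] E ((X ^ n %ₘ p).coeff i)) *
      θ a ^ i) = mapLS (algebraMap A k) g ^ t * θ (algebraMap A[X] E ((X ^ n %ₘ p).coeff i)) *
        (mapLS (algebraMap A k) g * θ a) ^ i := by
    rw [ht, pow_add, mul_pow]
    ring
  rw [h3, hfg, base_mem_intLS hcomp hθ]
  have hmem : ∀ x : LaurentSeries A, mapLS (algebraMap A k) x ∈ intLS A k := fun x => ⟨x, rfl⟩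
  exact Subring.mul_mem _ (Subring.mul_mem _ (Subring.pow_mem _ (hmem g) _) (hmem _))
    (Subring.pow_mem _ (hmem f) _)

/-- divided derivatives on integral Laurent series -/
theorem hasse_mem_intLS {D : Derivation ℤ E E} (hDt : D (algebraMap k[X] E X) = 1)
    (hDC : ∀ a : k, D (algebraMap k[X] E (C a)) = 0) (halg : ∀ z : E, IsAlgebraic k[X] z)
    {θ : E →+* LaurentSeries k} {c : k} {e : ℤ} (hθ : IsPlace θ c e) (he : IsUnit (e : A))
    {a : E} (ha : θ a ∈ intLS A k) (j : ℕ) : θ (hasse D j a) ∈ intLS A k := by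
  apply mem_intLS_of_coeff
  intro n
  have h1 := hθ.coeff_hasse hDt hDC halg a j (n + j * e)
  rw [add_sub_cancel_right] at h1
  obtain ⟨u, hu⟩ := exists_bc_mem (A := A) (k := k) he (n + j * e) j
  obtain ⟨v, hv⟩ := coeff_of_mem_intLS ha (n + j * e)
  exact ⟨u * v, by rw [map_mul, hu, hv, h1]⟩

theorem const_of_mem_intLS
    (hcomp : ∀ p : A[X], algebraMap A[X] E p = algebraMap k[X] E (p.map (algebraMap A k)))
    {θ : E →+* LaurentSeries k} {c : A} {e : ℤ} (hθ : IsPlace θ (algebraMap A k c) e)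
    (β : k) (p : A[X]) (hp : p.map res ≠ 0)
    (h : θ (algebraMap k[X] E (C β) * algebraMap A[X] E p) ∈ intLS A k) :
    ∃ b : A, algebraMap A k b = β := by
  have h1 : mapLS res (evT (HahnSeries.C c + HahnSeries.single e 1) p) ≠ 0 := by
    rw [mapLS_evT, map_add, mapLS_C, mapLS_single, map_one]
    intro h0
    apply hp
    exact evT_C_add_single_injective hθ.1 (res c) (by rw [h0, map_zero])
  obtain ⟨n, hn⟩ : ∃ n, (mapLS res (evT (HahnSeries.C c + HahnSeries.single e 1) p)).coeff n ≠ 0 := by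
    by_contra hcon
    push Not at hcon
    exact h1 (by ext n; exact hcon n)
  rw [coeff_mapLS, Ne, IsLocalRing.residue_eq_zero_iff, IsLocalRing.mem_maximalIdeal,
    mem_nonunits_iff, not_not] at hn
  obtain ⟨u, hu⟩ := hn
  obtain ⟨b, hb⟩ := coeff_of_mem_intLS h n
  rw [map_mul, hθ.2, evT_C, base_mem_intLS hcomp hθ, HahnSeries.C_apply,
    HahnSeries.coeff_single_zero_mul, coeff_mapLS, ← hu] at hb
  refine ⟨b * (↑u⁻¹ : A), ?_⟩
  rw [map_mul, hb, mul_assoc, ← map_mul, Units.mul_inv, map_one, mul_one]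

/-- **Divided derivatives preserve local integrality.** -/
theorem hasse_mem_locInt [IsAlgClosed k]
    (hrank : ∀ a : A, a ≠ 0 → ∀ π ∈ IsLocalRing.maximalIdeal A, ∃ n : ℕ, a ∣ π ^ n)
    (hcomp : ∀ p : A[X], algebraMap A[X] E p = algebraMap k[X] E (p.map (algebraMap A k)))
    (hfix : ∀ x : E, (∀ g : G, g • x = x) → ∃ p q : k[X], q ≠ 0 ∧
      algebraMap k[X] E q * x = algebraMap k[X] E p)
    {D : Derivation ℤ E E} (hDt : D (algebraMap k[X] E X) = 1)
    (hDC : ∀ a : k, D (algebraMap k[X] E (C a)) = 0) (halg : ∀ z : E, IsAlgebraic k[X] z)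
    (halgA : ∀ z : E, IsAlgebraic A[X] z)
    {θ : E →+* LaurentSeries k} {c : A} {e : ℤ} (hθ : IsPlace θ (algebraMap A k c) e)
    (he : IsUnit (e : A)) (G₁ : Subgroup G) [hG₁ : G₁.Normal]
    (hBD : ∀ x : E, (∀ g ∈ G₁, g • x = x) → ∃ f g : LaurentSeries A, g ≠ 0 ∧
      mapLS (algebraMap A k) g * θ x = mapLS (algebraMap A k) f)
    {m : ℕ} (hm : IsUnit (m : A)) (hcard : IsUnit ((Nat.card G₁ : ℕ) : A))
    (hKum : ∀ x : E, ∃ (s : Finset (G₁ →* kˣ)) (y : (G₁ →* kˣ) → E), (∀ ψ ∈ s, ψ ^ m = 1) ∧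
      (∀ ψ ∈ s, ∀ g : G₁, (g : G) • y ψ = algebraMap k[X] E (C (ψ g : k)) * y ψ) ∧
      x = ∑ ψ ∈ s, y ψ)
    {z : E} (hz : IsIntegral A[X] z) (j : ℕ) : hasse D j z ∈ locInt A E := by
  classical
  have hinjA : Function.Injective (algebraMap A k) := IsFractionRing.injective A k
  have hinjE : Function.Injective (algebraMap k[X] E) := hθ.injective
  have hinj : Function.Injective (algebraMap A[X] E) := by
    intro p q h
    rw [hcomp, hcomp] at h
    exact Polynomial.map_injective _ hinjA (hinjE h)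
  haveI : CharZero E := charZero_of_injective_ringHom hinjE
  -- fixed integral elements
  have hS3 : ∀ a : E, IsIntegral A[X] a → (∀ g ∈ G₁, g • a = a) → ∀ j,
      hasse D j a ∈ locInt A E := by
    intro a ha hfa j
    refine mem_locInt_of_conj (G := G) ((intLS A k).comap θ) (fun c' hc' hfc' => ?_) fun g => ?_
    · refine mem_locInt_of_fixed hcomp hinjE hfix ((intLS A k).comap θ) (fun p => ?_)
        (fun β p hp h => ?_) c' hc' hfc'
      · rw [Subring.mem_comap, base_mem_intLS hcomp hθ]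
        exact ⟨_, rfl⟩
      · exact const_of_mem_intLS hcomp hθ β p hp h
    · rw [Subring.mem_comap, ← hasse_smul hinjE hDt hDC halg]
      refine hasse_mem_intLS hDt hDC halg hθ he ?_ j
      refine mem_intLS_of_bdd hrank hcomp hθ (ha.map (MulSemiringAction.toAlgHom A[X] E g))
        (hBD _ fun h hh => ?_)
      have h1 : g⁻¹ * h * g ∈ G₁ := by
        have := hG₁.conj_mem h hh g⁻¹
        rwa [inv_inv] at this
      have h2 := hfa _ h1
      change h • g • a = g • a
      conv_rhs => rw [← h2]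
      rw [smul_smul, smul_smul]
      congr 1
      group
  -- the prime
  haveI : (gaussPrime A).IsPrime := Ideal.isPrime_map_C_of_isPrime
  obtain ⟨𝔓, h𝔓, hcomap⟩ := Ideal.exists_ideal_over_prime_of_isIntegral_of_isDomain
    (R := A[X]) (S := 𝓑) (gaussPrime A) (by
      intro x hx
      rw [RingHom.mem_ker] at hx
      have : algebraMap A[X] E x = 0 := congrArg Subtype.val hx
      rw [hinj (this.trans (map_zero _).symm)]
      exact Ideal.zero_mem _)
  set O := placeRing halgA 𝔓 hcomap hinj with hO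
  have hlocO : ∀ x ∈ locInt A E, x ∈ O := by
    rintro x ⟨g, hg, hx⟩
    exact ⟨algebraMap A[X] 𝓑 g, base_not_mem hcomap hg, ⟨_, hx⟩, rfl⟩
  -- fixed elements of `O`
  have hS5 : ∀ v ∈ O, (∀ g ∈ G₁, g • v = v) → ∀ j, hasse D j v ∈ O := by
    intro v hv hfv j
    obtain ⟨a, b, hb, hfa, hfb, hab⟩ := exists_fix_frac halgA 𝔓 hcomap hinj G₁ hfv hv
    have hb0 : (b : E) ≠ 0 := by
      intro h
      apply hb
      have : b = 0 := Subtype.ext h
      rw [this]; exact 𝔓.zero_mem
    have h1 := coeff_mem_of_mul O.toSubring (U := taylorS D (b : E)) (V := taylorS D (a : E))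
      (W := taylorS D v)
      (fun n => by rw [coeff_taylorS]; exact hlocO _ (hS3 _ b.2 hfb n))
      (fun n => by rw [coeff_taylorS]; exact hlocO _ (hS3 _ a.2 hfa n))
      (by rw [constantCoeff_taylorS]; exact inv_mem_placeRing hb)
      (by rw [constantCoeff_taylorS]; exact hb0)
      (by rw [← taylorS_mul, hab]) j
    rwa [coeff_taylorS] at h1
  -- constants
  have hmk : (m : k) ≠ 0 := by
    have := (hm.map (algebraMap A k)).ne_zero
    rwa [map_natCast] at this
  have hmpos : 0 < m := Nat.pos_of_ne_zero (by rintro rfl; simp at hmk)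
  have hmE : (m : E) ≠ 0 := by
    have : (m : ℕ) ≠ 0 := hmpos.ne'
    exact_mod_cast this
  have hconstA : ∀ a : A, algebraMap k[X] E (C (algebraMap A k a)) ∈ O := fun a =>
    (const_mem_iff hcomp _).mpr ⟨a, rfl⟩
  have hmO : (m : E)⁻¹ ∈ O := by
    obtain ⟨u, hu⟩ := hm
    have h1 := hconstA (↑u⁻¹ : A)
    have h2 : algebraMap k[X] E (C (algebraMap A k (↑u⁻¹ : A))) = (m : E)⁻¹ := by
      apply eq_inv_of_mul_eq_one_left
      have h3 : (m : E) = algebraMap k[X] E (C (algebraMap A k (m : A))) := by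
        rw [map_natCast, map_natCast, map_natCast]
      rw [h3, ← hu, ← map_mul, ← C_mul, ← map_mul, Units.inv_mul, map_one, C_1, map_one]
    rwa [h2] at h1
  -- eigenvectors
  have hS6 : ∀ x : E, x ∈ O → ∀ ψ : G₁ →* kˣ, ψ ^ m = 1 →
      (∀ g : G₁, (g : G) • x = algebraMap k[X] E (C (ψ g : k)) * x) → ∀ j, hasse D j x ∈ O := by
    intro x hx ψ hψ hxψ j
    by_cases hx0 : x = 0
    · rw [hx0, hasse_map_zero]; exact O.zero_mem
    obtain ⟨c', hc', h1, h2⟩ := exists_const_unit (halg := halgA) (𝔓 := 𝔓) (hcomap := hcomap)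
      (hinj := hinj) hcomp hx0
    set cE := algebraMap k[X] E (C c') with hcE
    have hcE0 : cE ≠ 0 := by
      intro h
      exact hc' (C_eq_zero.mp (hinjE (h.trans (map_zero _).symm)))
    have hv0 : cE * x ≠ 0 := mul_ne_zero hcE0 hx0
    have hfixv : ∀ g ∈ G₁, g • (cE * x) ^ m = (cE * x) ^ m := by
      intro g hg
      have h3 := hxψ ⟨g, hg⟩
      change g • x = _ at h3
      rw [smul_pow', smul_mul', h3, hcE, smul_algebraMap, ← mul_assoc, mul_comm (algebraMap k[X] E
        (C c')), mul_assoc, mul_pow, ← map_pow, ← C_pow]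
      have h4 : ((ψ ⟨g, hg⟩ : kˣ) : k) ^ m = 1 := by
        have h5 := DFunLike.congr_fun hψ ⟨g, hg⟩
        have h6 := congrArg Units.val h5
        simpa using h6
      rw [h4, C_1, map_one, one_mul]
    have hder := coeff_mem_of_pow O.toSubring (m := m) hmE hmO (W := taylorS D (cE * x))
      (by rw [constantCoeff_taylorS]; exact h1) (by rw [constantCoeff_taylorS]; exact h2)
      (by rw [constantCoeff_taylorS]; exact hv0)
      (fun n => by
        rw [← taylorS_pow, coeff_taylorS]
        exact hS5 _ (pow_mem h1 m) hfixv n) j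
    rw [coeff_taylorS, hasse_const_mul D (hDC c')] at hder
    have h3 : cE⁻¹ ∈ O := by
      have h4 : cE⁻¹ = x * (cE * x)⁻¹ := by
        field_simp
      rw [h4]
      exact mul_mem hx h2
    have h4 := mul_mem h3 hder
    rwa [← mul_assoc, inv_mul_cancel₀ hcE0, one_mul] at h4
  -- all integral elements
  have hS7 : ∀ z : E, IsIntegral A[X] z → ∀ j, hasse D j z ∈ O := by
    intro z hz j
    obtain ⟨s, y, hsm, hsy, hzs⟩ := hKum z
    have hint : ∀ φ ∈ s, IsIntegral A[X] (y φ) := by
      intro φ hφ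
      have hsum : ∑ g : G₁, algebraMap k[X] E (C ((φ g)⁻¹ : kˣ)) * ((g : G) • z) =
          algebraMap k[X] E (C ((Nat.card G₁ : ℕ) : k)) * y φ := by
        have h1 : ∀ g : G₁, algebraMap k[X] E (C ((φ g)⁻¹ : kˣ)) * ((g : G) • z) =
            ∑ ψ ∈ s, algebraMap k[X] E (C (((ψ / φ) g : kˣ) : k)) * y ψ := by
          intro g
          rw [hzs, Finset.smul_sum, Finset.mul_sum]
          refine Finset.sum_congr rfl fun ψ hψ => ?_
          rw [hsy ψ hψ, ← mul_assoc, ← map_mul, ← C_mul]
          congr 3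
          rw [MonoidHom.div_apply, Units.val_div_eq_div_val, Units.val_inv_eq_inv_val]
          rw [div_eq_mul_inv, mul_comm]
        rw [Finset.sum_congr rfl fun g _ => h1 g, Finset.sum_comm]
        have h2 : ∀ ψ ∈ s, ∑ g : G₁, algebraMap k[X] E (C (((ψ / φ) g : kˣ) : k)) * y ψ =
            if ψ = φ then algebraMap k[X] E (C ((Nat.card G₁ : ℕ) : k)) * y φ else 0 := by
          intro ψ _
          rw [← Finset.sum_mul, ← map_sum, ← map_sum]
          have h3 := sum_hom_units ((Units.coeHom k).comp (ψ / φ))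
          have h4 : ∀ g : G₁, ((Units.coeHom k).comp (ψ / φ)) g = (((ψ / φ) g : kˣ) : k) :=
            fun _ => rfl
          rw [Finset.sum_congr rfl fun g _ => h4 g] at h3
          rw [h3]
          have h5 : ((Units.coeHom k).comp (ψ / φ) = 1) ↔ ψ = φ := by
            constructor
            · intro h
              ext g
              have h6 := DFunLike.congr_fun h g
              rw [h4, MonoidHom.one_apply, MonoidHom.div_apply, Units.val_div_eq_div_val] at h6
              exact (div_eq_one_iff_eq (φ g).ne_zero).mp h6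
            · rintro rfl
              ext g
              simp
          by_cases h6 : ψ = φ
          · rw [if_pos (h5.mpr h6), if_pos h6, h6, Nat.card_eq_fintype_card]
          · rw [if_neg (fun h => h6 (h5.mp h)), if_neg h6, Nat.cast_zero, C_0, map_zero, zero_mul]
        rw [Finset.sum_congr rfl h2, Finset.sum_ite_eq' s φ, if_pos hφ]
      obtain ⟨u, hu⟩ := hcard
      have h1 : y φ = algebraMap A[X] E (C (↑u⁻¹ : A)) *
          ∑ g : G₁, algebraMap k[X] E (C ((φ g)⁻¹ : kˣ)) * ((g : G) • z) := by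
        rw [hsum, ← mul_assoc, hcomp, map_C, ← map_mul, ← C_mul]
        have h2 : algebraMap A k (↑u⁻¹ : A) * ((Nat.card G₁ : ℕ) : k) = 1 := by
          rw [← map_natCast (algebraMap A k), ← hu, ← map_mul, Units.inv_mul, map_one]
        rw [h2, C_1, map_one, one_mul]
      rw [h1]
      refine isIntegral_algebraMap.mul (IsIntegral.sum _ fun g _ => ?_)
      refine IsIntegral.mul ?_ (hz.map (MulSemiringAction.toAlgHom A[X] E (g : G)))
      -- roots of unity are integral
      have h2 : IsIntegral A (((φ g)⁻¹ : kˣ) : k) := by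
        refine IsIntegral.of_pow hmpos ?_
        have h3 : ((((φ g)⁻¹ : kˣ) : k)) ^ m = 1 := by
          have h5 := DFunLike.congr_fun (hsm φ hφ) g
          have h6 : (φ g) ^ m = 1 := h5
          rw [← Units.val_pow_eq_pow_val, inv_pow, h6, inv_one, Units.val_one]
        rw [h3]
        exact isIntegral_one
      obtain ⟨a, ha⟩ := IsIntegrallyClosed.isIntegral_iff.mp h2
      rw [← ha, ← map_C, ← hcomp]
      exact isIntegral_algebraMap
    -- additivity
    have hadd : ∀ t : Finset (G₁ →* kˣ), t ⊆ s → hasse D j (∑ ψ ∈ t, y ψ) ∈ O := by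
      intro t
      induction t using Finset.induction_on with
      | empty => intro _; rw [Finset.sum_empty, hasse_map_zero]; exact O.zero_mem
      | insert ψ t hψ ih =>
        intro ht
        rw [Finset.sum_insert hψ, hasse_map_add]
        have hψs : ψ ∈ s := ht (Finset.mem_insert_self ψ t)
        refine add_mem (hS6 _ ?_ ψ (hsm ψ hψs) (hsy ψ hψs) j)
          (ih fun x hx => ht (Finset.mem_insert_of_mem hx))
        exact coe_mem_placeRing (⟨y ψ, hint ψ hψs⟩ : 𝓑)
    rw [hzs]
    exact hadd s (Finset.Subset.refl s)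
  -- conclusion
  refine mem_locInt_of_conj (G := G) O.toSubring (fun c' hc' hfc' => ?_) fun g => ?_
  · refine mem_locInt_of_fixed hcomp hinjE hfix O.toSubring (fun p => ?_)
      (fun β p hp h => ?_) c' hc' hfc'
    · exact base_mem p
    · have h1 : algebraMap k[X] E (C β) ∈ O := by
        have h2 := mul_mem (S := ValuationSubring E) (s := O) h (base_inv_mem (halg := halgA) (hcomap := hcomap) (hinj := hinj) hp)
        have h3 : algebraMap A[X] E p ≠ 0 := by
          intro h0
          have h5 := hinj (h0.trans (map_zero _).symm)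
          rw [h5, Polynomial.map_zero] at hp
          exact hp rfl
        rwa [mul_assoc, mul_inv_cancel₀ h3, mul_one] at h2
      exact (const_mem_iff hcomp β).mp h1
  · rw [← hasse_smul hinjE hDt hDC halg]
    exact hS7 _ (hz.map (MulSemiringAction.toAlgHom A[X] E g)) j

end Fermat.Agent.LP
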