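import Mathlib
import Fermat.Agent.LP.Kummer
import Fermat.Agent.ESCore.FormalParam

set_option autoImplicit false
set_option linter.unusedSectionVars false

/-!
# Integral reparametrisation of Laurent series
-/

noncomputable section

namespace Fermat.Agent.LP

open PowerSeries Fermat.Agent.ESCore

section

variable {R : Type*} [CommRing R]

/-- substitution by a series with zero constant term and unit linear term -/
def substEquivR (b : PowerSeries R) (hb : constantCoeff b = 0) (hb1 : IsUnit (coeff 1 b)) :
    PowerSeries R ≃ₐ[R] PowerSeries R :=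
  AlgEquiv.ofAlgHom (substAlgHom (R := R) (HasSubst.of_constantCoeff_zero' hb))
    (substAlgHom (R := R) (HasSubst.substInvOfIsUnit b hb1))
    (by
      apply AlgHom.ext
      intro f
      rw [AlgHom.comp_apply, AlgHom.id_apply, coe_substAlgHom, coe_substAlgHom,
        subst_comp_subst_apply (HasSubst.substInvOfIsUnit b hb1) (HasSubst.of_constantCoeff_zero' hb),
        subst_substInvOfIsUnit_left b hb hb1, X_subst])
    (by
      apply AlgHom.ext
      intro f
      rw [AlgHom.comp_apply, AlgHom.id_apply, coe_substAlgHom, coe_substAlgHom,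
        subst_comp_subst_apply (HasSubst.of_constantCoeff_zero' hb) (HasSubst.substInvOfIsUnit b hb1),
        subst_substInvOfIsUnit_right b hb hb1, X_subst])

theorem substEquivR_apply (b : PowerSeries R) (hb : constantCoeff b = 0)
    (hb1 : IsUnit (coeff 1 b)) (f : PowerSeries R) : substEquivR b hb hb1 f = f.subst b := by
  change substAlgHom (R := R) (HasSubst.of_constantCoeff_zero' hb) f = _
  rw [coe_substAlgHom]

end

variable {A k : Type*} [CommRing A] [IsDomain A] [ValuationRing A] [Field k] [CharZero k]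
  [Algebra A k] [IsFractionRing A k]

local notation "res" => IsLocalRing.residue A

/-- extension of an automorphism preserves integrality -/
theorem laurentExt_mem (β : PowerSeries k ≃+* PowerSeries k)
    (hβ : ∀ p : PowerSeries A, ∃ q : PowerSeries A,
      β (p.map (algebraMap A k)) = q.map (algebraMap A k))
    (hβX : ∃ v w : PowerSeries A, v * w = 1 ∧ β X = (X * v).map (algebraMap A k))
    {x : LaurentSeries k} (hx : x ∈ intLS A k) : laurentExt β x ∈ intLS A k := by
  obtain ⟨y, rfl⟩ := hx
  obtain ⟨v, w, hvw, hX⟩ := hβX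
  have h1 : y = HahnSeries.single y.order 1 * HahnSeries.ofPowerSeries ℤ A y.powerSeriesPart :=
    (LaurentSeries.single_order_mul_powerSeriesPart y).symm
  rw [h1, map_mul, mapLS_ofPowerSeries, mapLS_single, map_one, map_mul, laurentExt_coe]
  obtain ⟨q, hq⟩ := hβ y.powerSeriesPart
  rw [hq]
  have hmem : ∀ x : LaurentSeries A, mapLS (algebraMap A k) x ∈ intLS A k := fun x => ⟨x, rfl⟩
  refine Subring.mul_mem _ ?_ (by rw [← mapLS_ofPowerSeries]; exact hmem _)
  -- powers of `X`
  have hX1 : laurentExt β (HahnSeries.single (1 : ℤ) 1) =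
      mapLS (algebraMap A k) (HahnSeries.single (1 : ℤ) 1 * HahnSeries.ofPowerSeries ℤ A v) := by
    have h2 : (HahnSeries.single (1 : ℤ) (1 : k)) = HahnSeries.ofPowerSeries ℤ k X := by
      rw [HahnSeries.ofPowerSeries_X]
    have h3 : (HahnSeries.single (1 : ℤ) (1 : A)) = HahnSeries.ofPowerSeries ℤ A X := by
      rw [HahnSeries.ofPowerSeries_X]
    rw [h2, laurentExt_coe, hX, h3, ← map_mul, mapLS_ofPowerSeries]
  have hX2 : laurentExt β (HahnSeries.single (-1 : ℤ) 1) =
      mapLS (algebraMap A k) (HahnSeries.single (-1 : ℤ) 1 * HahnSeries.ofPowerSeries ℤ A w) := by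
    have h2 : laurentExt β (HahnSeries.single (-1 : ℤ) 1) *
        laurentExt β (HahnSeries.single (1 : ℤ) 1) = 1 := by
      rw [← map_mul, HahnSeries.single_mul_single, neg_add_cancel, one_mul]
      exact map_one _
    have h3 : mapLS (algebraMap A k) (HahnSeries.single (-1 : ℤ) 1 *
        HahnSeries.ofPowerSeries ℤ A w) * laurentExt β (HahnSeries.single (1 : ℤ) 1) = 1 := by
      rw [hX1, ← map_mul]
      have h4 : (HahnSeries.single (-1 : ℤ) (1 : A) * HahnSeries.ofPowerSeries ℤ A w) *
          (HahnSeries.single (1 : ℤ) 1 * HahnSeries.ofPowerSeries ℤ A v) = 1 := by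
        calc (HahnSeries.single (-1 : ℤ) (1 : A) * HahnSeries.ofPowerSeries ℤ A w) *
          (HahnSeries.single (1 : ℤ) 1 * HahnSeries.ofPowerSeries ℤ A v)
            = (HahnSeries.single (-1 : ℤ) (1 : A) * HahnSeries.single (1 : ℤ) 1) *
              (HahnSeries.ofPowerSeries ℤ A v * HahnSeries.ofPowerSeries ℤ A w) := by ring
          _ = 1 := by
            rw [← map_mul, hvw, HahnSeries.single_mul_single, neg_add_cancel, one_mul,
              map_one (HahnSeries.ofPowerSeries ℤ A), mul_one]
            rfl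
      rw [h4, map_one]
    have hne : laurentExt β (HahnSeries.single (1 : ℤ) 1) ≠ 0 := right_ne_zero_of_mul_eq_one h2
    exact mul_right_cancel₀ hne (h2.trans h3.symm)
  rcases le_or_gt 0 y.order with h | h
  · obtain ⟨n, hn⟩ := Int.eq_ofNat_of_zero_le h
    have h2 : HahnSeries.single y.order (1 : k) = (HahnSeries.single (1 : ℤ) 1) ^ n := by
      rw [HahnSeries.single_pow, hn]; simp
    rw [h2, map_pow, hX1]
    exact Subring.pow_mem _ (hmem _) _
  · obtain ⟨n, hn⟩ := Int.eq_ofNat_of_zero_le (show 0 ≤ -y.order by omega)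
    have h2 : HahnSeries.single y.order (1 : k) = (HahnSeries.single (-1 : ℤ) 1) ^ n := by
      have h3 : (n : ℤ) * -1 = y.order := by
        rw [mul_neg_one]
        omega
      rw [HahnSeries.single_pow, one_pow, nsmul_eq_mul, h3]
    rw [h2, map_pow, hX2]
    exact Subring.pow_mem _ (hmem _) _

theorem map_subst' {R S : Type*} [CommRing R] [CommRing S] (h : R →+* S) {a : PowerSeries R}
    (ha : HasSubst a) (f : PowerSeries R) : (f.subst a).map h = (f.map h).subst (a.map h) :=
  PowerSeries.map_subst ha f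

/-- the automorphism attached to an integral parameter preserves integrality both ways -/
theorem laurentExt_subst_mem (v w : PowerSeries A) (hvw : v * w = 1) :
    ∃ β : PowerSeries k ≃ₐ[k] PowerSeries k, β X = (X * v).map (algebraMap A k) ∧
      (∀ x ∈ intLS A k, laurentExt β.toRingEquiv x ∈ intLS A k) ∧
      (∀ x ∈ intLS A k, laurentExt β.symm.toRingEquiv x ∈ intLS A k) := by
  have hb : constantCoeff (X * v) = 0 := by simp
  have hv : IsUnit v := IsUnit.of_mul_eq_one w hvw
  have hb1 : IsUnit (coeff 1 (X * v)) := by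
    have : coeff 1 (X * v) = constantCoeff v := by simp
    rw [this]
    exact hv.map _
  have hbk : constantCoeff ((X * v).map (algebraMap A k)) = 0 := by simp
  have hbk1 : IsUnit (coeff 1 ((X * v).map (algebraMap A k))) := by
    rw [coeff_map]
    exact hb1.map _
  set α := substEquivR (X * v) hb hb1 with hα
  set β := substEquivR ((X * v).map (algebraMap A k)) hbk hbk1 with hβ
  have hcompat : ∀ p : PowerSeries A, β (p.map (algebraMap A k)) = (α p).map (algebraMap A k) := by
    intro p
    rw [hβ, hα, substEquivR_apply, substEquivR_apply]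
    exact (map_subst' (algebraMap A k) (HasSubst.of_constantCoeff_zero' hb) p).symm
  have hβX : β X = (X * v).map (algebraMap A k) := by
    rw [hβ, substEquivR_apply, subst_X (HasSubst.of_constantCoeff_zero' hbk)]
  refine ⟨β, hβX, fun x hx => ?_, fun x hx => ?_⟩
  · exact laurentExt_mem β.toRingEquiv (fun p => ⟨α p, hcompat p⟩) ⟨v, w, hvw, hβX⟩ hx
  · refine laurentExt_mem β.symm.toRingEquiv (fun p => ⟨α.symm p, ?_⟩) ?_ hx
    · change β.symm _ = _
      rw [AlgEquiv.symm_apply_eq, hcompat, AlgEquiv.apply_symm_apply]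
    · -- the inverse of `X` 
      have h1 : α (X) = X * v := by
        rw [hα, substEquivR_apply, subst_X (HasSubst.of_constantCoeff_zero' hb)]
      have h2 : α.symm X = X * α.symm w := by
        rw [AlgEquiv.symm_apply_eq, map_mul, h1, AlgEquiv.apply_symm_apply, mul_assoc, hvw,
          mul_one]
      refine ⟨α.symm w, α.symm v, ?_, ?_⟩
      · rw [← map_mul, mul_comm w, hvw, map_one]
      · change β.symm _ = _
        rw [AlgEquiv.symm_apply_eq, hcompat, ← h2, AlgEquiv.apply_symm_apply, PowerSeries.map_X]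

/-- roots of unit power series over `A` -/
theorem exists_root_series [IsAlgClosed k] {u u' : PowerSeries A} (hu : u * u' = 1) {e : ℕ}
    (he : IsUnit (e : A)) : ∃ v w : PowerSeries A, v * w = 1 ∧ v ^ e = u := by
  have hinj : Function.Injective (algebraMap A k) := IsFractionRing.injective A k
  have hek : (e : k) ≠ 0 := by
    have := (he.map (algebraMap A k)).ne_zero
    rwa [map_natCast] at this
  have hepos : 0 < e := Nat.pos_of_ne_zero (by rintro rfl; simp at hek)
  have hu0 : IsUnit (constantCoeff u) := (IsUnit.of_mul_eq_one u' hu).map _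
  obtain ⟨W, hW, hW0⟩ := exists_pow_eq_series (u.map (algebraMap A k)) (by
    rw [← PowerSeries.coeff_zero_eq_constantCoeff_apply, PowerSeries.coeff_map,
      PowerSeries.coeff_zero_eq_constantCoeff_apply]
    exact (hu0.map _).ne_zero) hepos
  -- the constant coefficient
  have hW0e : constantCoeff W ^ e = algebraMap A k (constantCoeff u) := by
    have := congrArg constantCoeff hW
    rw [map_pow] at this
    rw [this, ← PowerSeries.coeff_zero_eq_constantCoeff_apply, PowerSeries.coeff_map,
      PowerSeries.coeff_zero_eq_constantCoeff_apply]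
  have hint : IsIntegral A (constantCoeff W) := by
    refine IsIntegral.of_pow hepos ?_
    rw [hW0e]
    exact isIntegral_algebraMap
  obtain ⟨a, ha⟩ := IsIntegrallyClosed.isIntegral_iff.mp hint
  have hae : a ^ e = constantCoeff u := by
    apply hinj
    rw [map_pow, ha, hW0e]
  have hau : IsUnit a := by
    rw [← isUnit_pow_iff hepos.ne', hae]
    exact hu0
  set R : Subring k := (algebraMap A k).range with hR
  have hR1 : ∀ x : A, algebraMap A k x ∈ R := fun x => ⟨x, rfl⟩
  have hcoef := coeff_mem_of_pow R (m := e) hek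
    (by
      obtain ⟨t, ht⟩ := he
      have : (e : k)⁻¹ = algebraMap A k (↑t⁻¹ : A) := by
        apply inv_eq_of_mul_eq_one_right
        rw [← map_natCast (algebraMap A k), ← ht, ← map_mul, Units.mul_inv, map_one]
      rw [this]
      exact hR1 _) (W := W)
    (by rw [← ha]; exact hR1 _)
    (by
      obtain ⟨t, ht⟩ := hau
      have : (constantCoeff W)⁻¹ = algebraMap A k (↑t⁻¹ : A) := by
        apply inv_eq_of_mul_eq_one_right
        rw [← ha, ← ht, ← map_mul, Units.mul_inv, map_one]
      rw [this]
      exact hR1 _)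
    hW0 (fun n => by rw [hW, PowerSeries.coeff_map]; exact hR1 _)
  choose v hv using hcoef
  have hvW : (PowerSeries.mk v).map (algebraMap A k) = W := by
    ext n
    rw [PowerSeries.coeff_map, PowerSeries.coeff_mk, hv]
  have hpow : (PowerSeries.mk v) ^ e = u := by
    apply PowerSeries.map_injective (algebraMap A k) hinj
    rw [map_pow, hvW, hW]
  have hunit : IsUnit (PowerSeries.mk v) := by
    rw [← isUnit_pow_iff hepos.ne', hpow]
    exact IsUnit.of_mul_eq_one u' hu
  obtain ⟨t, ht⟩ := hunit
  exact ⟨PowerSeries.mk v, (↑t⁻¹ : PowerSeries A), by rw [← ht, Units.mul_inv], hpow⟩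

/-- **Integral reparametrisation.** -/
theorem exists_reparam [IsAlgClosed k] {T : LaurentSeries A} {n : ℤ} (hnu : IsUnit (n : A))
    (hT0 : ∀ j < n, T.coeff j = 0) (hTn : IsUnit (T.coeff n)) :
    ∃ α : LaurentSeries k ≃+* LaurentSeries k,
      α (mapLS (algebraMap A k) T) = HahnSeries.single n 1 ∧
      (∀ a : k, α (HahnSeries.C a) = HahnSeries.C a) ∧
      (∀ x ∈ intLS A k, α x ∈ intLS A k) ∧ (∀ x ∈ intLS A k, α.symm x ∈ intLS A k) := by
  have hn0 : n ≠ 0 := by
    rintro rfl
    rw [Int.cast_zero] at hnu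
    exact not_isUnit_zero hnu
  -- `T` or its inverse is `X ^ |n| * u`
  obtain ⟨u, u', huu', hTu⟩ : ∃ u u' : PowerSeries A, u * u' = 1 ∧
      T = HahnSeries.single n 1 * HahnSeries.ofPowerSeries ℤ A u := by
    obtain ⟨p, hp⟩ := exists_ofPowerSeries (x := HahnSeries.single (-n) 1 * T) (by
      intro j hj
      rw [HahnSeries.coeff_single_mul, one_mul]
      exact hT0 _ (by omega))
    have hpc : constantCoeff p = T.coeff n := by
      rw [← PowerSeries.coeff_zero_eq_constantCoeff_apply, ← LaurentSeries.coeff_coe_powerSeries,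
        hp, HahnSeries.coeff_single_mul, one_mul]
      congr 1
      push_cast
      ring
    have hpu : IsUnit p := by
      rw [PowerSeries.isUnit_iff_constantCoeff, hpc]
      exact hTn
    obtain ⟨t, ht⟩ := hpu
    refine ⟨p, (↑t⁻¹ : PowerSeries A), by rw [← ht, Units.mul_inv], ?_⟩
    rw [hp, ← mul_assoc, HahnSeries.single_mul_single, add_neg_cancel, mul_one]
    change T = 1 * T
    rw [one_mul]
  -- the case distinction
  obtain ⟨e, s, hs1, hse⟩ : ∃ (e : ℕ) (s : ℤ), (s = 1 ∨ s = -1) ∧ n = s * e := by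
    rcases lt_or_gt_of_ne hn0 with h | h
    · exact ⟨n.natAbs, -1, Or.inr rfl, by omega⟩
    · exact ⟨n.natAbs, 1, Or.inl rfl, by omega⟩
  have heu : IsUnit (e : A) := by
    have h1 : (n : A) = (s : A) * (e : A) := by rw [hse]; push_cast; ring
    rw [h1] at hnu
    exact isUnit_of_mul_isUnit_right hnu
  obtain ⟨u₁, u₁', hu₁, hu₁'⟩ : ∃ u₁ u₁' : PowerSeries A, u₁ * u₁' = 1 ∧
      ((s = 1 ∧ u₁ = u) ∨ (s = -1 ∧ u₁' = u)) := by
    rcases hs1 with h | h
    · exact ⟨u, u', huu', Or.inl ⟨h, rfl⟩⟩
    · exact ⟨u', u, by rw [mul_comm]; exact huu', Or.inr ⟨h, rfl⟩⟩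
  obtain ⟨v, w, hvw, hve⟩ := exists_root_series (k := k) hu₁ heu
  obtain ⟨β, hβX, hβ1, hβ2⟩ := laurentExt_subst_mem (k := k) v w hvw
  have hsymm : ∀ x, laurentExt β.symm.toRingEquiv x = (laurentExt β.toRingEquiv).symm x := by
    intro x
    rw [RingEquiv.eq_symm_apply]
    obtain ⟨g, h, hh, rfl⟩ := IsFractionRing.div_surjective (A := PowerSeries k) x
    rw [LaurentSeries.coe_algebraMap, map_div₀, map_div₀, laurentExt_coe, laurentExt_coe,
      laurentExt_coe, laurentExt_coe]
    congr 2
    · exact β.apply_symm_apply g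
    · exact β.apply_symm_apply h
  have hX1 : laurentExt β.toRingEquiv (HahnSeries.single (1 : ℤ) 1) =
      mapLS (algebraMap A k) (HahnSeries.single (1 : ℤ) 1 * HahnSeries.ofPowerSeries ℤ A v) := by
    have h2 : (HahnSeries.single (1 : ℤ) (1 : k)) = HahnSeries.ofPowerSeries ℤ k X := by
      rw [HahnSeries.ofPowerSeries_X]
    have h3 : (HahnSeries.single (1 : ℤ) (1 : A)) = HahnSeries.ofPowerSeries ℤ A X := by
      rw [HahnSeries.ofPowerSeries_X]
    rw [h2, laurentExt_coe, h3, ← map_mul, mapLS_ofPowerSeries]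
    congr 1
  have hXe : laurentExt β.toRingEquiv (HahnSeries.single (e : ℤ) 1) =
      mapLS (algebraMap A k) (HahnSeries.single (e : ℤ) 1 * HahnSeries.ofPowerSeries ℤ A u₁) := by
    have h2 : HahnSeries.single (e : ℤ) (1 : k) = (HahnSeries.single (1 : ℤ) 1) ^ e := by
      rw [HahnSeries.single_pow]; simp
    have h3 : HahnSeries.single (e : ℤ) (1 : A) = (HahnSeries.single (1 : ℤ) 1) ^ e := by
      rw [HahnSeries.single_pow]; simp
    rw [h2, map_pow, hX1, h3, ← hve, map_pow, ← mul_pow, map_pow]
  refine ⟨(laurentExt β.toRingEquiv).symm, ?_, fun a => ?_, fun x hx => ?_, fun x hx => ?_⟩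
  · rw [RingEquiv.symm_apply_eq]
    rcases hu₁' with ⟨h1, h2⟩ | ⟨h1, h2⟩
    · have h3 : n = (e : ℤ) := by rw [hse, h1, one_mul]
      rw [h3, hXe, hTu, h2, h3]
    · have h3 : n = -(e : ℤ) := by rw [hse, h1, neg_one_mul]
      have h4 : laurentExt β.toRingEquiv (HahnSeries.single n 1) *
          laurentExt β.toRingEquiv (HahnSeries.single (e : ℤ) 1) = 1 := by
        rw [← map_mul, HahnSeries.single_mul_single, h3, neg_add_cancel, one_mul]
        exact map_one _
      have h5 : mapLS (algebraMap A k) T *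
          laurentExt β.toRingEquiv (HahnSeries.single (e : ℤ) 1) = 1 := by
        rw [hXe, ← map_mul, hTu, ← h2, h3]
        have h6 : (HahnSeries.single (-(e : ℤ)) (1 : A) * HahnSeries.ofPowerSeries ℤ A u₁') *
          (HahnSeries.single (e : ℤ) 1 * HahnSeries.ofPowerSeries ℤ A u₁) = 1 := by
          calc (HahnSeries.single (-(e : ℤ)) (1 : A) * HahnSeries.ofPowerSeries ℤ A u₁') *
            (HahnSeries.single (e : ℤ) 1 * HahnSeries.ofPowerSeries ℤ A u₁)
              = (HahnSeries.single (-(e : ℤ)) (1 : A) * HahnSeries.single (e : ℤ) 1) *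
                (HahnSeries.ofPowerSeries ℤ A u₁ * HahnSeries.ofPowerSeries ℤ A u₁') := by ring
            _ = 1 := by
              rw [← map_mul, hu₁, HahnSeries.single_mul_single, neg_add_cancel, one_mul,
                map_one (HahnSeries.ofPowerSeries ℤ A), mul_one]
              rfl
        rw [h6, map_one]
      exact mul_right_cancel₀ (right_ne_zero_of_mul_eq_one h4) (h5.trans h4.symm)
  · rw [RingEquiv.symm_apply_eq]
    have h1 : (HahnSeries.C a : LaurentSeries k) = HahnSeries.ofPowerSeries ℤ k (C a) := by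
      rw [HahnSeries.ofPowerSeries_C]
    rw [h1, laurentExt_coe]
    congr 1
    exact (β.commutes a).symm
  · rw [← hsymm]; exact hβ2 x hx
  · exact hβ1 x hx

end Fermat.Agent.LP
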