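import Mathlib
import Fermat.Agent.LP.Reparam

set_option autoImplicit false
set_option linter.unusedSectionVars false

/-!
# Consequences of the uniqueness of the Gauss valuation
-/

open Polynomial
open scoped Pointwise

noncomputable section

namespace Fermat.Agent.LP

variable {A k E G : Type*} [CommRing A] [IsDomain A] [ValuationRing A] [Field k] [CharZero k]
  [Algebra A k] [IsFractionRing A k] [Field E] [Algebra A[X] E] [Algebra k[X] E]
  [Group G] [Fintype G] [MulSemiringAction G E] [SMulCommClass G A[X] E] [SMulCommClass G k[X] E]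

local notation "res" => IsLocalRing.residue A
local notation "κ" => IsLocalRing.ResidueField A
local notation "𝓑" => (integralClosure A[X] E)

/-- integrality of expansions at places -/
theorem place_integral [IsAlgClosed k] [Algebra.IsInvariant A[X] (integralClosure A[X] E) G]
    (hrank : ∀ a : A, a ≠ 0 → ∀ π ∈ IsLocalRing.maximalIdeal A, ∃ n : ℕ, a ∣ π ^ n)
    (hcomp : ∀ p : A[X], algebraMap A[X] E p = algebraMap k[X] E (p.map (algebraMap A k)))
    (hfix : ∀ x : E, (∀ g : G, g • x = x) → ∃ p q : k[X], q ≠ 0 ∧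
      algebraMap k[X] E q * x = algebraMap k[X] E p)
    {D : Derivation ℤ E E} (hDt : D (algebraMap k[X] E X) = 1)
    (hDC : ∀ a : k, D (algebraMap k[X] E (C a)) = 0) (halg : ∀ z : E, IsAlgebraic k[X] z)
    (hder : ∀ z : E, IsIntegral A[X] z → ∀ j, hasse D j z ∈ locInt A E)
    {s : A[X]} (hreg : ∀ c : k, (s.map (algebraMap A k)).eval c ≠ 0 →
      ∃ θ : E →+* LaurentSeries k, IsPlace θ c 1)
    {θ : E →+* LaurentSeries k} {c : A} {e : ℤ} (hθ : IsPlace θ (algebraMap A k c) e)
    {s' : LaurentSeries A} (hs' : evT (HahnSeries.C c + HahnSeries.single e 1) s * s' = 1)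
    {z : E} (hz : IsIntegral A[X] z) : θ z ∈ intLS A k := by
  apply mem_intLS_of_coeff
  intro n
  refine taylor_integral (G := G) hcomp hDt hDC halg hθ hs' z (fun j => ?_) n
  exact exists_pow_mul_integral (G := G) hrank hcomp hθ.injective hfix hreg (hder _ hz j)
    fun θ' c' hθ' => hθ'.hasse_mem_regLS hcomp hDt hDC halg hz j

/-- transfer of the previous result through a reparametrisation -/
theorem cusp_integral [IsAlgClosed k] [Algebra.IsInvariant A[X] (integralClosure A[X] E) G]
    (hrank : ∀ a : A, a ≠ 0 → ∀ π ∈ IsLocalRing.maximalIdeal A, ∃ n : ℕ, a ∣ π ^ n)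
    (hcomp : ∀ p : A[X], algebraMap A[X] E p = algebraMap k[X] E (p.map (algebraMap A k)))
    (hfix : ∀ x : E, (∀ g : G, g • x = x) → ∃ p q : k[X], q ≠ 0 ∧
      algebraMap k[X] E q * x = algebraMap k[X] E p)
    {D : Derivation ℤ E E} (hDt : D (algebraMap k[X] E X) = 1)
    (hDC : ∀ a : k, D (algebraMap k[X] E (C a)) = 0) (halg : ∀ z : E, IsAlgebraic k[X] z)
    (hder : ∀ z : E, IsIntegral A[X] z → ∀ j, hasse D j z ∈ locInt A E)
    {s : A[X]} (hreg : ∀ c : k, (s.map (algebraMap A k)).eval c ≠ 0 →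
      ∃ θ : E →+* LaurentSeries k, IsPlace θ c 1)
    {θ : E →+* LaurentSeries k} {T : LaurentSeries A} {n : ℤ} (hnu : IsUnit (n : A))
    (hT0 : ∀ j < n, T.coeff j = 0) (hTn : IsUnit (T.coeff n))
    (hθ : ∀ p : k[X], θ (algebraMap k[X] E p) = evT (mapLS (algebraMap A k) T) p)
    {s' : LaurentSeries A} (hs' : evT (HahnSeries.single n 1) s * s' = 1)
    {z : E} (hz : IsIntegral A[X] z) : θ z ∈ intLS A k := by
  obtain ⟨α, hα1, hα2, hα3, hα4⟩ := exists_reparam (k := k) hnu hT0 hTn
  have hn0 : n ≠ 0 := by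
    rintro rfl
    rw [Int.cast_zero] at hnu
    exact not_isUnit_zero hnu
  have hpl : IsPlace ((α : LaurentSeries k →+* LaurentSeries k).comp θ)
      (algebraMap A k 0) n := by
    refine ⟨hn0, fun p => ?_⟩
    rw [RingHom.comp_apply, hθ]
    have h1 : ((α : LaurentSeries k →+* LaurentSeries k).comp
        (evT (mapLS (algebraMap A k) T))) =
        evT (HahnSeries.C (algebraMap A k 0) + HahnSeries.single n 1) := by
      refine Polynomial.ringHom_ext (fun a => ?_) ?_
      · rw [RingHom.comp_apply, evT_C, evT_C]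
        exact hα2 a
      · rw [RingHom.comp_apply, evT_X, evT_X, map_zero, map_zero, zero_add]
        exact hα1
    exact congrArg (fun f : k[X] →+* LaurentSeries k => f p) h1
  have h2 := place_integral (G := G) hrank hcomp hfix hDt hDC halg hder hreg hpl
    (s' := s') (by rw [map_zero, zero_add]; exact hs') hz
  have h3 := hα4 _ h2
  rw [RingHom.comp_apply] at h3
  have h4 : α.symm ((α : LaurentSeries k →+* LaurentSeries k) (θ z)) = θ z :=
    α.symm_apply_apply _
  rwa [h4] at h3

variable [Algebra.IsInvariant A[X] (integralClosure A[X] E) G]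

/-- if all primes above the Gauss prime are stable, `locInt` is a valuation ring. -/
theorem mem_locInt_or (halgA : ∀ z : E, IsAlgebraic A[X] z)
    (hinj : Function.Injective (algebraMap A[X] E))
    (hstab : ∀ (𝔓 : Ideal (integralClosure A[X] E)) [𝔓.IsPrime],
      𝔓.comap (algebraMap A[X] (integralClosure A[X] E)) = gaussPrime A → ∀ g : G, g • 𝔓 = 𝔓)
    (y : E) : y ∈ locInt A E ∨ y⁻¹ ∈ locInt A E := by
  classical
  haveI : (gaussPrime A).IsPrime := Ideal.isPrime_map_C_of_isPrime
  obtain ⟨𝔓, h𝔓, hcomap⟩ := Ideal.exists_ideal_over_prime_of_isIntegral_of_isDomain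
    (R := A[X]) (S := 𝓑) (gaussPrime A) (by
      intro x hx
      rw [RingHom.mem_ker] at hx
      have : algebraMap A[X] E x = 0 := congrArg Subtype.val hx
      rw [hinj (this.trans (map_zero _).symm)]
      exact Ideal.zero_mem _)
  have key : ∀ y : E, (∃ b : 𝓑, b ∉ 𝔓 ∧ ∃ a : 𝓑, (b : E) * y = a) → y ∈ locInt A E := by
    rintro y ⟨b, hb, a, hab⟩
    have hg : ∀ g : G, g • b ∉ 𝔓 := by
      intro g hmem
      have h1 := hstab 𝔓 hcomap g⁻¹
      apply hb
      rw [← h1, Ideal.mem_inv_pointwise_smul_iff]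
      exact hmem
    obtain ⟨p, hp⟩ := Algebra.IsInvariant.isInvariant (A := A[X]) (G := G) (∏ g : G, g • b)
      (by
        intro h
        rw [Finset.smul_prod']
        rw [← Equiv.prod_comp (Equiv.mulLeft h) (fun g => g • b)]
        refine Finset.prod_congr rfl fun g _ => ?_
        rw [smul_smul]
        rfl)
    refine ⟨p, ?_, ?_⟩
    · intro h0
      rw [← mem_map_C_iff] at h0
      have h1 : p ∈ gaussPrime A := h0
      rw [← hcomap, Ideal.mem_comap, hp, h𝔓.prod_mem_iff] at h1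
      obtain ⟨g, -, hg'⟩ := h1
      exact hg g hg'
    · have h1 : algebraMap A[X] E p = ((∏ g : G, g • b : 𝓑) : E) := by
        rw [← hp]; rfl
      rw [← Finset.mul_prod_erase Finset.univ (fun g : G => g • b) (Finset.mem_univ 1),
        one_smul] at h1
      have h2 : algebraMap A[X] E p * y =
          ((a * ∏ g ∈ Finset.univ.erase (1 : G), g • b : 𝓑) : E) := by
        rw [h1]
        push_cast
        rw [← hab]
        ring
      rw [h2]
      exact Subtype.property _
  rcases exists_place_or halgA 𝔓 hcomap hinj y with h | h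
  · exact Or.inl (key y h)
  · exact Or.inr (key _ h)

/-- uniqueness of the prime above the Gauss prime -/
theorem ker_eq (hstab : ∀ (𝔓 : Ideal (integralClosure A[X] E)) [𝔓.IsPrime],
      𝔓.comap (algebraMap A[X] (integralClosure A[X] E)) = gaussPrime A → ∀ g : G, g • 𝔓 = 𝔓)
    (P Q : Ideal 𝓑) [P.IsPrime] [Q.IsPrime]
    (hP : P.comap (algebraMap A[X] 𝓑) = gaussPrime A)
    (hQ : Q.comap (algebraMap A[X] 𝓑) = gaussPrime A) : P = Q := by
  obtain ⟨g, hg⟩ := Algebra.IsInvariant.exists_smul_of_under_eq A[X] 𝓑 G P Q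
    (by rw [Ideal.under, Ideal.under, hP, hQ])
  rw [hg, hstab P hP g]

/-- reduction of an embedding which is integral on integral elements -/
theorem exists_red {k' : Type*} [Field k'] [Algebra A k'] [IsFractionRing A k']
    (θ : E →+* LaurentSeries k') (hint : ∀ z : E, IsIntegral A[X] z → θ z ∈ intLS A k')
    (hprim : ∀ p : A[X], p.map res ≠ 0 → ∀ f : LaurentSeries A,
      mapLS (algebraMap A k') f = θ (algebraMap A[X] E p) → mapLS res f ≠ 0)
    (hmax : ∀ p : A[X], p.map res = 0 → ∀ f : LaurentSeries A,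
      mapLS (algebraMap A k') f = θ (algebraMap A[X] E p) → mapLS res f = 0) :
    ∃ φ : 𝓑 →+* LaurentSeries A, (∀ b : 𝓑, mapLS (algebraMap A k') (φ b) = θ b) ∧
      (RingHom.ker ((mapLS res).comp φ)).comap (algebraMap A[X] 𝓑) = gaussPrime A := by
  have hinj : Function.Injective (algebraMap A k') := IsFractionRing.injective A k'
  have hinjL := mapLS_injective (f := algebraMap A k') hinj
  choose f hf using fun b : 𝓑 => hint b b.2
  refine ⟨{ toFun := f
            map_one' := hinjL (by rw [hf, map_one]; push_cast; rw [map_one])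
            map_mul' := fun a b => hinjL (by rw [hf, map_mul, hf, hf]; push_cast; rw [map_mul])
            map_zero' := hinjL (by rw [hf, map_zero]; push_cast; rw [map_zero])
            map_add' := fun a b => hinjL (by rw [hf, map_add, hf, hf]; push_cast; rw [map_add]) },
    hf, ?_⟩
  ext p
  rw [Ideal.mem_comap, RingHom.mem_ker, mem_map_C_iff]
  change mapLS res (f (algebraMap A[X] 𝓑 p)) = 0 ↔ _
  have h1 : mapLS (algebraMap A k') (f (algebraMap A[X] 𝓑 p)) = θ (algebraMap A[X] E p) := hf _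
  constructor
  · intro h
    by_contra h2
    exact hprim p h2 _ h1 h
  · intro h
    exact hmax p h _ h1

/-- **Comparison of two expansions.** -/
theorem root_eq_one [IsAlgClosed κ] (halgA : ∀ z : E, IsAlgebraic A[X] z)
    (hinj : Function.Injective (algebraMap A[X] E))
    (hstab : ∀ (𝔓 : Ideal (integralClosure A[X] E)) [𝔓.IsPrime],
      𝔓.comap (algebraMap A[X] (integralClosure A[X] E)) = gaussPrime A → ∀ g : G, g • 𝔓 = 𝔓)
    {θ₁ θ₂ : E →+* LaurentSeries k} {φ₁ φ₂ : 𝓑 →+* LaurentSeries A}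
    (hφ₁ : ∀ b : 𝓑, mapLS (algebraMap A k) (φ₁ b) = θ₁ b)
    (hφ₂ : ∀ b : 𝓑, mapLS (algebraMap A k) (φ₂ b) = θ₂ b)
    (hC₁ : ∀ a : A, φ₁ (algebraMap A[X] 𝓑 (C a)) = HahnSeries.C a)
    (hC₂ : ∀ a : A, φ₂ (algebraMap A[X] 𝓑 (C a)) = HahnSeries.C a)
    (hker₁ : (RingHom.ker ((mapLS res).comp φ₁)).comap (algebraMap A[X] 𝓑) = gaussPrime A)
    (hker₂ : (RingHom.ker ((mapLS res).comp φ₂)).comap (algebraMap A[X] 𝓑) = gaussPrime A)
    {m : ℕ} (hm : IsUnit (m : A)) {y : E} (hy : y ≠ 0) {P₁ P₂ : LaurentSeries A}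
    (hP : mapLS res P₁ = mapLS res P₂) (hP0 : mapLS res P₁ ≠ 0)
    (h₁ : θ₁ y ^ m * mapLS (algebraMap A k) P₂ = mapLS (algebraMap A k) P₁)
    {χ : A} (hχ : χ ^ m = 1) (h₂ : θ₂ y = HahnSeries.C (algebraMap A k χ) * θ₁ y) : χ = 1 := by
  classical
  have hinjA : Function.Injective (algebraMap A k) := IsFractionRing.injective A k
  have hinjL := mapLS_injective (f := algebraMap A k) hinjA
  have hmk : (m : κ) ≠ 0 := by
    have := (hm.map res).ne_zero
    rwa [map_natCast] at this
  have hmpos : 0 < m := Nat.pos_of_ne_zero (by rintro rfl; simp at hmk)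
  have hPrime₁ : (RingHom.ker ((mapLS res).comp φ₁)).IsPrime := RingHom.ker_isPrime _
  have hPrime₂ : (RingHom.ker ((mapLS res).comp φ₂)).IsPrime := RingHom.ker_isPrime _
  have hkers := ker_eq (G := G) hstab _ _ hker₁ hker₂
  -- main case
  have key : ∀ (y : E) (P₁ P₂ : LaurentSeries A) (χ : A), y ∈ locInt A E → y ≠ 0 →
      mapLS res P₁ = mapLS res P₂ → mapLS res P₁ ≠ 0 →
      θ₁ y ^ m * mapLS (algebraMap A k) P₂ = mapLS (algebraMap A k) P₁ → χ ^ m = 1 →
      θ₂ y = HahnSeries.C (algebraMap A k χ) * θ₁ y → χ = 1 := by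
    intro y P₁ P₂ χ hyloc hy hP hP0 h₁ hχ h₂
    obtain ⟨g, hg, hgy⟩ := hyloc
    set b : 𝓑 := ⟨algebraMap A[X] E g * y, hgy⟩ with hb
    set gB : 𝓑 := algebraMap A[X] 𝓑 g with hgB
    have hgB1 : mapLS res (φ₁ gB) ≠ 0 := by
      intro h
      have : g ∈ (RingHom.ker ((mapLS res).comp φ₁)).comap (algebraMap A[X] 𝓑) := h
      rw [hker₁, mem_map_C_iff] at this
      exact hg this
    have hgB2 : mapLS res (φ₂ gB) ≠ 0 := by
      intro h
      have : g ∈ (RingHom.ker ((mapLS res).comp φ₂)).comap (algebraMap A[X] 𝓑) := h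
      rw [hker₂, mem_map_C_iff] at this
      exact hg this
    have hb1 : θ₁ (b : E) = θ₁ (gB : E) * θ₁ y := by rw [← map_mul]; rfl
    have hb2 : θ₂ (b : E) = θ₂ (gB : E) * θ₂ y := by rw [← map_mul]; rfl
    -- the first relation
    have hr1 : φ₁ b ^ m * P₂ = φ₁ gB ^ m * P₁ := by
      apply hinjL
      rw [map_mul, map_pow, map_mul, map_pow, hφ₁, hφ₁, hb1, ← h₁]
      ring
    have hr2 : mapLS res (φ₁ b) ^ m = mapLS res (φ₁ gB) ^ m := by
      have h3 := congrArg (mapLS res) hr1
      rw [map_mul, map_pow, map_mul, map_pow, ← hP] at h3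
      exact mul_right_cancel₀ hP0 h3
    -- the root of unity
    obtain ⟨ζ, hζ, hζ0⟩ : ∃ ζ : A, mapLS res (φ₁ b) = HahnSeries.C (res ζ) * mapLS res (φ₁ gB) ∧
        res ζ ≠ 0 := by
      have h4 : (mapLS res (φ₁ b) / mapLS res (φ₁ gB)) ^ m = 1 := by
        rw [div_pow, hr2, div_self (pow_ne_zero _ hgB1)]
      have h5 : ((X ^ m - 1 : κ[X]).map (HahnSeries.C : κ →+* LaurentSeries κ)).IsRoot
          (mapLS res (φ₁ b) / mapLS res (φ₁ gB)) := by
        rw [IsRoot, eval_map, eval₂_sub, eval₂_pow, eval₂_X, eval₂_one, h4, sub_self]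
      have h6 : (X ^ m - 1 : κ[X]) ≠ 0 := by
        have := X_pow_sub_C_ne_zero (R := κ) hmpos 1
        rwa [C_1] at this
      have h7 := (IsAlgClosed.splits (X ^ m - 1 : κ[X])).eq_prod_roots
      rw [h7, Polynomial.map_mul, Polynomial.map_multiset_prod, map_C] at h5
      rw [IsRoot, eval_mul, eval_C, mul_eq_zero] at h5
      rcases h5 with h5 | h5
      · exfalso
        rw [map_eq_zero] at h5
        exact (leadingCoeff_ne_zero.mpr h6) h5
      · rw [eval_multiset_prod, Multiset.prod_eq_zero_iff, Multiset.mem_map] at h5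
        obtain ⟨q, hq, hq0⟩ := h5
        rw [Multiset.mem_map] at hq
        obtain ⟨r, hr, rfl⟩ := hq
        rw [Multiset.mem_map] at hr
        obtain ⟨ζ', hζ', rfl⟩ := hr
        rw [Polynomial.map_sub, map_X, map_C, eval_sub, eval_X, eval_C, sub_eq_zero] at hq0
        obtain ⟨ζ, rfl⟩ := IsLocalRing.residue_surjective ζ'
        refine ⟨ζ, ?_, ?_⟩
        · rw [← hq0, div_mul_cancel₀ _ hgB1]
        · intro h0
          rw [h0, map_zero] at hq0
          rw [hq0, zero_pow hmpos.ne'] at h4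
          exact zero_ne_one h4
    -- transport to the second expansion
    have h8 : b - algebraMap A[X] 𝓑 (C ζ) * gB ∈ RingHom.ker ((mapLS res).comp φ₁) := by
      rw [RingHom.mem_ker, RingHom.comp_apply, map_sub, map_sub, map_mul, map_mul, hζ]
      rw [hC₁, mapLS_C, sub_self]
    rw [hkers, RingHom.mem_ker, RingHom.comp_apply, map_sub, map_sub, map_mul, map_mul, hC₂,
      mapLS_C, sub_eq_zero] at h8
    have hr3 : φ₂ b * φ₁ gB = HahnSeries.C χ * φ₂ gB * φ₁ b := by
      apply hinjL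
      rw [map_mul, map_mul, map_mul, hφ₁, hφ₁, hφ₂, hφ₂, hb1, hb2, h₂, mapLS_C]
      ring
    have hr4 := congrArg (mapLS res) hr3
    rw [map_mul, map_mul, map_mul, h8, hζ, mapLS_C] at hr4
    have hC0 : HahnSeries.C (res ζ) ≠ (0 : LaurentSeries κ) := by
      rw [Ne, map_eq_zero]
      exact hζ0
    have hr5 : HahnSeries.C (res χ) = (1 : LaurentSeries κ) := by
      have h10 : (HahnSeries.C (res ζ) * mapLS res (φ₂ gB) * mapLS res (φ₁ gB) :
          LaurentSeries κ) ≠ 0 := mul_ne_zero (mul_ne_zero hC0 hgB2) hgB1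
      apply mul_right_cancel₀ h10
      rw [one_mul]
      refine Eq.trans ?_ hr4.symm
      ring
    have hχ1 : res χ = 1 := by
      have h11 : HahnSeries.C (res χ) = (HahnSeries.C 1 : LaurentSeries κ) := by
        rw [hr5, map_one]
      exact HahnSeries.C_injective h11
    have h12 : (∑ i ∈ Finset.range m, χ ^ i) * (χ - 1) = 0 := by
      rw [geom_sum_mul, hχ, sub_self]
    rcases mul_eq_zero.mp h12 with h13 | h13
    · exfalso
      have h14 := congrArg res h13
      rw [map_sum, map_zero] at h14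
      simp only [map_pow, hχ1, one_pow, Finset.sum_const, Finset.card_range, nsmul_eq_mul,
        mul_one] at h14
      exact hmk h14
    · exact sub_eq_zero.mp h13
  rcases mem_locInt_or (G := G) halgA hinj hstab y with h | h
  · exact key y P₁ P₂ χ h hy hP hP0 h₁ hχ h₂
  · obtain ⟨n, hn⟩ : ∃ n, m = n + 1 := ⟨m - 1, by omega⟩
    have hχ' : χ * χ ^ n = 1 := by rw [← pow_succ', ← hn, hχ]
    have hθ1 : θ₁ y ≠ 0 := by rw [Ne, map_eq_zero]; exact hy
    have h3 := key y⁻¹ P₂ P₁ (χ ^ n) h (inv_ne_zero hy) hP.symm (by rw [← hP]; exact hP0)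
      (by
        rw [← h₁, map_inv₀, ← mul_assoc, ← mul_pow, inv_mul_cancel₀ hθ1, one_pow, one_mul])
      (by rw [← pow_mul, mul_comm, pow_mul, hχ, one_pow])
      (by
        rw [map_inv₀, map_inv₀, h₂, mul_inv]
        congr 1
        apply inv_eq_of_mul_eq_one_right
        rw [← map_mul, ← map_mul, hχ', map_one, map_one])
    rw [h3, mul_one] at hχ'
    exact hχ'

end Fermat.Agent.LP
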