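import Mathlib
import Fermat.Agent.LP.Final

set_option autoImplicit false
set_option linter.unusedSectionVars false

/-!
# The abstract comparison theorem
-/

open Polynomial
open scoped Pointwise

noncomputable section

namespace Fermat.Agent.LP

variable {A k E G : Type*} [CommRing A] [IsDomain A] [ValuationRing A] [Field k] [CharZero k]
  [Algebra A k] [IsFractionRing A k] [Field E] [Algebra A[X] E] [Algebra k[X] E]
  [Group G] [Fintype G] [MulSemiringAction G E] [SMulCommClass G A[X] E] [SMulCommClass G k[X] E]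

local notation "res" => IsLocalRing.residue A
local notation "κ" => IsLocalRing.ResidueField A
local notation "𝓑" => (integralClosure A[X] E)

/-- Laurent series with unit leading coefficient are units -/
theorem exists_inv_of_lead {R : Type*} [CommRing R] {T : LaurentSeries R} {n : ℤ}
    (hT0 : ∀ j < n, T.coeff j = 0) (hTn : IsUnit (T.coeff n)) : ∃ T', T * T' = 1 := by
  obtain ⟨p, hp⟩ := exists_ofPowerSeries (x := HahnSeries.single (-n) 1 * T) (by
    intro j hj
    rw [HahnSeries.coeff_single_mul, one_mul]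
    exact hT0 _ (by omega))
  have hpc : PowerSeries.constantCoeff p = T.coeff n := by
    rw [← PowerSeries.coeff_zero_eq_constantCoeff_apply, ← LaurentSeries.coeff_coe_powerSeries,
      hp, HahnSeries.coeff_single_mul, one_mul]
    congr 1
    push_cast
    ring
  have hpu : IsUnit p := by
    rw [PowerSeries.isUnit_iff_constantCoeff, hpc]
    exact hTn
  obtain ⟨t, ht⟩ := hpu
  refine ⟨HahnSeries.single (-n) 1 * HahnSeries.ofPowerSeries ℤ R (↑t⁻¹ : PowerSeries R), ?_⟩
  calc T * (HahnSeries.single (-n) 1 * HahnSeries.ofPowerSeries ℤ R (↑t⁻¹ : PowerSeries R))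
      = (HahnSeries.single (-n) 1 * T) * HahnSeries.ofPowerSeries ℤ R (↑t⁻¹ : PowerSeries R) := by
        ring
    _ = 1 := by
        rw [← hp, ← map_mul, ← ht, Units.mul_inv, map_one (HahnSeries.ofPowerSeries ℤ R)]

theorem exists_inv_C_add_single {R : Type*} [CommRing R] {a : R} {e : ℤ}
    (h : (0 < e ∧ IsUnit a) ∨ a = 0 ∨ e < 0) :
    ∃ s' : LaurentSeries R, (HahnSeries.C a + HahnSeries.single e 1) * s' = 1 := by
  rcases h with ⟨he, ha⟩ | rfl | he
  · refine exists_inv_of_lead (n := 0) (fun j hj => ?_) ?_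
    · rw [HahnSeries.coeff_add, HahnSeries.C_apply, HahnSeries.coeff_single_of_ne (by omega),
        HahnSeries.coeff_single_of_ne (by omega), add_zero]
    · rw [HahnSeries.coeff_add, HahnSeries.C_apply, HahnSeries.coeff_single_same,
        HahnSeries.coeff_single_of_ne (by omega), add_zero]
      exact ha
  · refine exists_inv_of_lead (n := e) (fun j hj => ?_) ?_
    · rw [map_zero, zero_add, HahnSeries.coeff_single_of_ne (by omega)]
    · rw [map_zero, zero_add, HahnSeries.coeff_single_same]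
      exact isUnit_one
  · refine exists_inv_of_lead (n := e) (fun j hj => ?_) ?_
    · rw [HahnSeries.coeff_add, HahnSeries.C_apply, HahnSeries.coeff_single_of_ne (by omega),
        HahnSeries.coeff_single_of_ne (by omega), add_zero]
    · rw [HahnSeries.coeff_add, HahnSeries.C_apply, HahnSeries.coeff_single_of_ne (by omega),
        HahnSeries.coeff_single_same, zero_add]
      exact isUnit_one

/-- constants are the only algebraic Laurent series -/
theorem evT_ne_zero {K : Type*} [Field K] [IsAlgClosed K] {T : LaurentSeries K} {n : ℤ}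
    (hn : n ≠ 0) (hTn : T.coeff n ≠ 0) {p : K[X]} (hp : p ≠ 0) : evT T p ≠ 0 := by
  intro h
  have h5 : (p.map (HahnSeries.C : K →+* LaurentSeries K)).IsRoot T := by
    rw [IsRoot, eval_map]
    exact h
  have h7 := (IsAlgClosed.splits p).eq_prod_roots
  rw [h7, Polynomial.map_mul, Polynomial.map_multiset_prod, map_C] at h5
  rw [IsRoot, eval_mul, eval_C, mul_eq_zero] at h5
  rcases h5 with h5 | h5
  · rw [map_eq_zero] at h5
    exact (leadingCoeff_ne_zero.mpr hp) h5
  · rw [eval_multiset_prod, Multiset.prod_eq_zero_iff, Multiset.mem_map] at h5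
    obtain ⟨q, hq, hq0⟩ := h5
    rw [Multiset.mem_map] at hq
    obtain ⟨r, hr, rfl⟩ := hq
    rw [Multiset.mem_map] at hr
    obtain ⟨ζ', hζ', rfl⟩ := hr
    rw [Polynomial.map_sub, map_X, map_C, eval_sub, eval_X, eval_C, sub_eq_zero] at hq0
    apply hTn
    rw [hq0, HahnSeries.C_apply, HahnSeries.coeff_single_of_ne hn]

/-- an expansion at a cusp -/
structure CuspEmb (θ : E →+* LaurentSeries k) (T : LaurentSeries A) (n : ℤ) : Prop where
  unit : IsUnit (n : A)
  low : ∀ j < n, T.coeff j = 0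
  lead : IsUnit (T.coeff n)
  base : ∀ p : k[X], θ (algebraMap k[X] E p) = evT (mapLS (algebraMap A k) T) p

theorem CuspEmb.ne_zero {θ : E →+* LaurentSeries k} {T : LaurentSeries A} {n : ℤ}
    (h : CuspEmb θ T n) : n ≠ 0 := by
  rintro rfl
  have := h.unit
  rw [Int.cast_zero] at this
  exact not_isUnit_zero this

/-- the place attached to a cusp -/
theorem CuspEmb.exists_place [IsAlgClosed k] {θ : E →+* LaurentSeries k} {T : LaurentSeries A}
    {n : ℤ} (h : CuspEmb θ T n) : ∃ α : LaurentSeries k ≃+* LaurentSeries k,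
      IsPlace ((α : LaurentSeries k →+* LaurentSeries k).comp θ) (algebraMap A k 0) n ∧
      (∀ x ∈ intLS A k, α x ∈ intLS A k) ∧ (∀ x ∈ intLS A k, α.symm x ∈ intLS A k) := by
  obtain ⟨α, hα1, hα2, hα3, hα4⟩ := exists_reparam (k := k) h.unit h.low h.lead
  refine ⟨α, ⟨h.ne_zero, fun p => ?_⟩, hα3, hα4⟩
  rw [RingHom.comp_apply, h.base]
  have h1 : ((α : LaurentSeries k →+* LaurentSeries k).comp
      (evT (mapLS (algebraMap A k) T))) =
      evT (HahnSeries.C (algebraMap A k 0) + HahnSeries.single n 1) := by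
    refine Polynomial.ringHom_ext (fun a => ?_) ?_
    · rw [RingHom.comp_apply, evT_C, evT_C]
      exact hα2 a
    · rw [RingHom.comp_apply, evT_X, evT_X, map_zero, map_zero, zero_add]
      exact hα1
  exact congrArg (fun f : k[X] →+* LaurentSeries k => f p) h1

/-- **The abstract comparison theorem.** -/
theorem comparison [IsAlgClosed k] [IsAlgClosed κ]
    [Algebra.IsInvariant A[X] (integralClosure A[X] E) G]
    (hrank : ∀ a : A, a ≠ 0 → ∀ π ∈ IsLocalRing.maximalIdeal A, ∃ n : ℕ, a ∣ π ^ n)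
    (hnf : ∃ ϖ ∈ IsLocalRing.maximalIdeal A, ϖ ≠ 0)
    (hcomp : ∀ p : A[X], algebraMap A[X] E p = algebraMap k[X] E (p.map (algebraMap A k)))
    (hfix : ∀ x : E, (∀ g : G, g • x = x) → ∃ p q : k[X], q ≠ 0 ∧
      algebraMap k[X] E q * x = algebraMap k[X] E p)
    {D : Derivation ℤ E E} (hDt : D (algebraMap k[X] E X) = 1)
    (hDC : ∀ a : k, D (algebraMap k[X] E (C a)) = 0) (halg : ∀ z : E, IsAlgebraic k[X] z)
    (halgA : ∀ z : E, IsAlgebraic A[X] z)
    -- places
    {c₁ : A} (hc₁ : IsUnit c₁)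
    (hreg : ∀ c : k, c ≠ 0 → c ≠ algebraMap A k c₁ → ∃ θ : E →+* LaurentSeries k, IsPlace θ c 1)
    (hell : ∃ e : ℕ, 0 < e ∧ ∃ θ : E →+* LaurentSeries k, IsPlace θ (algebraMap A k c₁) e)
    {θi θz : E →+* LaurentSeries k} {Ti Tz : LaurentSeries A} {ni nz : ℕ} (hni : 0 < ni)
    (hnz : 0 < nz) (hi : CuspEmb θi Ti (ni : ℤ)) (hz : CuspEmb θz Tz (-(nz : ℤ)))
    -- bounded denominators and Kummer extension
    (G₁ : Subgroup G) [hG₁ : G₁.Normal]
    (hBD : ∀ x : E, (∀ g ∈ G₁, g • x = x) → ∃ f g : LaurentSeries A, g ≠ 0 ∧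
      mapLS (algebraMap A k) g * θi x = mapLS (algebraMap A k) f)
    {m : ℕ} (hm : IsUnit (m : A)) (hcard : IsUnit ((Nat.card G₁ : ℕ) : A))
    (hKum : ∀ x : E, ∃ (s : Finset (G₁ →* kˣ)) (y : (G₁ →* kˣ) → E), (∀ ψ ∈ s, ψ ^ m = 1) ∧
      (∀ ψ ∈ s, ∀ g : G₁, (g : G) • y ψ = algebraMap k[X] E (C (ψ g : k)) * y ψ) ∧
      x = ∑ ψ ∈ s, y ψ)
    -- the two embeddings to compare
    {θ₁ θ₂ : E →+* LaurentSeries k} {T₁ T₂ : LaurentSeries A} {n₁ n₂ : ℤ}
    (h₁ : CuspEmb θ₁ T₁ n₁) (h₂ : CuspEmb θ₂ T₂ n₂) {y : E} (hy : y ≠ 0)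
    {P₁ P₂ : LaurentSeries A}
    (hP : mapLS res P₁ = mapLS res P₂) (hP0 : mapLS res P₁ ≠ 0)
    (hyP : θ₁ y ^ m * mapLS (algebraMap A k) P₂ = mapLS (algebraMap A k) P₁)
    {χ : A} (hχ : χ ^ m = 1) (hyχ : θ₂ y = HahnSeries.C (algebraMap A k χ) * θ₁ y) : χ = 1 := by
  classical
  have hinjA : Function.Injective (algebraMap A k) := IsFractionRing.injective A k
  have hinjL := mapLS_injective (f := algebraMap A k) hinjA
  -- the polynomial `s`
  set s : A[X] := X * (X - C c₁) with hs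
  have hsev : ∀ T : LaurentSeries A, evT T s = T * (T - HahnSeries.C c₁) := by
    intro T
    rw [hs, map_mul, map_sub, evT_X, evT_C]
  have hs' : ∀ (c : A) (e : ℤ), ((0 < e ∧ IsUnit c) ∨ c = 0 ∨ e < 0) →
      ((0 < e ∧ IsUnit (c - c₁)) ∨ c - c₁ = 0 ∨ e < 0) →
      ∃ s' : LaurentSeries A, evT (HahnSeries.C c + HahnSeries.single e 1) s * s' = 1 := by
    intro c e h1 h2
    obtain ⟨s₁, hs₁⟩ := exists_inv_C_add_single h1
    obtain ⟨s₂, hs₂⟩ := exists_inv_C_add_single h2
    refine ⟨s₁ * s₂, ?_⟩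
    have h3 : HahnSeries.C c + HahnSeries.single e (1 : A) - HahnSeries.C c₁ =
        HahnSeries.C (c - c₁) + HahnSeries.single e 1 := by
      rw [map_sub]; ring
    rw [hsev, h3]
    calc (HahnSeries.C c + HahnSeries.single e (1 : A)) *
          (HahnSeries.C (c - c₁) + HahnSeries.single e 1) * (s₁ * s₂)
        = ((HahnSeries.C c + HahnSeries.single e (1 : A)) * s₁) *
          ((HahnSeries.C (c - c₁) + HahnSeries.single e 1) * s₂) := by ring
      _ = 1 := by rw [hs₁, hs₂, one_mul]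
  have hneg : IsUnit ((0 : A) - c₁) := by rw [zero_sub]; exact hc₁.neg
  have hreg' : ∀ c : k, (s.map (algebraMap A k)).eval c ≠ 0 →
      ∃ θ : E →+* LaurentSeries k, IsPlace θ c 1 := by
    intro c hc
    rw [hs, Polynomial.map_mul, Polynomial.map_sub, map_X, map_C, eval_mul, eval_sub, eval_X,
      eval_C] at hc
    exact hreg c (left_ne_zero_of_mul hc) (sub_ne_zero.mp (right_ne_zero_of_mul hc))
  -- the place at infinity
  obtain ⟨α, hα, hα3, -⟩ := hi.exists_place
  obtain ⟨β, hβ, -, -⟩ := hz.exists_place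
  have hinjE : Function.Injective (algebraMap k[X] E) := hα.injective
  have hinj : Function.Injective (algebraMap A[X] E) := by
    intro p q h
    rw [hcomp, hcomp] at h
    exact Polynomial.map_injective _ hinjA (hinjE h)
  have hder : ∀ z : E, IsIntegral A[X] z → ∀ j, hasse D j z ∈ locInt A E := by
    intro z hz j
    refine hasse_mem_locInt hrank hcomp hfix hDt hDC halg halgA hα hi.unit G₁
      (fun x hx => ?_) hm hcard hKum hz j
    obtain ⟨f, g, hg, hfg⟩ := hBD x hx
    obtain ⟨f', hf'⟩ := hα3 _ (⟨f, rfl⟩ : mapLS (algebraMap A k) f ∈ intLS A k)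
    obtain ⟨g', hg'⟩ := hα3 _ (⟨g, rfl⟩ : mapLS (algebraMap A k) g ∈ intLS A k)
    refine ⟨f', g', ?_, ?_⟩
    · rintro rfl
      rw [map_zero] at hg'
      have h0 := (map_eq_zero α).mp hg'.symm
      exact hg (hinjL (h0.trans (map_zero _).symm))
    · rw [hf', hg', RingHom.comp_apply]
      change α _ * α _ = α _
      rw [← map_mul, hfg]
  -- residue field is infinite
  haveI : Infinite κ := IsAlgClosed.instInfinite
  obtain ⟨c₀', hc₀'⟩ : ∃ c' : κ, c' ∉ ({0, res c₁} : Set κ) :=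
    (Set.toFinite ({0, res c₁} : Set κ)).infinite_compl.nonempty
  have hgen : ∀ c' : κ, c' ∉ ({0, res c₁} : Set κ) → ∃ c : A, res c = c' ∧
      ∃ θ : E →+* LaurentSeries k, IsPlace θ (algebraMap A k c) 1 ∧
      ∃ s' : LaurentSeries A, evT (HahnSeries.C c + HahnSeries.single 1 1) s * s' = 1 := by
    intro c' hc'
    rw [Set.mem_insert_iff, Set.mem_singleton_iff, not_or] at hc'
    obtain ⟨c, rfl⟩ := IsLocalRing.residue_surjective c'
    refine ⟨c, rfl, ?_⟩
    have hcu : IsUnit c := by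
      by_contra h
      exact hc'.1 ((IsLocalRing.residue_eq_zero_iff c).mpr ((IsLocalRing.mem_maximalIdeal c).mpr h))
    have hcu' : IsUnit (c - c₁) := by
      by_contra h
      apply hc'.2
      have := (IsLocalRing.residue_eq_zero_iff (c - c₁)).mpr
        ((IsLocalRing.mem_maximalIdeal _).mpr h)
      rwa [map_sub, sub_eq_zero] at this
    obtain ⟨θ, hθ⟩ := hreg (algebraMap A k c)
      (fun h => hcu.ne_zero (hinjA (by rw [h, map_zero])))
      (fun h => hcu'.ne_zero (by rw [hinjA h, sub_self]))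
    exact ⟨θ, hθ, hs' c 1 (Or.inl ⟨one_pos, hcu⟩) (Or.inl ⟨one_pos, hcu'⟩)⟩
  have hstab : ∀ (𝔓 : Ideal (integralClosure A[X] E)) [𝔓.IsPrime],
      𝔓.comap (algebraMap A[X] (integralClosure A[X] E)) = gaussPrime A →
      ∀ g : G, g • 𝔓 = 𝔓 := by
    intro 𝔓 _ hcomap g
    refine smul_eq_of_gauss (s := s) hrank hnf hcomp hfix hDt hDC halg hder hreg' ?_ ?_ ?_ 𝔓
      hcomap g
    · intro c'
      by_cases hc' : c' ∈ ({0, res c₁} : Set κ)
      · rw [Set.mem_insert_iff, Set.mem_singleton_iff] at hc'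
        rcases hc' with rfl | rfl
        · refine ⟨0, map_zero _, ni, hni, _, hα, ?_⟩
          exact hs' 0 ni (Or.inr (Or.inl rfl)) (Or.inl ⟨by exact_mod_cast hni, hneg⟩)
        · obtain ⟨e, he, θ, hθ⟩ := hell
          refine ⟨c₁, rfl, e, he, θ, hθ, ?_⟩
          exact hs' c₁ e (Or.inl ⟨by exact_mod_cast he, hc₁⟩) (Or.inr (Or.inl (sub_self _)))
      · obtain ⟨c, hc, θ, hθ, s', hs'⟩ := hgen c' hc'
        exact ⟨c, hc, 1, one_pos, θ, by exact_mod_cast hθ, s', by exact_mod_cast hs'⟩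
    · obtain ⟨c, -, θ, hθ, s', hs'⟩ := hgen c₀' hc₀'
      exact ⟨c, θ, hθ, s', hs'⟩
    · refine ⟨nz, hnz, (β : LaurentSeries k →+* LaurentSeries k).comp θz, ?_, ?_⟩
      · rw [map_zero] at hβ
        exact hβ
      · obtain ⟨s', hs''⟩ := hs' 0 (-(nz : ℤ)) (Or.inr (Or.inl rfl))
          (Or.inr (Or.inr (by omega)))
        rw [map_zero, zero_add] at hs''
        exact ⟨s', hs''⟩
  -- the reductions
  have hred : ∀ (θ : E →+* LaurentSeries k) (T : LaurentSeries A) (n : ℤ), CuspEmb θ T n →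
      ∃ φ : 𝓑 →+* LaurentSeries A, (∀ b : 𝓑, mapLS (algebraMap A k) (φ b) = θ b) ∧
      (RingHom.ker ((mapLS res).comp φ)).comap (algebraMap A[X] 𝓑) = gaussPrime A := by
    intro θ T n h
    have hb : ∀ (p : A[X]) (f : LaurentSeries A),
        mapLS (algebraMap A k) f = θ (algebraMap A[X] E p) → f = evT T p := by
      intro p f hf
      apply hinjL
      rw [hf, hcomp, h.base, mapLS_evT]
    refine exists_red (k' := k) θ (fun z hz => ?_) (fun p hp f hf h0 => ?_)
      (fun p hp f hf => ?_)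
    · obtain ⟨s', hs''⟩ := hs' 0 n (Or.inr (Or.inl rfl)) (by
        rcases lt_or_gt_of_ne h.ne_zero with h3 | h3
        · exact Or.inr (Or.inr h3)
        · exact Or.inl ⟨h3, hneg⟩)
      rw [map_zero, zero_add] at hs''
      exact cusp_integral (G := G) hrank hcomp hfix hDt hDC halg hder hreg' h.unit h.low h.lead
        h.base hs'' hz
    · rw [hb p f hf, mapLS_evT] at h0
      exact evT_ne_zero h.ne_zero (by
        rw [coeff_mapLS]
        exact (h.lead.map res).ne_zero) hp h0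
    · rw [hb p f hf, mapLS_evT, hp, map_zero]
  obtain ⟨φ₁, hφ₁, hker₁⟩ := hred θ₁ T₁ n₁ h₁
  obtain ⟨φ₂, hφ₂, hker₂⟩ := hred θ₂ T₂ n₂ h₂
  have hCC : ∀ (θ : E →+* LaurentSeries k) (T : LaurentSeries A) (n : ℤ), CuspEmb θ T n →
      ∀ φ : 𝓑 →+* LaurentSeries A, (∀ b : 𝓑, mapLS (algebraMap A k) (φ b) = θ b) →
      ∀ a : A, φ (algebraMap A[X] 𝓑 (C a)) = HahnSeries.C a := by
    intro θ T n h φ hφ a
    apply hinjL
    rw [hφ]
    change θ (algebraMap A[X] E (C a)) = _
    rw [hcomp, h.base, map_C, evT_C, mapLS_C]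
  exact root_eq_one (G := G) halgA hinj hstab hφ₁ hφ₂ (hCC θ₁ T₁ n₁ h₁ φ₁ hφ₁)
    (hCC θ₂ T₂ n₂ h₂ φ₂ hφ₂) hker₁ hker₂ hm hy hP hP0 hyP hχ hyχ

end Fermat.Agent.LP
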