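import Mathlib
import Fermat.Agent.LP.Main

set_option autoImplicit false
set_option linter.unusedSectionVars false

/-!
# The comparison theorem for Galois extensions
-/

open Polynomial
open scoped Pointwise

noncomputable section

namespace Fermat.Agent.LP

section Smul

variable {R F E : Type*} [CommRing R] [Field F] [Field E] [Algebra R F] [Algebra F E] [Algebra R E]
  [IsScalarTower R F E]

theorem smulComm_of_tower : SMulCommClass (E ≃ₐ[F] E) R E where
  smul_comm g r x := by
    change g (r • x) = r • g x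
    rw [Algebra.smul_def, Algebra.smul_def, map_mul, IsScalarTower.algebraMap_apply R F E,
      AlgEquiv.commutes]

end Smul

section Fraction

variable {A k F : Type*} [CommRing A] [IsDomain A] [Field k] [Algebra A k] [IsFractionRing A k]
  [Field F] [Algebra A[X] F] [Algebra k[X] F] [IsFractionRing k[X] F]

theorem isFractionRing_polynomial
    (hcomp : ∀ p : A[X], algebraMap A[X] F p = algebraMap k[X] F (p.map (algebraMap A k))) :
    IsFractionRing A[X] F := by
  have hinjA : Function.Injective (algebraMap A k) := IsFractionRing.injective A k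
  have hinj : Function.Injective (algebraMap A[X] F) := by
    intro p q h
    rw [hcomp, hcomp] at h
    exact Polynomial.map_injective _ hinjA (IsFractionRing.injective k[X] F h)
  haveI : FaithfulSMul A[X] F := (faithfulSMul_iff_algebraMap_injective _ _).mpr hinj
  refine IsFractionRing.of_field A[X] F fun z => ?_
  obtain ⟨p, q, hq, rfl⟩ := IsFractionRing.div_surjective (A := k[X]) z
  have hnorm : ∀ p : k[X], ∃ (b : A) (h : A[X]), b ≠ 0 ∧
      h.map (algebraMap A k) = C (algebraMap A k b) * p := by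
    intro p
    obtain ⟨b, hb, hbh⟩ := IsLocalization.integerNormalization_spec (nonZeroDivisors A) p
    refine ⟨b, IsLocalization.integerNormalization (nonZeroDivisors A) p,
      nonZeroDivisors.ne_zero hb, ?_⟩
    rw [hbh, ← smul_eq_C_mul, algebraMap_smul]
  obtain ⟨b, h, hb, hbh⟩ := hnorm p
  obtain ⟨c, g, hc, hcg⟩ := hnorm q
  refine ⟨C c * h, C b * g, ?_⟩
  have hq0 : algebraMap k[X] F q ≠ 0 := by
    intro h0
    have := IsFractionRing.injective k[X] F (h0.trans (map_zero _).symm)
    exact nonZeroDivisors.ne_zero hq this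
  have hb0 : algebraMap k[X] F (C (algebraMap A k b)) ≠ 0 := by
    intro h0
    have := IsFractionRing.injective k[X] F (h0.trans (map_zero _).symm)
    rw [C_eq_zero] at this
    exact hb (hinjA (by rw [this, map_zero]))
  have hc0 : algebraMap k[X] F (C (algebraMap A k c)) ≠ 0 := by
    intro h0
    have := IsFractionRing.injective k[X] F (h0.trans (map_zero _).symm)
    rw [C_eq_zero] at this
    exact hc (hinjA (by rw [this, map_zero]))
  rw [map_mul, map_mul, hcomp, hcomp, hcomp, hcomp, map_C, map_C, hbh, hcg, map_mul, map_mul]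
  field_simp

end Fraction

section Deriv

variable {k E : Type*} [Field k] [CharZero k] [Field E] [Algebra k[X] E]

/-- existence of the derivation `d/dt`. -/
theorem exists_deriv (hinj : Function.Injective (algebraMap k[X] E))
    (halg : ∀ z : E, IsAlgebraic k[X] z) (θ : E →+* LaurentSeries k)
    (hθC : ∀ a : k, θ (algebraMap k[X] E (C a)) = HahnSeries.C a)
    (hT : euler (θ (algebraMap k[X] E X)) ≠ 0) :
    ∃ D : Derivation ℤ E E, D (algebraMap k[X] E X) = 1 ∧
      ∀ a : k, D (algebraMap k[X] E (C a)) = 0 := by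
  set τ := euler (θ (algebraMap k[X] E X)) with hτ
  -- the derivation on Laurent series
  let d : LaurentSeries k →+ LaurentSeries k :=
    { toFun := fun x => τ⁻¹ * euler x
      map_zero' := by rw [map_zero, mul_zero]
      map_add' := fun x y => by rw [map_add, mul_add] }
  have hdmul : ∀ x y, d (x * y) = x * d y + y * d x := by
    intro x y
    change τ⁻¹ * euler (x * y) = x * (τ⁻¹ * euler y) + y * (τ⁻¹ * euler x)
    rw [euler_mul]
    ring
  have hdX : d (θ (algebraMap k[X] E X)) = 1 := inv_mul_cancel₀ hT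
  have hdC : ∀ a : k, d (θ (algebraMap k[X] E (C a))) = 0 := by
    intro a
    change τ⁻¹ * euler _ = 0
    rw [hθC, euler_C, mul_zero]
  have hbase : ∀ p : k[X], d (θ (algebraMap k[X] E p)) =
      θ (algebraMap k[X] E (derivative p)) := by
    intro p
    induction p using Polynomial.induction_on with
    | C a => rw [hdC, derivative_C, map_zero, map_zero]
    | add p q hp hq => rw [map_add, map_add, map_add, hp, hq, derivative_add, map_add, map_add]
    | monomial n a ih =>
      have h2 : derivative (C a * X ^ n * X) = derivative (C a * X ^ n) * X + C a * X ^ n := by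
        rw [derivative_mul (f := C a * X ^ n), derivative_X, mul_one]
      rw [pow_succ, ← mul_assoc, map_mul, map_mul, hdmul, ih, hdX, h2, map_add, map_add,
        map_mul (algebraMap k[X] E) (derivative (C a * X ^ n)) X,
        map_mul θ (algebraMap k[X] E (derivative (C a * X ^ n)))]
      ring
  have hpow : ∀ (z : E) (n : ℕ), d (θ z ^ n) = n * θ z ^ (n - 1) * d (θ z) := by
    intro z n
    induction n with
    | zero =>
      have := hdC 1
      rw [C_1, map_one, map_one] at this
      simp [this]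
    | succ n ih =>
      rw [pow_succ, hdmul, ih]
      rcases Nat.eq_zero_or_pos n with rfl | hn
      · simp
      · obtain ⟨m, rfl⟩ := Nat.exists_eq_succ_of_ne_zero hn.ne'
        simp only [Nat.succ_eq_add_one, Nat.add_sub_cancel]
        push_cast
        ring
  -- derivative of a polynomial expression
  have haeval : ∀ (z : E) (P : k[X][X]), ∃ w : E, d (θ (aeval z P)) =
      θ w + θ (aeval z P.derivative) * d (θ z) := by
    intro z P
    induction P using Polynomial.induction_on' with
    | add p q hp hq =>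
      obtain ⟨w, hw⟩ := hp
      obtain ⟨w', hw'⟩ := hq
      refine ⟨w + w', ?_⟩
      rw [map_add, map_add, map_add, hw, hw', derivative_add, map_add, map_add, map_add]
      ring
    | monomial n a =>
      refine ⟨algebraMap k[X] E (derivative a) * z ^ n, ?_⟩
      rw [aeval_monomial, map_mul, hdmul, hbase, map_pow, hpow, derivative_monomial,
        aeval_monomial, map_mul, map_mul, map_mul, map_mul, map_pow, map_pow, map_natCast,
        map_natCast]
      ring
  have hex : ∀ z : E, ∃ w : E, θ w = d (θ z) := by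
    intro z
    obtain ⟨P₀, hP₀, hP₀z⟩ := halg z
    have hex : ∃ n, ∃ P : k[X][X], P ≠ 0 ∧ aeval z P = 0 ∧ P.natDegree = n :=
      ⟨_, P₀, hP₀, hP₀z, rfl⟩
    classical
    obtain ⟨P, hP0, hPz, hPn⟩ := Nat.find_spec hex
    have hmin : ∀ Q : k[X][X], Q ≠ 0 → Q.natDegree < P.natDegree → aeval z Q ≠ 0 := by
      intro Q hQ hlt hQz
      rw [hPn] at hlt
      exact Nat.find_min hex hlt ⟨Q, hQ, hQz, rfl⟩
    have hpos : 0 < P.natDegree := by
      by_contra hcon
      have h1 : P.natDegree = 0 := by omega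
      rw [eq_C_of_natDegree_eq_zero h1, aeval_C] at hPz
      apply hP0
      rw [eq_C_of_natDegree_eq_zero h1, hinj (hPz.trans (map_zero _).symm), C_0]
    have h2 : aeval z P.derivative ≠ 0 := by
      refine hmin _ ?_ (natDegree_derivative_lt hpos.ne')
      intro h
      have := derivative_eq_zero.mp h
      omega
    obtain ⟨w, hw⟩ := haeval z P
    rw [hPz, map_zero, map_zero] at hw
    refine ⟨-w / aeval z P.derivative, ?_⟩
    have h3 : θ (aeval z P.derivative) ≠ 0 := by
      rw [Ne, map_eq_zero]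
      exact h2
    rw [map_div₀, div_eq_iff h3, map_neg, mul_comm]
    exact (eq_neg_of_add_eq_zero_right hw.symm).symm
  choose D₀ hD₀ using hex
  have hθinj : Function.Injective θ := θ.injective
  let Dadd : E →+ E :=
    { toFun := D₀
      map_zero' := hθinj (by rw [hD₀, map_zero, map_zero])
      map_add' := fun x y => hθinj (by rw [hD₀, map_add, map_add, map_add, hD₀, hD₀]) }
  refine ⟨Derivation.mk' Dadd.toIntLinearMap fun x y => ?_, ?_, fun a => ?_⟩
  · apply hθinj
    change θ (D₀ (x * y)) = θ (x • D₀ y + y • D₀ x)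
    rw [hD₀, map_mul, hdmul, smul_eq_mul, smul_eq_mul, map_add, map_mul, map_mul, hD₀, hD₀]
  · apply hθinj
    change θ (D₀ _) = θ 1
    rw [hD₀, hdX, map_one]
  · apply hθinj
    change θ (D₀ _) = θ 0
    rw [hD₀, hdC, map_zero]

end Deriv

section Main

variable {A k F E : Type*} [CommRing A] [IsDomain A] [ValuationRing A] [Field k] [CharZero k]
  [Algebra A k] [IsFractionRing A k] [Field F] [Algebra A[X] F] [Algebra k[X] F]
  [IsFractionRing k[X] F] [Field E] [Algebra F E] [Algebra A[X] E] [Algebra k[X] E]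
  [IsScalarTower A[X] F E] [IsScalarTower k[X] F E] [FiniteDimensional F E] [IsGalois F E]

local notation "res" => IsLocalRing.residue A
local notation "κ" => IsLocalRing.ResidueField A

/-- **The comparison theorem, Galois form.** -/
theorem comparison_galois [IsAlgClosed k] [IsAlgClosed κ]
    (hrank : ∀ a : A, a ≠ 0 → ∀ π ∈ IsLocalRing.maximalIdeal A, ∃ n : ℕ, a ∣ π ^ n)
    (hnf : ∃ ϖ ∈ IsLocalRing.maximalIdeal A, ϖ ≠ 0)
    (hcomp : ∀ p : A[X], algebraMap A[X] F p = algebraMap k[X] F (p.map (algebraMap A k)))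
    -- places
    {c₁ : A} (hc₁ : IsUnit c₁)
    (hreg : ∀ c : k, c ≠ 0 → c ≠ algebraMap A k c₁ → ∃ θ : E →+* LaurentSeries k, IsPlace θ c 1)
    (hell : ∃ e : ℕ, 0 < e ∧ ∃ θ : E →+* LaurentSeries k, IsPlace θ (algebraMap A k c₁) e)
    {θi θz : E →+* LaurentSeries k} {Ti Tz : LaurentSeries A} {ni nz : ℕ} (hni : 0 < ni)
    (hnz : 0 < nz) (hi : CuspEmb θi Ti (ni : ℤ)) (hz : CuspEmb θz Tz (-(nz : ℤ)))
    -- bounded denominators and Kummer extension
    (G₁ : Subgroup (E ≃ₐ[F] E)) [hG₁ : G₁.Normal]
    (hBD : ∀ x : E, (∀ g ∈ G₁, g x = x) → ∃ f g : LaurentSeries A, g ≠ 0 ∧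
      mapLS (algebraMap A k) g * θi x = mapLS (algebraMap A k) f)
    {m : ℕ} (hm : IsUnit (m : A)) (hcard : IsUnit ((Nat.card G₁ : ℕ) : A))
    (hKum : ∀ x : E, ∃ (s : Finset (G₁ →* kˣ)) (y : (G₁ →* kˣ) → E), (∀ ψ ∈ s, ψ ^ m = 1) ∧
      (∀ ψ ∈ s, ∀ g : G₁, (g : E ≃ₐ[F] E) (y ψ) = algebraMap k[X] E (C (ψ g : k)) * y ψ) ∧
      x = ∑ ψ ∈ s, y ψ)
    -- the two embeddings to compare
    {θ₁ θ₂ : E →+* LaurentSeries k} {T₁ T₂ : LaurentSeries A} {n₁ n₂ : ℤ}
    (h₁ : CuspEmb θ₁ T₁ n₁) (h₂ : CuspEmb θ₂ T₂ n₂) {y : E} (hy : y ≠ 0)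
    {P₁ P₂ : LaurentSeries A}
    (hP : mapLS res P₁ = mapLS res P₂) (hP0 : mapLS res P₁ ≠ 0)
    (hyP : θ₁ y ^ m * mapLS (algebraMap A k) P₂ = mapLS (algebraMap A k) P₁)
    {χ : A} (hχ : χ ^ m = 1) (hyχ : θ₂ y = HahnSeries.C (algebraMap A k χ) * θ₁ y) : χ = 1 := by
  classical
  haveI : IsFractionRing A[X] F := isFractionRing_polynomial (k := k) hcomp
  haveI : SMulCommClass (E ≃ₐ[F] E) A[X] E := smulComm_of_tower
  haveI : SMulCommClass (E ≃ₐ[F] E) k[X] E := smulComm_of_tower
  have hcompE : ∀ p : A[X], algebraMap A[X] E p = algebraMap k[X] E (p.map (algebraMap A k)) := by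
    intro p
    rw [IsScalarTower.algebraMap_apply A[X] F E, hcomp, ← IsScalarTower.algebraMap_apply k[X] F E]
  have hfixF : ∀ x : E, (∀ g : E ≃ₐ[F] E, g • x = x) → ∃ y : F, algebraMap F E y = x := by
    intro x hx
    exact (IsGalois.mem_range_algebraMap_iff_fixed x).mpr hx
  have hfix : ∀ x : E, (∀ g : E ≃ₐ[F] E, g • x = x) → ∃ p q : k[X], q ≠ 0 ∧
      algebraMap k[X] E q * x = algebraMap k[X] E p := by
    intro x hx
    obtain ⟨y, rfl⟩ := hfixF x hx
    obtain ⟨p, q, hq, rfl⟩ := IsFractionRing.div_surjective (A := k[X]) y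
    refine ⟨p, q, nonZeroDivisors.ne_zero hq, ?_⟩
    have hq0 : algebraMap k[X] F q ≠ 0 := by
      intro h0
      have := IsFractionRing.injective k[X] F (h0.trans (map_zero _).symm)
      exact nonZeroDivisors.ne_zero hq this
    rw [IsScalarTower.algebraMap_apply k[X] F E, IsScalarTower.algebraMap_apply k[X] F E, ← map_mul,
      mul_div_cancel₀ _ hq0]
  have halg : ∀ z : E, IsAlgebraic k[X] z := fun z =>
    (IsFractionRing.isAlgebraic_iff k[X] F E).mpr (Algebra.IsAlgebraic.isAlgebraic z)
  have halgA : ∀ z : E, IsAlgebraic A[X] z := fun z =>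
    (IsFractionRing.isAlgebraic_iff A[X] F E).mpr (Algebra.IsAlgebraic.isAlgebraic z)
  have hinjE : Function.Injective (algebraMap k[X] E) := by
    intro p q h
    rw [IsScalarTower.algebraMap_apply k[X] F E, IsScalarTower.algebraMap_apply k[X] F E] at h
    exact IsFractionRing.injective k[X] F ((algebraMap F E).injective h)
  obtain ⟨D, hDt, hDC⟩ := exists_deriv hinjE halg θi (fun a => by rw [hi.base, evT_C]) (by
    rw [hi.base, evT_X]
    intro h0
    have h1 := congrArg (fun x : LaurentSeries k => x.coeff ni) h0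
    rw [coeff_euler, coeff_mapLS, HahnSeries.coeff_zero] at h1
    have h2 : algebraMap A k (Ti.coeff ni) ≠ 0 := (hi.lead.map _).ne_zero
    have h3 : ((ni : ℤ) : k) ≠ 0 := by exact_mod_cast hni.ne'
    exact (mul_ne_zero h3 h2) h1)
  haveI : Algebra.IsInvariant A[X] (integralClosure A[X] E) (E ≃ₐ[F] E) := by
    refine ⟨fun b hb => ?_⟩
    obtain ⟨y, hy⟩ := hfixF (b : E) fun g => congrArg Subtype.val (hb g)
    have h1 : IsIntegral A[X] y := by
      have h2 : IsIntegral A[X] (algebraMap F E y) := by rw [hy]; exact b.2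
      exact (isIntegral_algebraMap_iff (algebraMap F E).injective).mp h2
    obtain ⟨p, hp⟩ := IsIntegrallyClosed.isIntegral_iff.mp h1
    refine ⟨p, Subtype.ext ?_⟩
    change algebraMap A[X] E p = b
    rw [IsScalarTower.algebraMap_apply A[X] F E, hp, hy]
  exact comparison (G := E ≃ₐ[F] E) hrank hnf hcompE hfix hDt hDC halg halgA hc₁ hreg hell hni hnz
    hi hz G₁ hBD hm hcard hKum h₁ h₂ hy hP hP0 hyP hχ hyχ

end Main

end Fermat.Agent.LP
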