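import Mathlib
import Fermat.Agent.LP.Galois

set_option autoImplicit false
set_option linter.unusedSectionVars false

/-!
# The comparison theorem: Kummer generators with bounded denominators
-/

open Polynomial
open scoped Pointwise

noncomputable section

namespace Fermat.Agent.LP

section Roots

theorem exists_root_of_pow_eq {k E : Type*} [Field k] [IsAlgClosed k] [Field E] (i : k →+* E)
    {m : ℕ} (hm : 0 < m) {x y : E} (hy : y ≠ 0) (h : x ^ m = y ^ m) :
    ∃ ζ : k, ζ ^ m = 1 ∧ x = i ζ * y := by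
  have h4 : (x / y) ^ m = 1 := by
    rw [div_pow, h, div_self (pow_ne_zero _ hy)]
  have h5 : ((X ^ m - 1 : k[X]).map i).IsRoot (x / y) := by
    rw [IsRoot, eval_map, eval₂_sub, eval₂_pow, eval₂_X, eval₂_one, h4, sub_self]
  have h6 : (X ^ m - 1 : k[X]) ≠ 0 := by
    have := X_pow_sub_C_ne_zero (R := k) hm 1
    rwa [C_1] at this
  have h7 := (IsAlgClosed.splits (X ^ m - 1 : k[X])).eq_prod_roots
  rw [h7, Polynomial.map_mul, Polynomial.map_multiset_prod, map_C] at h5
  rw [IsRoot, eval_mul, eval_C, mul_eq_zero] at h5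
  rcases h5 with h5 | h5
  · exfalso
    rw [map_eq_zero] at h5
    exact (leadingCoeff_ne_zero.mpr h6) h5
  · rw [eval_multiset_prod, Multiset.prod_eq_zero_iff, Multiset.mem_map] at h5
    obtain ⟨q, hq, hq0⟩ := h5
    rw [Multiset.mem_map] at hq
    obtain ⟨r, hr, rfl⟩ := hq
    rw [Multiset.mem_map] at hr
    obtain ⟨ζ, hζ, rfl⟩ := hr
    rw [Polynomial.map_sub, map_X, map_C, eval_sub, eval_X, eval_C, sub_eq_zero] at hq0
    refine ⟨ζ, ?_, by rw [← hq0, div_mul_cancel₀ _ hy]⟩
    apply i.injective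
    rw [map_pow, ← hq0, h4, map_one]

end Roots

section Kummer

variable {k F E : Type*} [Field k] [IsAlgClosed k] [Field F] [Algebra k[X] F]
  [Field E] [Algebra F E] [Algebra k[X] E] [IsScalarTower k[X] F E]
  {m : ℕ} {Y : Set E}

/-- the Kummer subgroup -/
def kumGroup (F : Type*) {E : Type*} [Field F] [Field E] [Algebra F E] (m : ℕ) (Y : Set E) :
    Subgroup (E ≃ₐ[F] E) where
  carrier := {g | ∀ y ∈ Y, g (y ^ m) = y ^ m}
  mul_mem' := fun {g h} hg hh y hy => by
    change g (h (y ^ m)) = y ^ m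
    rw [hh y hy, hg y hy]
  one_mem' := fun _ _ => rfl
  inv_mem' := fun {g} hg y hy => by
    have h1 : g⁻¹ (g (y ^ m)) = y ^ m := by
      change (g⁻¹ * g) (y ^ m) = _
      rw [inv_mul_cancel]; rfl
    rwa [hg y hy] at h1

theorem kumGroup_normal (hstab : ∀ g : E ≃ₐ[F] E, ∀ y ∈ Y, g y ∈ Y) :
    (kumGroup F m Y).Normal := by
  refine ⟨fun g hg h y hy => ?_⟩
  change h (g (h⁻¹ (y ^ m))) = y ^ m
  rw [map_pow, hg _ (hstab h⁻¹ y hy), ← map_pow]
  change (h * h⁻¹) (y ^ m) = _
  rw [mul_inv_cancel]; rfl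

theorem exists_char (hm : 0 < m) {y : E} (hy : y ∈ Y) :
    ∃ ψ : kumGroup F m Y →* kˣ, ψ ^ m = 1 ∧
      ∀ g : kumGroup F m Y, (g : E ≃ₐ[F] E) y = algebraMap k[X] E (C (ψ g : k)) * y := by
  classical
  let i : k →+* E := (algebraMap k[X] E).comp C
  by_cases hy0 : y = 0
  · refine ⟨1, by ext g; simp, fun g => ?_⟩
    rw [hy0, map_zero, mul_zero]
  have h1 : ∀ g : kumGroup F m Y, ∃ ζ : k, ζ ^ m = 1 ∧ (g : E ≃ₐ[F] E) y = i ζ * y := by
    intro g
    refine exists_root_of_pow_eq i hm hy0 ?_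
    rw [← map_pow]
    exact g.2 y hy
  choose ζ hζ1 hζ2 using h1
  have hζ0 : ∀ g, ζ g ≠ 0 := by
    intro g h
    have := hζ1 g
    rw [h, zero_pow hm.ne'] at this
    exact zero_ne_one this
  have hinj : Function.Injective i := i.injective
  have hfixC : ∀ (g : E ≃ₐ[F] E) (a : k), g (i a) = i a := by
    intro g a
    change g (algebraMap k[X] E (C a)) = algebraMap k[X] E (C a)
    rw [IsScalarTower.algebraMap_apply k[X] F E, AlgEquiv.commutes]
  have hone : ζ 1 = 1 := by
    apply hinj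
    apply mul_right_cancel₀ hy0
    rw [← hζ2, map_one, one_mul]
    rfl
  have hmul : ∀ g h, ζ (g * h) = ζ g * ζ h := by
    intro g h
    apply hinj
    apply mul_right_cancel₀ hy0
    rw [← hζ2, map_mul]
    change (g : E ≃ₐ[F] E) ((h : E ≃ₐ[F] E) y) = _
    rw [hζ2 h, map_mul, hfixC, hζ2 g]
    ring
  let ψ₀ : kumGroup F m Y →* k :=
    { toFun := ζ
      map_one' := hone
      map_mul' := hmul }
  refine ⟨ψ₀.toHomUnits, ?_, fun g => ?_⟩
  · ext g
    have : ((ψ₀.toHomUnits ^ m) g : k) = ζ g ^ m := by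
      rw [MonoidHom.pow_apply, Units.val_pow_eq_pow_val]
      rfl
    rw [this, hζ1]
    rfl
  · exact hζ2 g

/-- eigenvector decomposition -/
theorem exists_decomp [FiniteDimensional F E] (hm : 0 < m)
    (hgen : IntermediateField.adjoin F Y = ⊤) (x : E) :
    ∃ (s : Finset (kumGroup F m Y →* kˣ)) (y : (kumGroup F m Y →* kˣ) → E),
      (∀ ψ ∈ s, ψ ^ m = 1) ∧
      (∀ ψ ∈ s, ∀ g : kumGroup F m Y,
        (g : E ≃ₐ[F] E) (y ψ) = algebraMap k[X] E (C (ψ g : k)) * y ψ) ∧
      x = ∑ ψ ∈ s, y ψ := by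
  classical
  -- decomposition in terms of finitely supported functions
  suffices h : ∃ y : (kumGroup F m Y →* kˣ) →₀ E, (∀ ψ, y ψ ≠ 0 → ψ ^ m = 1) ∧
      (∀ ψ, ∀ g : kumGroup F m Y,
        (g : E ≃ₐ[F] E) (y ψ) = algebraMap k[X] E (C (ψ g : k)) * y ψ) ∧
      x = y.sum fun _ e => e by
    obtain ⟨y, h1, h2, h3⟩ := h
    exact ⟨y.support, y, fun ψ hψ => h1 ψ (Finsupp.mem_support_iff.mp hψ), fun ψ _ => h2 ψ, h3⟩
  -- monomials
  have hmono : ∀ μ ∈ Submonoid.closure Y, ∃ ψ : kumGroup F m Y →* kˣ, ψ ^ m = 1 ∧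
      ∀ g : kumGroup F m Y, (g : E ≃ₐ[F] E) μ = algebraMap k[X] E (C (ψ g : k)) * μ := by
    intro μ hμ
    induction hμ using Submonoid.closure_induction with
    | mem y hy => exact exists_char hm hy
    | one =>
      refine ⟨1, by ext g; simp, fun g => ?_⟩
      rw [map_one, MonoidHom.one_apply, Units.val_one, C_1, map_one, one_mul]
    | mul x y _ _ hx hy =>
      obtain ⟨ψ, h1, h2⟩ := hx
      obtain ⟨ψ', h1', h2'⟩ := hy
      refine ⟨ψ * ψ', ?_, fun g => ?_⟩
      · ext g
        have e1 : ψ g ^ m = 1 := DFunLike.congr_fun h1 g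
        have e2 : ψ' g ^ m = 1 := DFunLike.congr_fun h1' g
        have e3 : ((ψ * ψ') ^ m) g = 1 := by
          rw [MonoidHom.pow_apply, MonoidHom.mul_apply, mul_pow, e1, e2, one_mul]
        rw [e3]
        rfl
      rw [map_mul, h2, h2', MonoidHom.mul_apply, Units.val_mul, C_mul, map_mul]
      ring
  have hspan : x ∈ Submodule.span F (Submonoid.closure Y : Set E) := by
    have h1 : x ∈ IntermediateField.adjoin F Y := by rw [hgen]; trivial
    have h2 : (IntermediateField.adjoin F Y).toSubalgebra = Algebra.adjoin F Y :=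
      IntermediateField.adjoin_toSubalgebra_of_isAlgebraic
        (fun y _ => Algebra.IsAlgebraic.isAlgebraic y)
    have h3 : x ∈ Algebra.adjoin F Y := by rw [← h2]; exact h1
    rw [← Subalgebra.mem_toSubmodule, Algebra.adjoin_eq_span] at h3
    exact h3
  induction hspan using Submodule.span_induction with
  | mem μ hμ =>
    obtain ⟨ψ, h1, h2⟩ := hmono μ hμ
    refine ⟨Finsupp.single ψ μ, fun ψ' h => ?_, fun ψ' g => ?_, ?_⟩
    · by_cases h3 : ψ = ψ'
      · rw [← h3]; exact h1
      · rw [Finsupp.single_eq_of_ne (Ne.symm h3)] at h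
        exact absurd rfl h
    · by_cases h3 : ψ = ψ'
      · subst h3
        rw [Finsupp.single_eq_same]
        exact h2 g
      · rw [Finsupp.single_eq_of_ne (Ne.symm h3), map_zero, mul_zero]
    · rw [Finsupp.sum_single_index rfl]
  | zero => exact ⟨0, fun ψ h => absurd rfl h, fun ψ g => by simp, by simp⟩
  | add x y _ _ hx hy =>
    obtain ⟨u, h1, h2, h3⟩ := hx
    obtain ⟨v, h1', h2', h3'⟩ := hy
    refine ⟨u + v, fun ψ h => ?_, fun ψ g => ?_, ?_⟩
    · by_cases hu : u ψ = 0
      · apply h1' ψ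
        intro hv
        apply h
        rw [Finsupp.add_apply, hu, hv, add_zero]
      · exact h1 ψ hu
    · rw [Finsupp.add_apply, map_add, h2, h2', mul_add]
    · rw [Finsupp.sum_add_index' (fun _ => rfl) (fun _ _ _ => rfl), h3, h3']
  | smul a x _ hx =>
    obtain ⟨u, h1, h2, h3⟩ := hx
    refine ⟨a • u, fun ψ h => ?_, fun ψ g => ?_, ?_⟩
    · apply h1 ψ
      intro hu
      apply h
      rw [Finsupp.smul_apply, hu, smul_zero]
    · rw [Finsupp.smul_apply, Algebra.smul_def, map_mul, AlgEquiv.commutes, h2]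
      ring
    · rw [h3, Finsupp.sum_smul_index' (fun _ => rfl), Finsupp.smul_sum]

end Kummer

theorem pow_eq_one_of_mem (k : Type*) {F E : Type*} [Field k] [IsAlgClosed k] [Field F]
    [Algebra k[X] F] [Field E] [Algebra F E] [Algebra k[X] E] [IsScalarTower k[X] F E]
    {m : ℕ} {Y : Set E} (hm : 0 < m) (hgen : IntermediateField.adjoin F Y = ⊤)
    (g : kumGroup F m Y) : g ^ m = 1 := by
  have h1 : ∀ y ∈ Y, ((g ^ m : kumGroup F m Y) : E ≃ₐ[F] E) y = y := by
    intro y hy
    obtain ⟨ψ, hψ1, hψ2⟩ := exists_char (k := k) (F := F) hm hy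
    rw [hψ2, map_pow]
    have h3 : ψ g ^ m = 1 := DFunLike.congr_fun hψ1 g
    rw [h3, Units.val_one, C_1, map_one, one_mul]
  apply Subtype.ext
  apply AlgEquiv.ext
  intro x
  have hx : x ∈ IntermediateField.adjoin F Y := by rw [hgen]; trivial
  change ((g ^ m : kumGroup F m Y) : E ≃ₐ[F] E) x = x
  induction hx using IntermediateField.adjoin_induction with
  | mem y hy => exact h1 y hy
  | algebraMap a => exact AlgEquiv.commutes _ a
  | add x y _ _ hx hy => rw [map_add, hx, hy]
  | inv x _ hx => rw [map_inv₀, hx]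
  | mul x y _ _ hx hy => rw [map_mul, hx, hy]

section Main

variable {A k F E : Type*} [CommRing A] [IsDomain A] [ValuationRing A] [Field k] [CharZero k]
  [Algebra A k] [IsFractionRing A k] [Field F] [Algebra A[X] F] [Algebra k[X] F]
  [IsFractionRing k[X] F] [Field E] [Algebra F E] [Algebra A[X] E] [Algebra k[X] E]
  [IsScalarTower A[X] F E] [IsScalarTower k[X] F E] [FiniteDimensional F E] [IsGalois F E]

local notation "res" => IsLocalRing.residue A
local notation "κ" => IsLocalRing.ResidueField A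

/-- quotients of integral Laurent series -/
def quotLS (A k : Type*) [CommRing A] [IsDomain A] [Field k] [Algebra A k]
    (hinj : Function.Injective (algebraMap A k)) : Subfield (LaurentSeries k) where
  carrier := {x | ∃ f g : LaurentSeries A, g ≠ 0 ∧
    mapLS (algebraMap A k) g * x = mapLS (algebraMap A k) f}
  mul_mem' := by
    rintro x y ⟨f, g, hg, h⟩ ⟨f', g', hg', h'⟩
    refine ⟨f * f', g * g', mul_ne_zero hg hg', ?_⟩
    rw [map_mul, map_mul, ← h, ← h']
    ring
  one_mem' := ⟨1, 1, one_ne_zero, by rw [map_one, one_mul]⟩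
  add_mem' := by
    rintro x y ⟨f, g, hg, h⟩ ⟨f', g', hg', h'⟩
    refine ⟨g' * f + g * f', g * g', mul_ne_zero hg hg', ?_⟩
    rw [map_mul, map_add, map_mul, map_mul, ← h, ← h']
    ring
  zero_mem' := ⟨0, 1, one_ne_zero, by rw [mul_zero, map_zero]⟩
  neg_mem' := by
    rintro x ⟨f, g, hg, h⟩
    refine ⟨-f, g, hg, ?_⟩
    rw [map_neg, ← h, mul_neg]
  inv_mem' := by
    rintro x ⟨f, g, hg, h⟩
    by_cases hx : x = 0
    · exact ⟨0, 1, one_ne_zero, by rw [hx, inv_zero, mul_zero, map_zero]⟩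
    have hg' : mapLS (algebraMap A k) g ≠ 0 := by
      intro h0
      exact hg (mapLS_injective hinj (by rw [h0, map_zero]))
    have hf : f ≠ 0 := by
      rintro rfl
      rw [map_zero] at h
      exact (mul_ne_zero hg' hx) h
    refine ⟨g, f, hf, ?_⟩
    rw [← h, mul_assoc, mul_inv_cancel₀ hx, mul_one]

/-- **The comparison theorem with Kummer generators.** -/
theorem comparison_kummer [IsAlgClosed k] [IsAlgClosed κ]
    (hrank : ∀ a : A, a ≠ 0 → ∀ π ∈ IsLocalRing.maximalIdeal A, ∃ n : ℕ, a ∣ π ^ n)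
    (hnf : ∃ ϖ ∈ IsLocalRing.maximalIdeal A, ϖ ≠ 0)
    (hcomp : ∀ p : A[X], algebraMap A[X] F p = algebraMap k[X] F (p.map (algebraMap A k)))
    {l : ℕ} (hl : l.Prime) (hunit : ∀ n : ℕ, ¬ l ∣ n → IsUnit (n : A))
    -- places
    {c₁ : A} (hc₁ : IsUnit c₁)
    (hreg : ∀ c : k, c ≠ 0 → c ≠ algebraMap A k c₁ → ∃ θ : E →+* LaurentSeries k, IsPlace θ c 1)
    (hell : ∃ e : ℕ, 0 < e ∧ ∃ θ : E →+* LaurentSeries k, IsPlace θ (algebraMap A k c₁) e)
    {θi θz : E →+* LaurentSeries k} {Ti Tz : LaurentSeries A} {ni nz : ℕ} (hni : 0 < ni)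
    (hnz : 0 < nz) (hi : CuspEmb θi Ti (ni : ℤ)) (hz : CuspEmb θz Tz (-(nz : ℤ)))
    -- Kummer generators
    {m : ℕ} (hlm : ¬ l ∣ m) {Y : Set E}
    (hgen : IntermediateField.adjoin F Y = ⊤) (hstab : ∀ g : E ≃ₐ[F] E, ∀ y ∈ Y, g y ∈ Y)
    (hBD : ∀ y ∈ Y, ∃ f g : LaurentSeries A, g ≠ 0 ∧
      mapLS (algebraMap A k) g * θi (y ^ m) = mapLS (algebraMap A k) f)
    -- the two embeddings to compare
    {θ₁ θ₂ : E →+* LaurentSeries k} {T₁ T₂ : LaurentSeries A} {n₁ n₂ : ℤ}
    (h₁ : CuspEmb θ₁ T₁ n₁) (h₂ : CuspEmb θ₂ T₂ n₂) {y : E} (hy : y ≠ 0)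
    {P₁ P₂ : LaurentSeries A}
    (hP : mapLS res P₁ = mapLS res P₂) (hP0 : mapLS res P₁ ≠ 0)
    (hyP : θ₁ y ^ m * mapLS (algebraMap A k) P₂ = mapLS (algebraMap A k) P₁)
    {χ : A} (hχ : χ ^ m = 1) (hyχ : θ₂ y = HahnSeries.C (algebraMap A k χ) * θ₁ y) : χ = 1 := by
  classical
  have hinjA : Function.Injective (algebraMap A k) := IsFractionRing.injective A k
  have hmpos : 0 < m := Nat.pos_of_ne_zero (by rintro rfl; exact hlm (dvd_zero l))
  set G₁ := kumGroup F m Y with hG₁
  haveI : G₁.Normal := kumGroup_normal hstab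
  have hcard : IsUnit ((Nat.card G₁ : ℕ) : A) := by
    apply hunit
    intro hdvd
    haveI : Fact l.Prime := ⟨hl⟩
    obtain ⟨g, hg⟩ := exists_prime_orderOf_dvd_card' l hdvd
    have h1 := pow_eq_one_of_mem k hmpos hgen g
    have h2 := orderOf_dvd_of_pow_eq_one h1
    rw [hg] at h2
    exact hlm h2
  have hBD' : ∀ x : E, (∀ g ∈ G₁, g x = x) → ∃ f g : LaurentSeries A, g ≠ 0 ∧
      mapLS (algebraMap A k) g * θi x = mapLS (algebraMap A k) f := by
    intro x hx
    set Y' : Set E := (fun y => y ^ m) '' Y with hY'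
    have hfixing : (IntermediateField.adjoin F Y').fixingSubgroup = G₁ := by
      ext g
      rw [IntermediateField.mem_fixingSubgroup_iff]
      constructor
      · intro h y hy
        exact h _ (IntermediateField.subset_adjoin F Y' ⟨y, hy, rfl⟩)
      · intro h z hz
        induction hz using IntermediateField.adjoin_induction with
        | mem y hy =>
          obtain ⟨y', hy', rfl⟩ := hy
          exact h y' hy'
        | algebraMap a => exact AlgEquiv.commutes _ a
        | add x y _ _ hx hy => rw [map_add, hx, hy]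
        | inv x _ hx => rw [map_inv₀, hx]
        | mul x y _ _ hx hy => rw [map_mul, hx, hy]
    have hx1 : x ∈ IntermediateField.adjoin F Y' := by
      rw [← IsGalois.fixedField_fixingSubgroup (IntermediateField.adjoin F Y'), hfixing,
        IntermediateField.mem_fixedField_iff]
      exact hx
    clear hx
    set Q := quotLS A k hinjA with hQ
    have hconst : ∀ p : k[X], θi (algebraMap k[X] E p) ∈ Q := by
      intro p
      induction p using Polynomial.induction_on with
      | C a =>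
        rw [hi.base, evT_C]
        obtain ⟨b, c, hc, rfl⟩ := IsFractionRing.div_surjective (A := A) a
        refine ⟨HahnSeries.C b, HahnSeries.C c, ?_, ?_⟩
        · intro h0
          have h1 : c = 0 := HahnSeries.C_injective (h0.trans (map_zero _).symm)
          exact nonZeroDivisors.ne_zero hc h1
        · rw [mapLS_C, mapLS_C, ← map_mul, mul_div_cancel₀]
          intro h0
          exact nonZeroDivisors.ne_zero hc (hinjA (by rw [h0, map_zero]))
      | add p q hp hq =>
        rw [map_add, map_add]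
        exact Q.add_mem hp hq
      | monomial n a ih =>
        rw [pow_succ, ← mul_assoc, map_mul, map_mul]
        refine Q.mul_mem ih ?_
        rw [hi.base, evT_X]
        exact ⟨Ti, 1, one_ne_zero, by rw [map_one, one_mul]⟩
    change θi x ∈ Q
    induction hx1 using IntermediateField.adjoin_induction with
    | mem y hy =>
      obtain ⟨y', hy', rfl⟩ := hy
      exact hBD y' hy'
    | algebraMap a =>
      obtain ⟨p, q, hq, rfl⟩ := IsFractionRing.div_surjective (A := k[X]) a
      rw [map_div₀, map_div₀, ← IsScalarTower.algebraMap_apply k[X] F E,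
        ← IsScalarTower.algebraMap_apply k[X] F E]
      exact Q.div_mem (hconst p) (hconst q)
    | add x y _ _ hx hy => rw [map_add]; exact Q.add_mem hx hy
    | inv x _ hx => rw [map_inv₀]; exact Q.inv_mem hx
    | mul x y _ _ hx hy => rw [map_mul]; exact Q.mul_mem hx hy
  exact comparison_galois hrank hnf hcomp hc₁ hreg hell hni hnz hi hz G₁ hBD' (hunit m hlm) hcard
    (exists_decomp hmpos hgen) h₁ h₂ hy hP hP0 hyP hχ hyχ

end Main

end Fermat.Agent.LP
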